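import Fermat.Agent.CFTSec.Unr

set_option autoImplicit false
set_option maxHeartbeats 400000

/-! Changing the set of primes. -/

namespace Fermat.Agent.CFTSec

open Fermat.Agent.CFT Fermat.Agent.CFTLocal Finset
open scoped Pointwise

section group

variable {p : ℕ} {G : Type*} [Group G] {H' H : Subgroup G} {s : G} {A : Type*} [AddCommGroup A]
  [DistribMulAction G A]

theorem CycP.smul_mem_fix (h : CycP p H' H s) {g : G} (hg : g ∈ H) {a : A} (ha : a ∈ fix A H') :
    g • a ∈ fix A H' := by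
  intro k hk
  have h1 := ha _ (h.conj_mem' hg hk)
  calc k • g • a = g • (g⁻¹ * k * g) • a := by rw [smul_smul, smul_smul]; congr 1; group
    _ = g • a := by rw [h1]

theorem CycP.sum_mem_fix (h : CycP p H' H s) {a : A} (ha : a ∈ fix A H') :
    ∑ i ∈ range p, s ^ i • a ∈ fix A H := by
  set N := ∑ i ∈ range p, s ^ i • a with hN
  have hNk : ∀ k ∈ H', k • N = N := by
    intro k hk
    rw [hN, smul_sum]
    exact sum_congr rfl fun i _ => h.smul_mem_fix (H.pow_mem h.mem i) ha k hk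
  have hNs : s • N = N := by
    rw [hN, smul_sum]
    have h1 : ∀ i ∈ range p, s • s ^ i • a = s ^ (i + 1) • a := fun i _ => by
      rw [smul_smul, pow_succ']
    rw [sum_congr rfl h1]
    have h2 := sum_range_succ' (fun i => s ^ i • a) p
    have h3 := sum_range_succ (fun i => s ^ i • a) p
    rw [h3, ha _ ((h.ord p).mpr dvd_rfl), pow_zero, one_smul] at h2
    exact (add_right_cancel h2).symm
  intro g hg
  obtain ⟨i, -, k, hk, rfl⟩ := h.gen g hg
  rw [mul_smul, hNk k hk]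
  clear hg
  induction i with
  | zero => rw [pow_zero, one_smul]
  | succ i ih => rw [pow_succ, mul_smul, hNs, ih]

end group

noncomputable section

variable {S T : Finset Nat.Primes}

/-- inclusion -/
def inclQ (h : S ⊆ T) : QS S →+ QS T where
  toFun x := ⟨x.1, by
    obtain ⟨F, hF, hx⟩ := x.2
    exact ⟨F, hF.mono h, hx⟩⟩
  map_zero' := rfl
  map_add' _ _ := rfl

theorem qv_inclQ (h : S ⊆ T) (x : QS S) : qv (inclQ h x) = qv x := rfl

theorem divQ_inclQ (h : S ⊆ T) (x : QS S) {q : Nat.Primes} (hq : q ∉ T) (σ : GQ) :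
    (divQ (inclQ h x)).1 q σ = (divQ x).1 q σ := by
  rw [divQ_apply _ hq, divQ_apply _ (fun h' => hq (h h'))]
  rfl

/-- integral valuation -/
def ordZ (q : Nat.Primes) (y : LM q) : ℤ := -Int.log (q : ℕ) (nmL y)

theorem ordZ_eq {q : Nat.Primes} {y : LM q} {k : ℤ} (h : nmL y = ((q : ℕ) : ℝ) ^ (-k)) :
    ordZ q y = k := by
  rw [ordZ, h, Int.log_zpow q.2.one_lt, neg_neg]

theorem exists_nmL {F : IntermediateField ℚ Qb} (hF : F.IsUnramifiedOutside S) {q : Nat.Primes}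
    (hq : q ∉ S) {j : JQ q} (hj : j ∈ fix (JQ q) F.fixingSubgroup) (σ : GQ) :
    nmL (j.1 σ) = ((q : ℕ) : ℝ) ^ (-ordZ q (j.1 σ)) := by
  haveI := hF.1
  obtain ⟨k, hk⟩ := exists_nmL_eq q hj σ
  have h1 : nmL (j.1 σ) = ((q : ℕ) : ℝ) ^ (-k) := by
    rw [hk, cq_unram hF hq, inv_zpow, zpow_neg]
  rw [ordZ_eq h1, h1]

theorem ordZ_add {F : IntermediateField ℚ Qb} (hF : F.IsUnramifiedOutside S) {q : Nat.Primes}
    (hq : q ∉ S) {j j' : JQ q} (hj : j ∈ fix (JQ q) F.fixingSubgroup)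
    (hj' : j' ∈ fix (JQ q) F.fixingSubgroup) (σ : GQ) :
    ordZ q ((j + j').1 σ) = ordZ q (j.1 σ) + ordZ q (j'.1 σ) := by
  apply ordZ_eq
  show nmL (j.1 σ + j'.1 σ) = _
  rw [nmL_add, exists_nmL hF hq hj, exists_nmL hF hq hj', neg_add, zpow_add₀]
  exact_mod_cast q.2.ne_zero

open Classical in
/-- the divisor outside `S` of an idele -/
def resD (S : Finset Nat.Primes) (x : Jm T) : Nat.Primes → GQ → ℤ := fun q σ =>
  if q ∈ S then 0 else if h : q ∈ T then ordZ q ((x.1.1 ⟨q, h⟩).1 σ) else x.1.2.1 q σ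

theorem resD_mem (x : Jm T) {q : Nat.Primes} (hq : q ∈ S) (σ : GQ) : resD S x q σ = 0 := if_pos hq

theorem resD_T (x : Jm T) {q : Nat.Primes} (hq : q ∉ S) (hT : q ∈ T) (σ : GQ) :
    resD S x q σ = ordZ q ((x.1.1 ⟨q, hT⟩).1 σ) := by
  rw [resD, if_neg hq, dif_pos hT]

theorem resD_out (x : Jm T) {q : Nat.Primes} (hq : q ∉ S) (hT : q ∉ T) (σ : GQ) :
    resD S x q σ = x.1.2.1 q σ := by
  rw [resD, if_neg hq, dif_neg hT]

theorem resD_lg (x : Jm T) (q : Nat.Primes) (τ : LG q) (σ : GQ) :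
    resD S x q (localGaloisToGlobal q τ * σ) = resD S x q σ := by
  by_cases hq : q ∈ S
  · rw [resD_mem x hq, resD_mem x hq]
  · by_cases hT : q ∈ T
    · rw [resD_T x hq hT, resD_T x hq hT]
      have h1 : (x.1.1 ⟨q, hT⟩).1 (localGaloisToGlobal q τ * σ) = τ • (x.1.1 ⟨q, hT⟩).1 σ :=
        (x.1.1 ⟨q, hT⟩).2 τ σ
      rw [h1, ordZ, ordZ, nmL_smul]
    · rw [resD_out x hq hT, resD_out x hq hT]
      exact x.1.2.2.1 q τ σ

theorem resD_smul (g : GQ) (x : Jm T) (q : Nat.Primes) (σ : GQ) :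
    resD S (g • x) q σ = resD S x q (σ * g) := rfl

theorem resD_finite (x : Jm T) : {q | resD S x q ≠ 0}.Finite := by
  refine ((Finset.finite_toSet T).union x.1.2.2.2.1).subset ?_
  intro q hq
  by_cases hT : q ∈ T
  · exact Or.inl hT
  · right
    intro h0
    apply hq
    funext σ
    by_cases hS : q ∈ S
    · exact resD_mem x hS σ
    · rw [resD_out x hS hT]
      exact congrFun h0 σ

/-- the divisor outside `S` -/
def resDiv (S : Finset Nat.Primes) (x : Jm T) : DivG S :=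
  ⟨resD S x, resD_lg x, resD_finite x, fun q hq => funext fun σ => resD_mem x hq σ⟩

variable {F : IntermediateField ℚ Qb}

theorem nmL_zero (q : ℕ) [Fact q.Prime] : nmL (0 : LM q) = 1 := by
  show ‖((1 : (PadicAlgCl q)ˣ) : PadicAlgCl q)‖ = 1
  rw [Units.val_one, norm_one]

theorem resD_zero (q : Nat.Primes) (σ : GQ) : resD S (0 : Jm T) q σ = 0 := by
  by_cases hq : q ∈ S
  · exact resD_mem _ hq σ
  · by_cases hT : q ∈ T
    · rw [resD_T _ hq hT]
      apply ordZ_eq
      rw [neg_zero, zpow_zero]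
      exact nmL_zero q
    · rw [resD_out _ hq hT]; rfl

theorem resD_add (hF : F.IsUnramifiedOutside S) {x y : Jm T} (hx : x ∈ fix (Jm T) F.fixingSubgroup)
    (hy : y ∈ fix (Jm T) F.fixingSubgroup) (q : Nat.Primes) (σ : GQ) :
    resD S (x + y) q σ = resD S x q σ + resD S y q σ := by
  by_cases hq : q ∈ S
  · rw [resD_mem _ hq, resD_mem _ hq, resD_mem _ hq]; rfl
  · by_cases hT : q ∈ T
    · rw [resD_T _ hq hT, resD_T _ hq hT, resD_T _ hq hT]
      exact ordZ_add hF hq (fix_comp hx ⟨q, hT⟩) (fix_comp hy ⟨q, hT⟩) σ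
    · rw [resD_out _ hq hT, resD_out _ hq hT, resD_out _ hq hT]; rfl

theorem resD_fix {x : Jm T} (hx : x ∈ fix (Jm T) F.fixingSubgroup) (q : Nat.Primes) (σ : GQ)
    {n : GQ} (hn : n ∈ F.fixingSubgroup) : resD S x q (σ * n) = resD S x q σ := by
  rw [← resD_smul, hx n hn]

/-- the restricted idele, all ideles -/
def resI (h : S ⊆ T) (x : Jm T) : IdT S := (fun q => x.1.1 ⟨q.1, h q.2⟩, resDiv S x)

theorem resI_fix (h : S ⊆ T) {x : Jm T} (hx : x ∈ fix (Jm T) F.fixingSubgroup) :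
    resI h x ∈ fix (IdT S) F.fixingSubgroup := by
  intro n hn
  refine Prod.ext (funext fun q => ?_) (Subtype.ext ?_)
  · exact fix_comp hx ⟨q.1, h q.2⟩ n hn
  · funext q σ
    exact resD_fix hx q σ hn

/-- restriction of ideles to a smaller set of primes -/
def resJ (hF : F.IsUnramifiedOutside S) (h : S ⊆ T) :
    ↥(fix (Jm T) F.fixingSubgroup) →+ ↥(fix (Jm S) F.fixingSubgroup) where
  toFun x := ⟨⟨resI h x.1, F, hF, resI_fix h x.2⟩, fun n hn => Subtype.ext (resI_fix h x.2 n hn)⟩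
  map_zero' := by
    apply Subtype.ext; apply Subtype.ext
    refine Prod.ext rfl (Subtype.ext ?_)
    funext q σ
    exact resD_zero q σ
  map_add' x y := by
    apply Subtype.ext; apply Subtype.ext
    refine Prod.ext rfl (Subtype.ext ?_)
    funext q σ
    exact resD_add hF x.2 y.2 q σ

theorem resJ_div (hF : F.IsUnramifiedOutside S) (h : S ⊆ T) (x : ↥(fix (Jm T) F.fixingSubgroup)) :
    (resJ hF h x).1.1.2 = resDiv S x.1 := rfl

theorem resJ_comp (hF : F.IsUnramifiedOutside S) (h : S ⊆ T) (x : ↥(fix (Jm T) F.fixingSubgroup))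
    (q : S) : (resJ hF h x).1.1.1 q = x.1.1.1 ⟨q.1, h q.2⟩ := rfl

/-- independence of the field -/
theorem resJ_eq {F' : IntermediateField ℚ Qb} (hF : F.IsUnramifiedOutside S)
    (hF' : F'.IsUnramifiedOutside S) (h : S ⊆ T) (x : ↥(fix (Jm T) F.fixingSubgroup))
    (x' : ↥(fix (Jm T) F'.fixingSubgroup)) (hx : x.1 = x'.1) :
    (resJ hF h x).1 = (resJ hF' h x').1 := by
  obtain ⟨x, hx1⟩ := x
  obtain ⟨x', hx1'⟩ := x'
  subst hx
  rfl

theorem resJ_smul (hF : F.IsUnramifiedOutside S) (h : S ⊆ T) (g : GQ)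
    (x y : ↥(fix (Jm T) F.fixingSubgroup)) (hxy : y.1 = g • x.1) :
    (resJ hF h y).1 = g • (resJ hF h x).1 := by
  obtain ⟨x, hx1⟩ := x
  obtain ⟨y, hy1⟩ := y
  change y = g • x at hxy
  subst hxy
  rfl

theorem resJ_diag (hF : F.IsUnramifiedOutside S) (h : S ⊆ T) (a : QS S)
    (x : ↥(fix (Jm T) F.fixingSubgroup)) (hx : x.1 = diag T (inclQ h a)) :
    (resJ hF h x).1 = diag S a := by
  obtain ⟨x, hx1⟩ := x
  change x = _ at hx
  subst hx
  apply Subtype.ext
  refine Prod.ext rfl (Subtype.ext ?_)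
  funext q σ
  show resD S (diag T (inclQ h a)) q σ = (divQ a).1 q σ
  by_cases hq : q ∈ S
  · rw [resD_mem _ hq, divQ_apply_mem _ hq]
  · by_cases hT : q ∈ T
    · rw [resD_T _ hq hT, divQ_apply _ hq]
      rfl
    · rw [resD_out _ hq hT]
      exact divQ_inclQ h a hT σ

/-- the rational prime in `LM q` -/
def qLM (q : Nat.Primes) : LM q :=
  Additive.ofMul (Units.mk0 ((q : ℕ) : PadicAlgCl (q : ℕ)) (Nat.cast_ne_zero.mpr q.2.ne_zero))

theorem smul_qLM (q : Nat.Primes) (g : LG q) : g • qLM q = qLM q := by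
  apply congrArg Additive.ofMul
  apply Units.ext
  show g ((q : ℕ) : PadicAlgCl (q : ℕ)) = _
  rw [map_natCast]; rfl

theorem nmL_zsmul_qLM (q : Nat.Primes) (k : ℤ) : nmL (k • qLM q) = ((q : ℕ) : ℝ) ^ (-k) := by
  have h1 : nmL (k • qLM q) = ‖((q : ℕ) : PadicAlgCl (q : ℕ))‖ ^ k := by
    show ‖((((k • qLM q).toMul : (PadicAlgCl (q : ℕ))ˣ)) : PadicAlgCl (q : ℕ))‖ = _
    rw [toMul_zsmul, Units.val_zpow_eq_zpow_val, norm_zpow]
    rfl
  rw [h1, norm_natCast_eq, Padic.norm_p, inv_zpow, zpow_neg]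

open Classical in
theorem resJ_surjective (hF : F.IsUnramifiedOutside S) (h : S ⊆ T) :
    Function.Surjective (resJ (T := T) hF h) := by
  intro y
  let u : ∀ q : T, JQ q.1 := fun q => if hq : q.1 ∈ S then y.1.1.1 ⟨q.1, hq⟩ else
    ⟨fun σ => y.1.1.2.1 q.1 σ • qLM q.1, fun τ σ => by
      show y.1.1.2.1 q.1 (localGaloisToGlobal _ τ * σ) • qLM q.1 = τ • (y.1.1.2.1 q.1 σ • qLM q.1)
      rw [smul_comm τ, smul_qLM, y.1.1.2.2.1]⟩
  have hu1 : ∀ (q : T) (hq : q.1 ∈ S), u q = y.1.1.1 ⟨q.1, hq⟩ := fun q hq => dif_pos hq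
  have hu2 : ∀ (q : T) (_ : q.1 ∉ S) (σ : GQ), (u q).1 σ = y.1.1.2.1 q.1 σ • qLM q.1 :=
    fun q hq σ => by
      show (if hq : q.1 ∈ S then _ else _ : JQ q.1).1 σ = _
      rw [dif_neg hq]
  have hufix : ∀ q : T, u q ∈ fix (JQ q.1) F.fixingSubgroup := by
    intro q n hn
    by_cases hq : q.1 ∈ S
    · rw [hu1 q hq]; exact fix_comp y.2 ⟨q.1, hq⟩ n hn
    · apply Subtype.ext
      funext σ
      show (u q).1 (σ * n) = (u q).1 σ
      rw [hu2 q hq, hu2 q hq, fix_div y.2 q.1 σ hn]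
  let d : DivG T := ⟨fun q σ => if q ∈ T then 0 else y.1.1.2.1 q σ, by
    refine ⟨fun q τ σ => ?_, y.1.1.2.2.2.1.subset ?_, fun q hq => ?_⟩
    · by_cases hq : q ∈ T
      · simp only [if_pos hq]
      · simp only [if_neg hq]; exact y.1.1.2.2.1 q τ σ
    · intro q hq h0
      apply hq
      funext σ
      by_cases hq' : q ∈ T
      · simp only [if_pos hq']; rfl
      · simp only [if_neg hq']; exact congrFun h0 σ
    · funext σ
      simp only [if_pos hq]; rfl⟩
  have hdfix : d ∈ fix (DivG T) F.fixingSubgroup := by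
    intro n hn
    apply Subtype.ext
    funext q σ
    show (if q ∈ T then 0 else y.1.1.2.1 q (σ * n)) = if q ∈ T then 0 else y.1.1.2.1 q σ
    rw [fix_div y.2 q σ hn]
  have hx : ((u, d) : IdT T) ∈ fix (IdT T) F.fixingSubgroup := fun n hn =>
    Prod.ext (funext fun q => hufix q n hn) (hdfix n hn)
  refine ⟨⟨⟨(u, d), F, hF.mono h, hx⟩, fun n hn => Subtype.ext (hx n hn)⟩, ?_⟩
  apply Subtype.ext; apply Subtype.ext
  refine Prod.ext (funext fun q => ?_) (Subtype.ext ?_)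
  · exact hu1 ⟨q.1, h q.2⟩ q.2
  · funext q σ
    show resD S _ q σ = y.1.1.2.1 q σ
    by_cases hq : q ∈ S
    · rw [resD_mem _ hq, y.1.1.2.2.2.2 q hq]; rfl
    · by_cases hT : q ∈ T
      · rw [resD_T _ hq hT]
        apply ordZ_eq
        show nmL ((u ⟨q, hT⟩).1 σ) = _
        rw [hu2 ⟨q, hT⟩ hq, nmL_zsmul_qLM]
      · rw [resD_out _ hq hT]
        show (if q ∈ T then 0 else y.1.1.2.1 q σ) = _
        rw [if_neg hT]

theorem hom_expand {A B : Type*} [AddCommGroup A] [AddCommGroup B] (R : A →+ B) (n : ℕ) (f : ℕ → A)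
    (x y : A) (h : x = ∑ i ∈ range n, f i + y) : R x = ∑ i ∈ range n, R (f i) + R y := by
  rw [h, map_add, map_sum]

theorem coe_expand {A : Type*} [AddCommGroup A] (B : AddSubgroup A) (n : ℕ) (f : ℕ → B)
    (x y : B) (h : x = ∑ i ∈ range n, f i + y) : (x : A) = ∑ i ∈ range n, (f i : A) + (y : A) := by
  rw [h, AddSubgroup.coe_add, AddSubgroup.val_finsetSum]

theorem toC_expand (p : ℕ) (s : GQ) (z : Jm S) (b : QS S) :
    toC S (∑ i ∈ range p, s ^ i • z + diag S b) = ∑ i ∈ range p, s ^ i • toC S z := by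
  rw [map_add, toC_diag, add_zero, map_sum]
  exact sum_congr rfl fun i _ => toC_smul _ _

/-- norm index can only decrease when `S` becomes smaller -/
theorem relIndex_le_change {F' : IntermediateField ℚ Qb} (hS : S.Nonempty) (h : S ⊆ T)
    (hF : F.IsUnramifiedOutside S) (hF' : F'.IsUnramifiedOutside S) {p : ℕ} {s : GQ}
    (hc : CycP p F'.fixingSubgroup F.fixingSubgroup s)
    (hne : (nrmGrp p s F'.fixingSubgroup : AddSubgroup (Cm T)).relIndex
      (fix (Cm T) F.fixingSubgroup) ≠ 0) :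
    (nrmGrp p s F'.fixingSubgroup : AddSubgroup (Cm S)).relIndex (fix (Cm S) F.fixingSubgroup) ≤
    (nrmGrp p s F'.fixingSubgroup : AddSubgroup (Cm T)).relIndex (fix (Cm T) F.fixingSubgroup) := by
  have hT : T.Nonempty := hS.mono h
  let f := (fixToC F S).comp (resJ (T := T) hF h)
  let g := fixToC F T
  have hf : Function.Surjective f := (fixToC_surjective hS hF).comp (resJ_surjective hF h)
  have hg : Function.Surjective g := fixToC_surjective hT (hF.mono h)
  have hsub : ((nrmGrp p s F'.fixingSubgroup : AddSubgroup (Cm T)).addSubgroupOf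
      (fix (Cm T) F.fixingSubgroup)).comap g ≤
      ((nrmGrp p s F'.fixingSubgroup : AddSubgroup (Cm S)).addSubgroupOf
      (fix (Cm S) F.fixingSubgroup)).comap f := by
    intro x hx
    rw [AddSubgroup.mem_comap, AddSubgroup.mem_addSubgroupOf] at hx ⊢
    obtain ⟨c', hc', hx1⟩ := hx
    obtain ⟨x', hx', rfl⟩ := exists_fix_lift hT (hF'.mono h) hc'
    have h1 : toC T (x.1 - ∑ i ∈ range p, s ^ i • x') = 0 := by
      rw [map_sub, map_sum, sub_eq_zero]
      exact hx1.trans (sum_congr rfl fun i _ => (toC_smul _ _).symm)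
    obtain ⟨a, ha⟩ := toC_eq_zero.mp h1
    have haF : a ∈ fix (QS T) F.fixingSubgroup := by
      intro n hn
      apply diag_injective hT
      rw [diag_smul, ha]
      exact (fix (Jm T) F.fixingSubgroup).sub_mem x.2 (hc.sum_mem_fix hx') n hn
    have haF' : qv a ∈ F := mem_fixQS.mp haF
    obtain ⟨b, hb⟩ : ∃ b : QS S, inclQ h b = a :=
      ⟨mkU hF (qv a) haF' (qv_ne_zero a), qv_injective rfl⟩
    have hbF : b ∈ fix (QS S) F.fixingSubgroup := mem_fixQS.mpr (by
      have : qv b = qv a := by rw [← hb]; rfl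
      rw [this]; exact haF')
    -- everything inside `fix (Jm T) Γ_{F'}`
    have hxF' : x.1 ∈ fix (Jm T) F'.fixingSubgroup := fix_mono hc.le x.2
    have hmem : ∀ i, s ^ i • x' ∈ fix (Jm T) F'.fixingSubgroup := fun i =>
      hc.smul_mem_fix (F.fixingSubgroup.pow_mem hc.mem i) hx'
    have haF2 : diag T a ∈ fix (Jm T) F'.fixingSubgroup := fix_mono hc.le (diag_mem_fix haF)
    have e1 : (⟨x.1, hxF'⟩ : ↥(fix (Jm T) F'.fixingSubgroup)) =
        ∑ i ∈ range p, ⟨s ^ i • x', hmem i⟩ + ⟨diag T a, haF2⟩ := by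
      apply Subtype.ext
      rw [AddSubgroup.coe_add, AddSubgroup.val_finsetSum]
      show x.1 = ∑ i ∈ range p, s ^ i • x' + diag T a
      rw [ha]; abel
    have e2 := hom_expand (resJ hF' h) p (fun i => ⟨s ^ i • x', hmem i⟩) _ _ e1
    have e3 := coe_expand _ p _ _ _ e2
    rw [resJ_diag hF' h b ⟨diag T a, haF2⟩ (by rw [hb]),
      sum_congr rfl (fun i _ => resJ_smul hF' h (s ^ i) ⟨x', hx'⟩ ⟨s ^ i • x', hmem i⟩ rfl),
      ← resJ_eq hF hF' h x ⟨x.1, hxF'⟩ rfl] at e3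
    generalize resJ hF' h ⟨x', hx'⟩ = z at e3
    have hz : ∀ n ∈ F'.fixingSubgroup, n • toC S z.1 = toC S z.1 := by
      intro n hn
      rw [← toC_smul]
      exact congrArg (toC S) (z.2 n hn)
    refine ⟨toC S z.1, hz, ?_⟩
    show toC S (resJ hF h x).1 = _
    rw [e3]
    exact toC_expand p s z.1 b
  have i1 : (nrmGrp p s F'.fixingSubgroup : AddSubgroup (Cm S)).relIndex
      (fix (Cm S) F.fixingSubgroup) = (((nrmGrp p s F'.fixingSubgroup :
      AddSubgroup (Cm S)).addSubgroupOf (fix (Cm S) F.fixingSubgroup)).comap f).index :=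
    (AddSubgroup.index_comap_of_surjective _ hf).symm
  have i2 : (nrmGrp p s F'.fixingSubgroup : AddSubgroup (Cm T)).relIndex
      (fix (Cm T) F.fixingSubgroup) = (((nrmGrp p s F'.fixingSubgroup :
      AddSubgroup (Cm T)).addSubgroupOf (fix (Cm T) F.fixingSubgroup)).comap g).index :=
    (AddSubgroup.index_comap_of_surjective _ hg).symm
  rw [i1, i2]
  rw [i2] at hne
  have h3 := AddSubgroup.relIndex_mul_index hsub
  rw [← h3] at hne ⊢
  exact Nat.le_mul_of_pos_left _ (Nat.pos_of_ne_zero (left_ne_zero_of_mul hne))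

end

end Fermat.Agent.CFTSec
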