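import Fermat.Agent.CFTSec.Dual2

set_option autoImplicit false
set_option maxHeartbeats 400000

/-! Counting: split classes versus split characters. -/

namespace Fermat.Agent.CFTSec

open Fermat.Agent.CFT Fermat.Agent.CFTLocal Finset
open scoped Pointwise

noncomputable section

variable {S : Finset Nat.Primes} {F : IntermediateField ℚ Qb}

/-- characters of order `p` unramified outside `S` -/
def HomS (S : Finset Nat.Primes) (F : IntermediateField ℚ Qb) (p : ℕ) : Type :=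
  {χ : F.fixingSubgroup →* Multiplicative (ZMod p) // ∃ L : IntermediateField ℚ Qb,
    L.IsUnramifiedOutside S ∧ ∀ g : F.fixingSubgroup, (g : GQ) ∈ L.fixingSubgroup → χ g = 1}

/-- characters of order `p` unramified outside `S` and trivial at the places above `S` -/
def HomX (S : Finset Nat.Primes) (F : IntermediateField ℚ Qb) (p : ℕ) : Type :=
  {χ : HomS S F p // ∀ q ∈ S, ∀ (σ : GQ) (τ : LG (q : ℕ)) (g : F.fixingSubgroup),
    (g : GQ) = σ⁻¹ * localGaloisToGlobal q τ * σ → χ.1 g = 1}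

variable {p : ℕ} [hp : Fact p.Prime] {ζ : Qb} (hζ : IsPrimitiveRoot ζ p) (hζF : ζ ∈ F)

/-- the Kummer character -/
def kumm (x : ↥(fix (QS S) F.fixingSubgroup)) : F.fixingSubgroup →* Multiplicative (ZMod p) :=
  MonoidHom.mk' (fun g => Multiplicative.ofAdd (kp p ζ g (qv x.1))) (fun g h =>
    congrArg Multiplicative.ofAdd (kp_gmul hζ hζF g.2 h.2 (mem_fixQS.mp x.2) (qv_ne_zero _)))

theorem kumm_apply (x : ↥(fix (QS S) F.fixingSubgroup)) (g : F.fixingSubgroup) :
    kumm hζ hζF x g = Multiplicative.ofAdd (kp p ζ g (qv x.1)) := rfl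

theorem kumm_eq_one {x : ↥(fix (QS S) F.fixingSubgroup)} {g : F.fixingSubgroup} :
    kumm hζ hζF x g = 1 ↔ kp p ζ g (qv x.1) = 0 := Iff.rfl

theorem kumm_eq_iff (hF : F.IsUnramifiedOutside S) (x y : ↥(fix (QS S) F.fixingSubgroup)) :
    kumm hζ hζF x = kumm hζ hζF y ↔ -x + y ∈ (mulN ↥(fix (QS S) F.fixingSubgroup) p).range := by
  have hxF := mem_fixQS.mp x.2
  have hyF := mem_fixQS.mp y.2
  have hxy : qv y.1 = qv x.1 * qv (-x + y).1 := by
    have : y.1 = x.1 + (-x + y).1 := by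
      show y.1 = x.1 + (-x.1 + y.1)
      abel
    conv_lhs => rw [this]
    exact qv_add _ _
  have hF' := mem_fixQS.mp (-x + y).2
  have hmul : ∀ g : F.fixingSubgroup, kp p ζ g (qv y.1) = kp p ζ g (qv x.1) +
      kp p ζ g (qv (-x + y).1) := by
    intro g
    rw [hxy]
    exact kp_mul hζ hζF g.2 hxF (qv_ne_zero _) hF' (qv_ne_zero _)
  constructor
  · intro h
    have h0 : ∀ g : F.fixingSubgroup, kp p ζ g (qv (-x + y).1) = 0 := by
      intro g
      have h1 : kp p ζ g (qv x.1) = kp p ζ g (qv y.1) :=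
        congrArg Multiplicative.toAdd (DFunLike.congr_fun h g)
      have h2 := hmul g
      rw [← h1] at h2
      exact left_eq_add.mp h2
    have hr : rt p (qv (-x + y).1) ∈ F := mem_of_fixed fun g hg =>
      (kp_eq_zero_iff hζ hζF hg hF' (qv_ne_zero _) (rt_pow p _)).mp (h0 ⟨g, hg⟩)
    refine ⟨⟨mkU hF (rt p (qv (-x + y).1)) hr (rt_ne_zero p (qv_ne_zero _)),
      mem_fixQS.mpr hr⟩, ?_⟩
    apply Subtype.ext
    apply qv_injective
    show qv (p • mkU hF (rt p (qv (-x + y).1)) hr (rt_ne_zero p (qv_ne_zero _))) = _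
    rw [qv_nsmul, qv_mkU, rt_pow]
  · rintro ⟨z, hz⟩
    have h1 : qv (-x + y).1 = qv z.1 ^ p := by
      rw [← hz, ← qv_nsmul]; rfl
    apply MonoidHom.ext
    intro g
    have h2 : kp p ζ g (qv (-x + y).1) = 0 := by
      rw [kp_eq_zero_iff hζ hζF g.2 hF' (qv_ne_zero _) h1.symm]
      exact gal_fix g.2 (mem_fixQS.mp z.2)
    rw [kumm_apply, kumm_apply, hmul g, h2, add_zero]

/-- the Kummer character attached to an element of the Selmer group is unramified outside `S` -/
theorem kumm_unram (hF : F.IsUnramifiedOutside S) (hpS : (⟨p, hp.out⟩ : Nat.Primes) ∈ S)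
    {x : ↥(fix (QS S) F.fixingSubgroup)}
    (hx : x ∈ (mulN ↥(fix (DivG S) F.fixingSubgroup) p).range.comap (dK S F)) :
    ∃ L : IntermediateField ℚ Qb, L.IsUnramifiedOutside S ∧
      ∀ g : F.fixingSubgroup, (g : GQ) ∈ L.fixingSubgroup → kumm hζ hζF x g = 1 := by
  have hxF := mem_fixQS.mp x.2
  obtain ⟨y, hy⟩ := CountData.mem_V.mp hx
  refine ⟨KF p F (qv x.1), KF_unram hζ hζF hF hpS subset_rfl hxF (fun q _ σ => ?_), ?_⟩
  · have h1 : (divQ x.1).1 q σ = p * y.1.1 q σ := by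
      have h2 : (dK S F x).1.1 q σ = (p • y).1.1 q σ := by rw [hy]
      rw [show (divQ x.1).1 q σ = (dK S F x).1.1 q σ from rfl, h2, ← nsmul_eq_mul]
      rfl
    rw [h1]
    exact dvd_mul_right _ _
  · intro g hg
    rw [kumm_eq_one]
    exact ((mem_fixing_KF hζ hζF hxF (qv_ne_zero _)).mp hg).2

/-- all unramified characters are Kummer characters -/
theorem exists_kumm (hF : F.IsUnramifiedOutside S) (χ : HomS S F p) :
    ∃ x ∈ (mulN ↥(fix (DivG S) F.fixingSubgroup) p).range.comap (dK S F),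
      kumm hζ hζF x = χ.1 := by
  obtain ⟨χ, L, hL, hχ⟩ := χ
  haveI := hF.1
  haveI := hL.1
  haveI : NeZero p := ⟨hp.out.ne_zero⟩
  let F' : IntermediateField ℚ Qb := F ⊔ L
  have hF' : F'.IsUnramifiedOutside S := hF.sup hL
  haveI := hF'.1
  haveI := finiteIndex_fixingSubgroup F'
  have hle : F'.fixingSubgroup ≤ F.fixingSubgroup :=
    IntermediateField.fixingSubgroup_antitone le_sup_left
  have hle' : F'.fixingSubgroup ≤ L.fixingSubgroup :=
    IntermediateField.fixingSubgroup_antitone le_sup_right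
  have hζ0 : ζ ≠ 0 := hζ.ne_zero hp.out.ne_zero
  let z : Qbˣ := Units.mk0 ζ hζ0
  let M : Subgroup F.fixingSubgroup := F'.fixingSubgroup.subgroupOf F.fixingSubgroup
  haveI : M.FiniteIndex := inferInstance
  obtain ⟨β, hβ1, hβ2⟩ := hilbert90 (Ω := Qb) M (by
      intro g hg
      show (g : GQ) ∈ F'.fixingSubgroup
      rw [IntermediateField.mem_fixingSubgroup_iff]
      intro x hx
      exact hg x (fun n hn => gal_fix hn hx))
    (fun g => z ^ (Multiplicative.toAdd (χ g)).val) (by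
      intro g h
      show ((z ^ (Multiplicative.toAdd (χ (g * h))).val : Qbˣ) : Qb) =
        ((z ^ (Multiplicative.toAdd (χ g)).val : Qbˣ) : Qb) *
          (g : GQ) ((z ^ (Multiplicative.toAdd (χ h)).val : Qbˣ) : Qb)
      rw [Units.val_pow_eq_pow_val, Units.val_pow_eq_pow_val, Units.val_pow_eq_pow_val, map_pow]
      show ζ ^ _ = ζ ^ _ * ((g : GQ) ζ) ^ _
      rw [gal_fix g.2 hζF, ← zeta_val_add hζ, map_mul]
      rfl) (by
      intro n hn
      have : χ n = 1 := hχ n (hle' hn)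
      simp [this])
  have hβF' : (β : Qb) ∈ F' := mem_of_fixed fun g hg => hβ1 ⟨g, hle hg⟩ hg
  let b : QS S := mkU hF' (β : Qb) hβF' (Units.ne_zero β)
  have hgb : ∀ g : F.fixingSubgroup,
      (g : GQ) (qv b) = ζ ^ (Multiplicative.toAdd (χ g)).val * qv b := by
    intro g
    have h1 := hβ2 g
    rw [Units.val_pow_eq_pow_val] at h1
    exact h1.symm
  have hDfix : divQ b ∈ fix (DivG S) F.fixingSubgroup := by
    intro g hg
    rw [← divQ_smul]
    apply Subtype.ext
    funext q σ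
    by_cases hq : q ∈ S
    · rw [divQ_apply_mem _ hq, divQ_apply_mem _ hq]
    · rw [divQ_apply _ hq, divQ_apply _ hq]
      apply ordq_eq
      have h1 := av_eq_of_QS b hq σ
      rw [← h1]
      show av q (σ (g (qv b))) = av q (σ (qv b))
      rw [hgb ⟨g, hg⟩, map_mul, av_mul, map_pow, av_pow]
      have h2 : av q (σ ζ) = 1 := by
        have h3 : av q (σ ζ) ^ p = 1 := by
          rw [← av_pow, ← map_pow, hζ.pow_eq_one, map_one, av_one]
        exact (pow_eq_one_iff_of_nonneg (av_nonneg _ _) hp.out.ne_zero).mp h3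
      rw [h2, one_pow, one_mul]
  have haF : qv (p • b) ∈ F := by
    refine mem_of_fixed fun g hg => ?_
    rw [qv_nsmul, map_pow, hgb ⟨g, hg⟩, mul_pow, ← pow_mul, mul_comm _ p, pow_mul, hζ.pow_eq_one,
      one_pow, one_mul]
  refine ⟨⟨p • b, mem_fixQS.mpr haF⟩, CountData.mem_V.mpr ⟨⟨divQ b, hDfix⟩, ?_⟩, ?_⟩
  · exact Subtype.ext (map_nsmul (divH S) p b)
  · apply MonoidHom.ext
    intro g
    rw [kumm_apply]
    have := kp_unique hζ hζF g.2 haF (qv_ne_zero _) (b := qv b) (qv_nsmul p b).symm (hgb g)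
    rw [show kp p ζ g (qv (⟨p • b, mem_fixQS.mpr haF⟩ : ↥(fix (QS S) F.fixingSubgroup)).1) = _
      from this]
    rfl

include hζ hζF in
/-- finiteness and size of the group of characters -/
theorem card_HomS (hF : F.IsUnramifiedOutside S) (hpS : (⟨p, hp.out⟩ : Nat.Primes) ∈ S)
    (hne : (mulN ↥(fix (QS S) F.fixingSubgroup) p).range.relIndex
      ((mulN ↥(fix (DivG S) F.fixingSubgroup) p).range.comap (dK S F)) ≠ 0) :
    Finite (HomS S F p) ∧ (mulN ↥(fix (QS S) F.fixingSubgroup) p).range.relIndex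
      ((mulN ↥(fix (DivG S) F.fixingSubgroup) p).range.comap (dK S F)) ≤ Nat.card (HomS S F p) := by
  classical
  set pK := (mulN ↥(fix (QS S) F.fixingSubgroup) p).range with hpK
  set V := (mulN ↥(fix (DivG S) F.fixingSubgroup) p).range.comap (dK S F) with hV
  haveI hfin : Finite (V ⧸ pK.addSubgroupOf V) := Nat.finite_of_card_ne_zero hne
  have hcl : ∀ x y : V, kumm hζ hζF x.1 = kumm hζ hζF y.1 ↔
      (QuotientAddGroup.mk x : V ⧸ pK.addSubgroupOf V) = QuotientAddGroup.mk y := by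
    intro x y
    rw [kumm_eq_iff hζ hζF hF, QuotientAddGroup.eq, AddSubgroup.mem_addSubgroupOf]
    rfl
  choose f hf1 hf2 using fun χ : HomS S F p => exists_kumm hζ hζF hF χ
  let g : HomS S F p → V ⧸ pK.addSubgroupOf V := fun χ => QuotientAddGroup.mk ⟨f χ, hf1 χ⟩
  have hg : Function.Injective g := by
    intro χ χ' h
    have h1 := (hcl ⟨f χ, hf1 χ⟩ ⟨f χ', hf1 χ'⟩).mpr h
    apply Subtype.ext
    rw [← hf2 χ, ← hf2 χ']
    exact h1
  haveI hfin2 : Finite (HomS S F p) := Finite.of_injective g hg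
  refine ⟨hfin2, ?_⟩
  let k : V ⧸ pK.addSubgroupOf V → HomS S F p := fun c =>
    ⟨kumm hζ hζF (Quotient.out c).1, kumm_unram hζ hζF hF hpS (Quotient.out c).2⟩
  have hk : Function.Injective k := by
    intro c c' h
    have h1 : kumm hζ hζF (Quotient.out c).1 = kumm hζ hζF (Quotient.out c').1 :=
      congrArg Subtype.val h
    rw [hcl] at h1
    rwa [QuotientAddGroup.out_eq', QuotientAddGroup.out_eq'] at h1
  exact Nat.card_le_card_of_injective k hk

include hζ hζF in
/-- split characters -/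
theorem card_HomX (hF : F.IsUnramifiedOutside S) (hpS : (⟨p, hp.out⟩ : Nat.Primes) ∈ S)
    [Finite (HomS S F p)] :
    (mulN ↥(fix (QS S) F.fixingSubgroup) p).range.relIndex
      ((mulN ↥(fix (DivG S) F.fixingSubgroup) p).range.comap (dK S F) ⊓
      (mulN (∀ q : S, ↥(fix (JQ q.1) F.fixingSubgroup)) p).range.comap (iK S F)) ≤
      Nat.card (HomX S F p) := by
  classical
  set pK := (mulN ↥(fix (QS S) F.fixingSubgroup) p).range with hpK
  set B := (mulN ↥(fix (DivG S) F.fixingSubgroup) p).range.comap (dK S F) ⊓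
      (mulN (∀ q : S, ↥(fix (JQ q.1) F.fixingSubgroup)) p).range.comap (iK S F) with hB
  have hcl : ∀ x y : B, kumm hζ hζF x.1 = kumm hζ hζF y.1 ↔
      (QuotientAddGroup.mk x : B ⧸ pK.addSubgroupOf B) = QuotientAddGroup.mk y := by
    intro x y
    rw [kumm_eq_iff hζ hζF hF, QuotientAddGroup.eq, AddSubgroup.mem_addSubgroupOf]
    rfl
  have hloc : ∀ x : B, ∀ q ∈ S, ∀ (σ : GQ) (τ : LG (q : ℕ)) (g : F.fixingSubgroup),
      (g : GQ) = σ⁻¹ * localGaloisToGlobal q τ * σ → kumm hζ hζF x.1 g = 1 := by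
    intro x q hq σ τ g hg
    obtain ⟨y, hy⟩ := x.2.2
    have hy' : p • y = iK S F x.1 := hy
    have hxF := mem_fixQS.mp x.1.2
    have h1 := split_of_pow (q := q) hζ hζF hxF (qv_ne_zero x.1.1) (σ := σ)
      (y := el ((y ⟨q, hq⟩).1.1 σ)) (fun t ht => congrArg el
        (coind_apply_mem_fix (localGaloisToGlobal q) (y ⟨q, hq⟩).2 σ t ht)) (by
      have h2 := congrArg (fun w : (∀ q : S, ↥(fix (JQ q.1) F.fixingSubgroup)) =>
        el ((w ⟨q, hq⟩).1.1 σ)) hy'
      have h3 : el (((p • y : ∀ q : S, ↥(fix (JQ q.1) F.fixingSubgroup)) ⟨q, hq⟩).1.1 σ) =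
          el ((y ⟨q, hq⟩).1.1 σ) ^ p := by
        rw [← el_nsmul]; rfl
      exact h3.symm.trans h2)
    have hτ : τ ∈ stab (localGaloisToGlobal q) F.fixingSubgroup σ := by
      rw [mem_stab, ← hg]; exact g.2
    have h4 := h1 hτ
    rw [mem_stab, ← hg] at h4
    rw [kumm_eq_one]
    exact ((mem_fixing_KF hζ hζF hxF (qv_ne_zero _)).mp h4).2
  let k : B ⧸ pK.addSubgroupOf B → HomX S F p := fun c =>
    ⟨⟨kumm hζ hζF (Quotient.out c).1, kumm_unram hζ hζF hF hpS (Quotient.out c).2.1⟩,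
      hloc (Quotient.out c)⟩
  have hk : Function.Injective k := by
    intro c c' h
    have h1 : kumm hζ hζF (Quotient.out c).1 = kumm hζ hζF (Quotient.out c').1 :=
      congrArg (fun z : HomX S F p => z.1.1) h
    rw [hcl] at h1
    rwa [QuotientAddGroup.out_eq', QuotientAddGroup.out_eq'] at h1
  haveI : Finite (HomX S F p) := Subtype.finite
  exact Nat.card_le_card_of_injective k hk

/-- the image of the local components -/
def locC (S : Finset Nat.Primes) (F : IntermediateField ℚ Qb) :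
    AddSubgroup ↥(fix (Cm S) F.fixingSubgroup) where
  carrier := {c | ∃ j ∈ fix (Jm S) F.fixingSubgroup, j.1.2 = 0 ∧ toC S j = c.1}
  zero_mem' := ⟨0, (fix _ _).zero_mem, rfl, map_zero _⟩
  add_mem' := by
    rintro _ _ ⟨j, hj, hj1, hj2⟩ ⟨j', hj', hj1', hj2'⟩
    refine ⟨j + j', (fix _ _).add_mem hj hj', ?_, ?_⟩
    · show j.1.2 + j'.1.2 = 0
      rw [hj1, hj1', add_zero]
    · rw [map_add, hj2, hj2']; rfl
  neg_mem' := by
    rintro _ ⟨j, hj, hj1, hj2⟩
    refine ⟨-j, (fix _ _).neg_mem hj, ?_, ?_⟩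
    · show -j.1.2 = 0
      rw [hj1, neg_zero]
    · rw [map_neg, hj2]; rfl

include hζ hζF in
/-- Target 2 -/
theorem card_split (hp2 : 2 < p) (hpS : (⟨p, hp.out⟩ : Nat.Primes) ∈ S)
    (hF : F.IsUnramifiedOutside S)
    (hH : Nat.card (HomS S F p) ≤ (mulN ↥(fix (Cm S) F.fixingSubgroup) p).range.index) :
    Finite (HomS S F p) ∧
    ((mulN ↥(fix (Cm S) F.fixingSubgroup) p).range ⊔ locC S F).index ≠ 0 ∧
    ((mulN ↥(fix (Cm S) F.fixingSubgroup) p).range ⊔ locC S F).index ≤ Nat.card (HomX S F p) := by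
  have hS : S.Nonempty := ⟨_, hpS⟩
  have hd := cdata (p := p) hS hF
  obtain ⟨hU, hJ⟩ := index_J_le hp2 hpS hF hζ hζF
  have hloc : locC S F = (piC hF).range := by
    ext c
    constructor
    · rintro ⟨j, hj, hj1, hj2⟩
      refine ⟨fun q => ⟨j.1.1 q, fix_comp hj q⟩, ?_⟩
      apply Subtype.ext
      rw [piC_val, ← hj2]
      congr 1
      apply Subtype.ext
      exact Prod.ext rfl hj1.symm
    · rintro ⟨y, rfl⟩
      exact ⟨mkJ hF y, mkJ_fix hF y, rfl, rfl⟩
  rw [hloc]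
  have hP0 : ((mulN ↥(fix (Cm S) F.fixingSubgroup) p).range ⊔ (piC hF).range).index ≠ 0 := by
    rw [hd.index_P]
    intro h0
    apply hd.fin
    have := AddSubgroup.relIndex_mul_index (le_sup_right :
      (dK S F).range ≤ (mulN ↥(fix (DivG S) F.fixingSubgroup) p).range ⊔ (dK S F).range)
    rw [← this, h0, mul_zero]
  have hV0 : (mulN ↥(fix (QS S) F.fixingSubgroup) p).range.relIndex
      ((mulN ↥(fix (DivG S) F.fixingSubgroup) p).range.comap (dK S F)) ≠ 0 := by
    rw [hd.countB]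
    exact mul_ne_zero hU hP0
  obtain ⟨hfin, hle⟩ := card_HomS hζ hζF hF hpS hV0
  obtain ⟨h1, h2⟩ := hd.main hU hJ (hle.trans hH)
  exact ⟨hfin, h1, h2.trans (card_HomX hζ hζF hF hpS)⟩

end

end Fermat.Agent.CFTSec
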