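import Fermat.Agent.CFTSec.Decomp
import Fermat.Agent.CFT.Global

set_option autoImplicit false
set_option maxHeartbeats 400000

/-! Global Kummer theory over a field containing the `p`-th roots of unity. -/

namespace Fermat.Agent.CFTSec

open Fermat.Agent.CFT Fermat.Agent.CFTLocal Finset
open scoped Pointwise

section duality

variable {p : ℕ} [hp : Fact p.Prime]

/-- linear algebra: choice of independent functionals -/
theorem choose_dual_aux {V Γ : Type*} [AddCommGroup V] [Module (ZMod p) V] [Finite V] [Group Γ]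
    (kb : Γ → (V →+ ZMod p)) (hmul : ∀ g h, kb (g * h) = kb g + kb h)
    (hsep : ∀ v, (∀ g, kb g v = 0) → v = 0) {s : ℕ} (hcard : Nat.card V = p ^ (s + 1)) {a : V}
    (ha : a ≠ 0) :
    ∃ g : Fin s → Γ, (∀ i, kb (g i) a = 0) ∧ ∀ c : Fin s → ZMod p, ∃ v, ∀ i, kb (g i) v = c i := by
  classical
  have hfd : Module.Finite (ZMod p) V := Module.Finite.of_finite
  have hrank : Module.finrank (ZMod p) V = s + 1 := by
    have h1 := Module.natCard_eq_pow_finrank (K := ZMod p) (V := V)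
    rw [hcard, Nat.card_zmod] at h1
    exact (Nat.pow_right_injective hp.out.two_le h1).symm
  let L : Submodule (ZMod p) V := Submodule.span (ZMod p) {a}
  have hL : Module.finrank (ZMod p) L = 1 := finrank_span_singleton ha
  have hVL : Module.finrank (ZMod p) (V ⧸ L) = s := by
    have := Submodule.finrank_quotient_add_finrank L
    omega
  let b := Module.finBasisOfFinrankEq (ZMod p) (V ⧸ L) hVL
  let f : Fin s → Module.Dual (ZMod p) V := fun i => (b.coord i).comp L.mkQ
  have h1 : kb 1 = 0 := by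
    have := hmul 1 1
    rw [mul_one] at this
    exact left_eq_add.mp this
  have hpow : ∀ g (n : ℕ), kb (g ^ n) = n • kb g := by
    intro g n
    induction n with
    | zero => rw [pow_zero, h1, zero_smul]
    | succ n ih => rw [pow_succ, hmul, ih, succ_nsmul]
  let W : Submodule (ZMod p) (Module.Dual (ZMod p) V) :=
    { carrier := {φ | ∃ g, ∀ v, φ v = kb g v}
      zero_mem' := ⟨1, fun v => by rw [h1]; rfl⟩
      add_mem' := by
        rintro φ ψ ⟨g, hg⟩ ⟨h, hh⟩
        exact ⟨g * h, fun v => by rw [LinearMap.add_apply, hg, hh, hmul]; rfl⟩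
      smul_mem' := by
        rintro c φ ⟨g, hg⟩
        refine ⟨g ^ c.val, fun v => ?_⟩
        rw [LinearMap.smul_apply, hg, hpow]
        simp }
  have hW : W = ⊤ := by
    have h2 : W.dualCoannihilator = ⊥ := by
      rw [eq_bot_iff]
      intro v hv
      rw [Submodule.mem_dualCoannihilator] at hv
      rw [Submodule.mem_bot]
      apply hsep
      intro g
      exact hv ((kb g).toZModLinearMap p) ⟨g, fun v => rfl⟩
    have h3 := Subspace.dualCoannihilator_dualAnnihilator_eq (W := W)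
    rw [h2, Submodule.dualAnnihilator_bot] at h3
    exact h3.symm
  have hf : ∀ i, ∃ g, ∀ v, f i v = kb g v := by
    intro i
    have : f i ∈ W := by rw [hW]; trivial
    exact this
  choose g hg using hf
  refine ⟨g, fun i => ?_, fun c => ?_⟩
  · rw [← hg]
    have : L.mkQ a = 0 := by
      rw [Submodule.mkQ_apply, Submodule.Quotient.mk_eq_zero]
      exact Submodule.mem_span_singleton_self _
    show b.coord i (L.mkQ a) = 0
    rw [this, map_zero]
  · obtain ⟨v, hv⟩ := L.mkQ_surjective (b.equivFun.symm c)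
    refine ⟨v, fun i => ?_⟩
    rw [← hg]
    show b.coord i (L.mkQ v) = c i
    rw [hv]
    exact congrFun (b.equivFun.apply_symm_apply c) i

/-- linear algebra: choice of independent elements in a group with perfect pairing -/
theorem choose_dual {U Γ : Type*} [AddCommGroup U] [Group Γ] (kap : Γ → (U →+ ZMod p))
    (hmul : ∀ g h, kap (g * h) = kap g + kap h)
    (hsep : ∀ u, (∀ g, kap g u = 0) → ∃ v, u = p • v) {s : ℕ}
    (hcard : (mulN U p).range.index = p ^ (s + 1)) {a : U} (ha : ¬ ∃ v, a = p • v) :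
    ∃ g : Fin s → Γ, (∀ i, kap (g i) a = 0) ∧ ∀ c : Fin s → ZMod p, ∃ u, ∀ i, kap (g i) u = c i := by
  classical
  have hpV : ∀ v : U ⧸ (mulN U p).range, p • v = 0 := by
    intro v
    obtain ⟨u, rfl⟩ := QuotientAddGroup.mk_surjective v
    have : ((p • u : U) : U ⧸ (mulN U p).range) = 0 := by
      rw [QuotientAddGroup.eq_zero_iff]; exact ⟨u, rfl⟩
    exact this
  letI : Module (ZMod p) (U ⧸ (mulN U p).range) := AddCommGroup.zmodModule hpV
  haveI : Finite (U ⧸ (mulN U p).range) := Nat.finite_of_card_ne_zero (by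
    show (mulN U p).range.index ≠ 0
    rw [hcard]; exact pow_ne_zero _ hp.out.ne_zero)
  have hkp : ∀ g, (mulN U p).range ≤ (kap g).ker := by
    rintro g _ ⟨v, rfl⟩
    rw [AddMonoidHom.mem_ker]
    show kap g (p • v) = 0
    rw [map_nsmul]; simp
  let kb : Γ → ((U ⧸ (mulN U p).range) →+ ZMod p) := fun g => QuotientAddGroup.lift _ (kap g) (hkp g)
  have hkb : ∀ g u, kb g (QuotientAddGroup.mk u) = kap g u := fun g u => rfl
  obtain ⟨g, h1, h2⟩ := choose_dual_aux (p := p) kb (fun g h => by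
      ext u
      exact congrArg (fun f : U →+ ZMod p => f u) (hmul g h)) (fun v hv => by
      obtain ⟨u, rfl⟩ := QuotientAddGroup.mk_surjective v
      obtain ⟨w, hw⟩ := hsep u (fun g => hv g)
      rw [QuotientAddGroup.eq_zero_iff]
      exact ⟨w, hw.symm⟩) hcard (a := QuotientAddGroup.mk a) (by
      intro h
      rw [QuotientAddGroup.eq_zero_iff] at h
      obtain ⟨v, hv⟩ := h
      exact ha ⟨v, hv.symm⟩)
  refine ⟨g, fun i => h1 i, fun c => ?_⟩
  obtain ⟨v, hv⟩ := h2 c
  obtain ⟨u, rfl⟩ := QuotientAddGroup.mk_surjective v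
  exact ⟨u, fun i => hv i⟩

end duality

section pairing

variable (p : ℕ) [hp : Fact p.Prime]

/-- a `p`-th root -/
noncomputable def rt (a : Qb) : Qb := (IsAlgClosed.exists_pow_nat_eq a hp.out.pos).choose

theorem rt_pow (a : Qb) : rt p a ^ p = a := (IsAlgClosed.exists_pow_nat_eq a hp.out.pos).choose_spec

theorem rt_ne_zero {a : Qb} (ha : a ≠ 0) : rt p a ≠ 0 := by
  intro h
  apply ha
  rw [← rt_pow p a, h, zero_pow hp.out.ne_zero]

variable {p} {ζ : Qb} (hζ : IsPrimitiveRoot ζ p)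

include hζ in
theorem exists_zpow_val {z : Qb} (hz : z ^ p = 1) : ∃ c : ZMod p, z = ζ ^ c.val := by
  haveI : NeZero p := ⟨hp.out.ne_zero⟩
  obtain ⟨i, hi, rfl⟩ := hζ.eq_pow_of_pow_eq_one hz
  exact ⟨i, by rw [ZMod.val_natCast, Nat.mod_eq_of_lt hi]⟩

include hζ in
theorem zeta_val_inj {c d : ZMod p} (h : ζ ^ c.val = ζ ^ d.val) : c = d := by
  haveI : NeZero p := ⟨hp.out.ne_zero⟩
  exact ZMod.val_injective p (hζ.pow_inj (ZMod.val_lt c) (ZMod.val_lt d) h)

include hζ in
theorem zeta_val_add (c d : ZMod p) : ζ ^ (c + d).val = ζ ^ c.val * ζ ^ d.val := by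
  haveI : NeZero p := ⟨hp.out.ne_zero⟩
  rw [ZMod.val_add, ← pow_add]
  conv_rhs => rw [← Nat.mod_add_div (c.val + d.val) p]
  rw [pow_add, pow_mul, hζ.pow_eq_one, one_pow, mul_one]

include hζ in
theorem zeta_val_natCast (n : ℕ) : ζ ^ ((n : ZMod p)).val = ζ ^ n := by
  haveI : NeZero p := ⟨hp.out.ne_zero⟩
  rw [ZMod.val_natCast]
  conv_rhs => rw [← Nat.mod_add_div n p]
  rw [pow_add, pow_mul, hζ.pow_eq_one, one_pow, mul_one]

variable (p ζ) in
open Classical in
/-- the Kummer pairing -/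
noncomputable def kp (g : GQ) (a : Qb) : ZMod p :=
  if h : ∃ c : ZMod p, g (rt p a) = ζ ^ c.val * rt p a then h.choose else 0

variable {F : IntermediateField ℚ Qb} (hζF : ζ ∈ F)

theorem gal_fix {g : GQ} (hg : g ∈ F.fixingSubgroup) {x : Qb} (hx : x ∈ F) : g x = x :=
  (IntermediateField.mem_fixingSubgroup_iff F g).mp hg x hx

include hζ in
theorem kp_spec {g : GQ} (hg : g ∈ F.fixingSubgroup) {a : Qb} (ha : a ∈ F) (ha0 : a ≠ 0) :
    g (rt p a) = ζ ^ (kp p ζ g a).val * rt p a := by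
  have h0 := rt_ne_zero p ha0
  have h1 : (g (rt p a) / rt p a) ^ p = 1 := by
    rw [div_pow, ← map_pow, rt_pow, gal_fix hg ha, div_self ha0]
  obtain ⟨c, hc⟩ := exists_zpow_val hζ h1
  have h : ∃ c : ZMod p, g (rt p a) = ζ ^ c.val * rt p a := ⟨c, by rw [← hc]; field_simp⟩
  rw [kp, dif_pos h]
  exact h.choose_spec

include hζ hζF in
theorem kp_spec' {g : GQ} (hg : g ∈ F.fixingSubgroup) {a : Qb} (ha : a ∈ F) (ha0 : a ≠ 0) {b : Qb}
    (hb : b ^ p = a) : g b = ζ ^ (kp p ζ g a).val * b := by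
  have h0 := rt_ne_zero p ha0
  have h1 : (b / rt p a) ^ p = 1 := by rw [div_pow, hb, rt_pow, div_self ha0]
  obtain ⟨c, hc⟩ := exists_zpow_val hζ h1
  have h2 : b = ζ ^ c.val * rt p a := by rw [← hc]; field_simp
  rw [h2, map_mul, map_pow, gal_fix hg hζF, kp_spec hζ hg ha ha0]
  ring

include hζ hζF in
theorem kp_unique {g : GQ} (hg : g ∈ F.fixingSubgroup) {a : Qb} (ha : a ∈ F) (ha0 : a ≠ 0) {b : Qb}
    (hb : b ^ p = a) {c : ZMod p} (h : g b = ζ ^ c.val * b) : kp p ζ g a = c := by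
  have h1 := kp_spec' hζ hζF hg ha ha0 hb
  have hb0 : b ≠ 0 := by
    rintro rfl
    exact ha0 (by rw [← hb, zero_pow hp.out.ne_zero])
  rw [h] at h1
  exact (zeta_val_inj hζ (mul_right_cancel₀ hb0 h1)).symm

include hζ hζF in
theorem kp_mul {g : GQ} (hg : g ∈ F.fixingSubgroup) {a b : Qb} (ha : a ∈ F) (ha0 : a ≠ 0)
    (hb : b ∈ F) (hb0 : b ≠ 0) : kp p ζ g (a * b) = kp p ζ g a + kp p ζ g b := by
  apply kp_unique hζ hζF hg (F.mul_mem ha hb) (mul_ne_zero ha0 hb0) (b := rt p a * rt p b)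
  · rw [mul_pow, rt_pow, rt_pow]
  · rw [map_mul, kp_spec hζ hg ha ha0, kp_spec hζ hg hb hb0, zeta_val_add hζ]; ring

include hζ hζF in
theorem kp_gmul {g h : GQ} (hg : g ∈ F.fixingSubgroup) (hh : h ∈ F.fixingSubgroup) {a : Qb}
    (ha : a ∈ F) (ha0 : a ≠ 0) : kp p ζ (g * h) a = kp p ζ g a + kp p ζ h a := by
  apply kp_unique hζ hζF (F.fixingSubgroup.mul_mem hg hh) ha ha0 (rt_pow p a)
  rw [AlgEquiv.mul_apply, kp_spec hζ hh ha ha0, map_mul, map_pow, gal_fix hg hζF,
    kp_spec hζ hg ha ha0, zeta_val_add hζ]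
  ring

include hζ hζF in
theorem kp_eq_zero_iff {g : GQ} (hg : g ∈ F.fixingSubgroup) {a : Qb} (ha : a ∈ F) (ha0 : a ≠ 0)
    {b : Qb} (hb : b ^ p = a) : kp p ζ g a = 0 ↔ g b = b := by
  haveI : NeZero p := ⟨hp.out.ne_zero⟩
  constructor
  · intro h
    rw [kp_spec' hζ hζF hg ha ha0 hb, h, ZMod.val_zero, pow_zero, one_mul]
  · intro h
    apply kp_unique hζ hζF hg ha ha0 hb
    rw [ZMod.val_zero, pow_zero, one_mul, h]

theorem mem_of_fixed {x : Qb} (h : ∀ g ∈ F.fixingSubgroup, g x = x) : x ∈ F := by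
  haveI := Fermat.Agent.Frob.isGalois_Qbar
  rw [← InfiniteGalois.fixedField_fixingSubgroup F, IntermediateField.mem_fixedField_iff]
  exact h

end pairing

section units

variable {S : Finset Nat.Primes} {F : IntermediateField ℚ Qb}

/-- underlying algebraic number -/
def qv (x : QS S) : Qb := (x.1.toMul : Qb)

theorem qv_ne_zero (x : QS S) : qv x ≠ 0 := Units.ne_zero _
theorem qv_add (x y : QS S) : qv (x + y) = qv x * qv y := rfl
theorem qv_zero : qv (0 : QS S) = 1 := rfl
theorem qv_nsmul (n : ℕ) (x : QS S) : qv (n • x) = qv x ^ n := by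
  induction n with
  | zero => rw [zero_smul, qv_zero, pow_zero]
  | succ n ih => rw [succ_nsmul, qv_add, ih, pow_succ]
theorem qv_smul (g : GQ) (x : QS S) : qv (g • x) = g (qv x) := rfl
theorem qv_injective : Function.Injective (qv (S := S)) := fun x y h =>
  Subtype.ext (congrArg Additive.ofMul (Units.ext h : x.1.toMul = y.1.toMul))
theorem qv_neg (x : QS S) : qv (-x) = (qv x)⁻¹ := by
  apply eq_inv_of_mul_eq_one_left
  rw [← qv_add, neg_add_cancel, qv_zero]

/-- element of `QS S` from an element of an unramified field -/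
noncomputable def mkU (hF : F.IsUnramifiedOutside S) (x : Qb) (hx : x ∈ F) (hx0 : x ≠ 0) : QS S :=
  ⟨Additive.ofMul (Units.mk0 x hx0), F, hF, (mem_fix_of_mem _).mpr hx⟩

theorem qv_mkU (hF : F.IsUnramifiedOutside S) (x : Qb) (hx : x ∈ F) (hx0 : x ≠ 0) :
    qv (mkU hF x hx hx0) = x := rfl

theorem mem_fixQS {x : QS S} : x ∈ fix (QS S) F.fixingSubgroup ↔ qv x ∈ F := by
  constructor
  · intro h
    exact mem_of_fixed fun g hg => congrArg qv (h g hg)
  · intro h g hg
    exact qv_injective (gal_fix hg h)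

variable (S F) in
/-- `S`-units of `F` -/
noncomputable def SU : AddSubgroup (QS S) where
  carrier := {x | x ∈ fix (QS S) F.fixingSubgroup ∧ divQ x = 0}
  zero_mem' := ⟨(fix _ _).zero_mem, (congrArg Prod.snd (map_zero (diagT S)))⟩
  add_mem' := by
    rintro a b ⟨h1, h2⟩ ⟨h3, h4⟩
    exact ⟨(fix _ _).add_mem h1 h3, by rw [divQ_add, h2, h4, add_zero]⟩
  neg_mem' := by
    rintro a ⟨h1, h2⟩
    refine ⟨(fix _ _).neg_mem h1, ?_⟩
    have : divQ (-a) = - divQ a := congrArg Prod.snd (map_neg (diagT S) a)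
    rw [this, h2, neg_zero]

theorem mem_SU {x : QS S} : x ∈ SU S F ↔ x ∈ fix (QS S) F.fixingSubgroup ∧ divQ x = 0 := Iff.rfl

/-- divisor homomorphism -/
noncomputable def divH (S : Finset Nat.Primes) : QS S →+ DivG S where
  toFun := divQ
  map_zero' := congrArg Prod.snd (map_zero (diagT S))
  map_add' := divQ_add

theorem divH_apply (x : QS S) : divH S x = divQ x := rfl

theorem av_eq_one_of_SU {x : QS S} (hx : divQ x = 0) {q : Nat.Primes} (hq : q ∉ S) (σ : GQ) :
    av q (σ (qv x)) = 1 := by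
  have h1 := av_eq_of_QS x hq σ
  have h2 : ordq q (σ • x.1) = 0 := by
    rw [← divQ_apply x hq, hx]; rfl
  rw [h2, neg_zero, zpow_zero] at h1
  exact h1

end units

end Fermat.Agent.CFTSec
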