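import Fermat.Agent.CFTSec.Gen

set_option autoImplicit false
set_option maxHeartbeats 400000

/-! The second inequality. -/

namespace Fermat.Agent.CFTSec

open Fermat.Agent.CFT Fermat.Agent.CFTLocal Finset
open scoped Pointwise

noncomputable section

variable {S T : Finset Nat.Primes} {F F' : IntermediateField ℚ Qb}

/-- the double coset of a place -/
def dc (v : FrobPl) (H : Subgroup GQ) (σ : GQ) : Prop :=
  ∃ (t : LG v.ell) (h : GQ), h ∈ H ∧ σ = localGaloisToGlobal v.ell t * v.sig * h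

theorem dc_mul {v : FrobPl} {H : Subgroup GQ} {σ h : GQ} (hh : h ∈ H) :
    dc v H (σ * h) ↔ dc v H σ := by
  constructor
  · rintro ⟨t, k, hk, e⟩
    refine ⟨t, k * h⁻¹, H.mul_mem hk (H.inv_mem hh), ?_⟩
    rw [← mul_assoc, ← e]; group
  · rintro ⟨t, k, hk, rfl⟩
    exact ⟨t, k * h, H.mul_mem hk hh, by group⟩

theorem dc_lg {v : FrobPl} {H : Subgroup GQ} {σ : GQ} (t : LG v.ell) :
    dc v H (localGaloisToGlobal v.ell t * σ) ↔ dc v H σ := by
  constructor
  · rintro ⟨t', k, hk, e⟩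
    refine ⟨t⁻¹ * t', k, hk, ?_⟩
    have : σ = (localGaloisToGlobal v.ell t)⁻¹ * (localGaloisToGlobal v.ell t * σ) := by group
    rw [this, e, map_mul, map_inv]; group
  · rintro ⟨t', k, hk, rfl⟩
    exact ⟨t * t', k, hk, by rw [map_mul]; group⟩

theorem dc_sig (v : FrobPl) (H : Subgroup GQ) : dc v H v.sig :=
  ⟨1, 1, H.one_mem, by simp⟩

open Classical in
/-- the divisor of a place -/
def ptD (S : Finset Nat.Primes) (v : FrobPl) (hv : v.ell ∉ S) (H : Subgroup GQ) : DivG S :=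
  ⟨fun q σ => if q = v.ell ∧ dc v H σ then 1 else 0, by
    refine ⟨fun q τ σ => ?_, ?_, fun q hq => ?_⟩
    · by_cases hq : q = v.ell
      · subst hq
        simp only [dc_lg]
      · simp [hq]
    · refine (Set.finite_singleton v.ell).subset fun q hq => ?_
      by_contra h
      apply hq
      funext σ
      have h' : ¬ (q = v.ell ∧ dc v H σ) := fun h2 => h h2.1
      simp only [if_neg h']; rfl
    · funext σ
      have h' : ¬ (q = v.ell ∧ dc v H σ) := fun h2 => hv (h2.1 ▸ hq)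
      simp only [if_neg h']; rfl⟩

theorem ptD_pos {v : FrobPl} {hv : v.ell ∉ S} {H : Subgroup GQ} {q : Nat.Primes} {σ : GQ}
    (h : q = v.ell ∧ dc v H σ) : (ptD S v hv H).1 q σ = 1 := if_pos h

theorem ptD_neg {v : FrobPl} {hv : v.ell ∉ S} {H : Subgroup GQ} {q : Nat.Primes} {σ : GQ}
    (h : ¬ (q = v.ell ∧ dc v H σ)) : (ptD S v hv H).1 q σ = 0 := if_neg h

theorem ptD_fix (v : FrobPl) (hv : v.ell ∉ S) (H : Subgroup GQ) :
    ptD S v hv H ∈ fix (DivG S) H := by
  intro n hn
  apply Subtype.ext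
  funext q σ
  show (ptD S v hv H).1 q (σ * n) = (ptD S v hv H).1 q σ
  by_cases h : q = v.ell ∧ dc v H σ
  · rw [ptD_pos h, ptD_pos ⟨h.1, (dc_mul hn).mpr h.2⟩]
  · rw [ptD_neg h, ptD_neg fun h' => h ⟨h'.1, (dc_mul hn).mp h'.2⟩]

variable {p : ℕ} [hp : Fact p.Prime]

/-- split places are norms -/
theorem ptD_sum {v : FrobPl} {hv : v.ell ∉ S} {H' H : Subgroup GQ} {s : GQ} (hc : CycP p H' H s)
    (hst : stab (localGaloisToGlobal v.ell) H v.sig ≤ stab (localGaloisToGlobal v.ell) H' v.sig)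
    (q : Nat.Primes) (σ : GQ) :
    (ptD S v hv H).1 q σ = ∑ j ∈ range p, (ptD S v hv H').1 q (σ * s ^ j) := by
  by_cases h : q = v.ell ∧ dc v H σ
  · rw [ptD_pos h]
    obtain ⟨hq, t, h, hh, rfl⟩ := h
    obtain ⟨i, hi, k, hk, hik⟩ := hc.gen h⁻¹ (H.inv_mem hh)
    have hsi : ∀ a b : ℕ, a < p → b < p → (s ^ a)⁻¹ * s ^ b ∈ H' → a = b := by
      intro a b ha hb hab
      rcases le_total a b with hle | hle
      · obtain ⟨d, rfl⟩ := Nat.exists_eq_add_of_le hle
        rw [pow_add, inv_mul_cancel_left, hc.ord] at hab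
        have := Nat.eq_zero_of_dvd_of_lt hab (by omega)
        omega
      · obtain ⟨d, rfl⟩ := Nat.exists_eq_add_of_le hle
        have h2 := H'.inv_mem hab
        rw [mul_inv_rev, inv_inv, pow_add, inv_mul_cancel_left, hc.ord] at h2
        have := Nat.eq_zero_of_dvd_of_lt h2 (by omega)
        omega
    have key : ∀ j : ℕ, j < p → (dc v H' (localGaloisToGlobal v.ell t * v.sig * h * s ^ j) ↔ j = i) := by
      intro j hj
      constructor
      · rintro ⟨t', h', hh', e⟩
        have e1 : v.sig⁻¹ * localGaloisToGlobal v.ell (t'⁻¹ * t) * v.sig =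
            h' * (s ^ j)⁻¹ * h⁻¹ := by
          have e2 : v.sig = (localGaloisToGlobal v.ell t)⁻¹ *
            (localGaloisToGlobal v.ell t' * v.sig * h') * (s ^ j)⁻¹ * h⁻¹ := by rw [← e]; group
          rw [map_mul, map_inv]
          conv_lhs => rw [mul_assoc, mul_assoc]; enter [2, 2]; rw [e2]
          group
          
        have hsj : s ^ j ∈ H := H.pow_mem hc.mem j
        have e2 : t'⁻¹ * t ∈ stab (localGaloisToGlobal v.ell) H v.sig := by
          rw [mem_stab, e1]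
          exact H.mul_mem (H.mul_mem (hc.le hh') (H.inv_mem hsj)) (H.inv_mem hh)
        have e3 := hst e2
        rw [mem_stab, e1, hik] at e3
        have e4 : (s ^ j)⁻¹ * s ^ i = h'⁻¹ * (h' * (s ^ j)⁻¹ * (s ^ i * k)) * k⁻¹ := by group
        apply hsi j i hj hi
        rw [e4]
        exact H'.mul_mem (H'.mul_mem (H'.inv_mem hh') e3) (H'.inv_mem hk)
      · rintro rfl
        refine ⟨t, k⁻¹, H'.inv_mem hk, ?_⟩
        have : h * s ^ j = k⁻¹ := by
          have h2 : h = (s ^ j * k)⁻¹ := by rw [← hik, inv_inv]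
          rw [h2]; group
        rw [mul_assoc, this]
    rw [Finset.sum_eq_single i]
    · rw [ptD_pos ⟨hq, (key i hi).mpr rfl⟩]
    · intro j hj hji
      exact ptD_neg fun h' => hji ((key j (Finset.mem_range.mp hj)).mp h'.2)
    · intro hi'
      exact absurd (Finset.mem_range.mpr hi) hi'
  · rw [ptD_neg h]
    symm
    refine Finset.sum_eq_zero fun j _ => ptD_neg fun h' => h ⟨h'.1, ?_⟩
    have hsj : s ^ j ∈ H := H.pow_mem hc.mem j
    rw [← dc_mul hsj]
    obtain ⟨t, k, hk, e⟩ := h'.2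
    exact ⟨t, k, hc.le hk, e⟩

/-- the class of a place -/
def ptC (hF : F.IsUnramifiedOutside S) (v : FrobPl) (hv : v.ell ∉ S) : Cm S :=
  toC S (mkD hF (ptD S v hv F.fixingSubgroup) (ptD_fix v hv _))

theorem ptC_fix (hF : F.IsUnramifiedOutside S) (v : FrobPl) (hv : v.ell ∉ S) :
    ptC hF v hv ∈ fix (Cm S) F.fixingSubgroup := by
  intro n hn
  rw [ptC, ← toC_smul, mkD_fix _ _ _ n hn]

theorem ptC_nrm (hF : F.IsUnramifiedOutside S) (hF' : F'.IsUnramifiedOutside S) (v : FrobPl)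
    (hv : v.ell ∉ S) {s : GQ} (hc : CycP p F'.fixingSubgroup F.fixingSubgroup s)
    (hst : stab (localGaloisToGlobal v.ell) F.fixingSubgroup v.sig ≤
      stab (localGaloisToGlobal v.ell) F'.fixingSubgroup v.sig) :
    ptC hF v hv ∈ (nrmGrp p s F'.fixingSubgroup : AddSubgroup (Cm S)) := by
  apply toC_mem_nrm
  refine ⟨mkD hF' (ptD S v hv F'.fixingSubgroup) (ptD_fix v hv _), mkD_fix _ _ _, ?_⟩
  apply Subtype.ext
  refine Prod.ext ?_ ?_
  · funext q
    rw [projJ_sum]
    symm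
    exact Finset.sum_eq_zero fun i _ => smul_zero _
  · rw [projD_sum]
    apply Subtype.ext
    funext q σ
    show (ptD S v hv F.fixingSubgroup).1 q σ = _
    rw [ptD_sum hc hst]
    let π : DivG S →+ ℤ :=
      { toFun := fun f => f.1 q σ
        map_zero' := rfl
        map_add' := fun _ _ => rfl }
    exact (map_sum π (fun i => s ^ i • ptD S v hv F'.fixingSubgroup) (range p)).symm

theorem exists_card_pow_succ_aux {V : Type*} [AddCommGroup V] [Module (ZMod p) V] [Finite V]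
    (hne : ∃ v : V, v ≠ 0) : ∃ k, Nat.card V = p ^ (k + 1) := by
  haveI : Module.Finite (ZMod p) V := Module.Finite.of_finite
  have h1 := Module.natCard_eq_pow_finrank (K := ZMod p) (V := V)
  rw [Nat.card_zmod] at h1
  obtain ⟨v, hv⟩ := hne
  haveI : Nontrivial V := ⟨v, 0, hv⟩
  have h2 : Module.finrank (ZMod p) V ≠ 0 := (Module.finrank_pos).ne'
  obtain ⟨k, hk⟩ := Nat.exists_eq_succ_of_ne_zero h2
  exact ⟨k, by rw [h1, hk]⟩

theorem exists_card_pow_succ {V : Type*} [AddCommGroup V] [Finite V] (hV : ∀ v : V, p • v = 0)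
    (hne : ∃ v : V, v ≠ 0) : ∃ k, Nat.card V = p ^ (k + 1) :=
  letI : Module (ZMod p) V := AddCommGroup.zmodModule hV
  exists_card_pow_succ_aux hne

variable {ζ : Qb} (hζ : IsPrimitiveRoot ζ p) (hζF : ζ ∈ F)

include hζ hζF in
theorem ptC_indep (hp2 : 2 < p) (hF : F.IsUnramifiedOutside S)
    (hpS : (⟨p, hp.out⟩ : Nat.Primes) ∈ S)
    (hcl : ∀ D ∈ fix (DivG S) F.fixingSubgroup, ∃ x ∈ fix (QS S) F.fixingSubgroup, divQ x = D)
    {k : ℕ} (v : Fin k → FrobPl) (hvS : ∀ i, (v i).ell ∉ S)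
    (hvinj : Function.Injective (fun i => (v i).ell)) (hτ : ∀ i, (v i).tau ∈ F.fixingSubgroup)
    (hsurj : ∀ c : Fin k → ZMod p, ∃ u ∈ SU S F, ∀ i, kp p ζ (v i).tau (qv u) = c i)
    (n : Fin k → ℤ) {c : Cm S} (hc : c ∈ fix (Cm S) F.fixingSubgroup)
    (h : ∑ i, n i • ptC hF (v i) (hvS i) = p • c) (j : Fin k) : (p : ℤ) ∣ n j := by
  classical
  haveI := hF.1
  have hS : S.Nonempty := ⟨_, hpS⟩
  obtain ⟨x, hx, rfl⟩ := exists_fix_lift hS hF hc
  set y : Jm S := ∑ i, n i • mkD hF (ptD S (v i) (hvS i) F.fixingSubgroup) (ptD_fix _ _ _) with hy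
  have hyfix : y ∈ fix (Jm S) F.fixingSubgroup :=
    sum_mem fun i _ => (fix _ _).zsmul_mem (mkD_fix _ _ _) _
  have h1 : toC S (y - p • x) = 0 := by
    rw [map_sub, map_nsmul, ← h, hy, map_sum, sub_eq_zero]
    exact sum_congr rfl fun i _ => map_zsmul _ _ _
  obtain ⟨b, hb⟩ := toC_eq_zero.mp h1
  have hbF : b ∈ fix (QS S) F.fixingSubgroup := by
    intro m hm
    apply diag_injective hS
    rw [diag_smul, hb]
    exact (fix (Jm S) F.fixingSubgroup).sub_mem hyfix ((fix _ _).nsmul_mem hx p) m hm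
  have hycomp : ∀ q : S, y.1.1 q = 0 := by
    intro q
    let π : Jm S →+ JQ q.1 :=
      { toFun := fun f => f.1.1 q
        map_zero' := rfl
        map_add' := fun _ _ => rfl }
    have : π y = 0 := by
      rw [hy, map_sum]
      exact Finset.sum_eq_zero fun i _ => by
        rw [map_zsmul]
        show n i • (0 : JQ q.1) = 0
        rw [smul_zero]
    exact this
  have hydiv : ∀ q σ, y.1.2.1 q σ = ∑ i, n i * (ptD S (v i) (hvS i) F.fixingSubgroup).1 q σ := by
    intro q σ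
    let π : Jm S →+ ℤ :=
      { toFun := fun f => f.1.2.1 q σ
        map_zero' := rfl
        map_add' := fun _ _ => rfl }
    have : π y = ∑ i, n i * (ptD S (v i) (hvS i) F.fixingSubgroup).1 q σ := by
      rw [hy, map_sum]
      exact sum_congr rfl fun i _ => by
        rw [map_zsmul, smul_eq_mul]; rfl
    exact this
  have hbdiv : ∀ q σ, (divQ b).1 q σ = y.1.2.1 q σ - p * x.1.2.1 q σ := by
    intro q σ
    have h2 : (diag S b).1.2.1 q σ = (y - p • x).1.2.1 q σ := by rw [hb]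
    let π : Jm S →+ ℤ :=
      { toFun := fun f => f.1.2.1 q σ
        map_zero' := rfl
        map_add' := fun _ _ => rfl }
    have h3 : π (y - p • x) = π y - p * π x := by
      rw [map_sub, map_nsmul, nsmul_eq_mul]
    exact h2.trans h3
  obtain ⟨w, hw, hbw⟩ := key_lemma hζ hζF hp2 hF hpS hcl v hvS hvinj hτ hsurj hbF
    (fun q => ⟨-(x.1.1 q), (fix _ _).neg_mem (fix_comp hx q), by
      have h2 : (diag S b).1.1 q = (y - p • x).1.1 q := by rw [hb]
      let π : Jm S →+ JQ q.1 :=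
        { toFun := fun f => f.1.1 q
          map_zero' := rfl
          map_add' := fun _ _ => rfl }
      have h3 : π (y - p • x) = p • (-(π x)) := by
        rw [map_sub, map_nsmul, show π y = 0 from hycomp q, zero_sub]
        exact (neg_nsmul _ _).symm
      exact h2.trans h3⟩) (by
    intro q hq σ hno
    rw [hbdiv, hydiv, Finset.sum_eq_zero, zero_sub]
    · exact (dvd_mul_right _ _).neg_right
    · intro i _
      rw [ptD_neg, mul_zero]
      rintro ⟨rfl, t, h, hh, e⟩
      exact hno i ⟨rfl, t, h, hh, e⟩)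
  have h4 : (divQ b).1 (v j).ell (v j).sig = p * (divQ w).1 (v j).ell (v j).sig := by
    rw [hbw]
    have h5 : divH S (p • w) = p • divH S w := map_nsmul _ _ _
    rw [divH_apply, divH_apply] at h5
    rw [h5]
    let π : DivG S →+ ℤ :=
      { toFun := fun f => f.1 (v j).ell (v j).sig
        map_zero' := rfl
        map_add' := fun _ _ => rfl }
    have h3 : π (p • divQ w) = p * π (divQ w) := by rw [map_nsmul, nsmul_eq_mul]
    exact h3
  rw [hbdiv, hydiv, Finset.sum_eq_single j, ptD_pos ⟨rfl, dc_sig _ _⟩, mul_one] at h4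
  · exact ⟨(divQ w).1 (v j).ell (v j).sig + x.1.2.1 (v j).ell (v j).sig, by linear_combination h4⟩
  · intro i _ hij
    rw [ptD_neg, mul_zero]
    rintro ⟨h', -⟩
    exact hij (hvinj h').symm
  · intro h'
    exact absurd (Finset.mem_univ _) h'

include hζ hζF in
/-- the second inequality, for large `S` -/
theorem second_ineq_large (hp2 : 2 < p) (hF : F.IsUnramifiedOutside S)
    (hF' : F'.IsUnramifiedOutside S)
    (hpS : (⟨p, hp.out⟩ : Nat.Primes) ∈ S)
    (hcl : ∀ D ∈ fix (DivG S) F.fixingSubgroup, ∃ x ∈ fix (QS S) F.fixingSubgroup, divQ x = D)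
    {s : GQ} (hc : CycP p F'.fixingSubgroup F.fixingSubgroup s) :
    (nrmGrp p s F'.fixingSubgroup : AddSubgroup (Cm S)).relIndex (fix (Cm S) F.fixingSubgroup) ≤
      p := by
  classical
  haveI := hF.1
  obtain ⟨hU, hC⟩ := index_C_le hp2 hpS hF hζ hζF hcl
  obtain ⟨a, ha, hak, has⟩ := exists_unit_gen hF hF' hζ hζF hcl hc
  have hsF := hc.mem
  have haF : qv a ∈ F := mem_fixQS.mp ha.1
  -- the number of generators
  obtain ⟨k, hk⟩ : ∃ k, (mulN ↥(SU S F) p).range.index = p ^ (k + 1) := by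
    haveI : Finite (↥(SU S F) ⧸ (mulN ↥(SU S F) p).range) := Nat.finite_of_card_ne_zero hU
    refine exists_card_pow_succ (V := ↥(SU S F) ⧸ (mulN ↥(SU S F) p).range) ?_
      ⟨QuotientAddGroup.mk ⟨a, ha⟩, ?_⟩
    · intro x
      obtain ⟨z, rfl⟩ := QuotientAddGroup.mk_surjective x
      have : ((p • z : ↥(SU S F)) : ↥(SU S F) ⧸ (mulN ↥(SU S F) p).range) = 0 := by
        rw [QuotientAddGroup.eq_zero_iff]; exact ⟨z, rfl⟩
      exact this
    · intro h0
      rw [QuotientAddGroup.eq_zero_iff] at h0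
      obtain ⟨w, hw⟩ := h0
      have h5 : qv a = qv w.1 ^ p := by
        have h6 : p • w.1 = a := congrArg Subtype.val hw
        rw [← h6, qv_nsmul]
      have h7 := (kp_eq_zero_iff hζ hζF hsF haF (qv_ne_zero _) h5.symm).mpr
        (gal_fix hsF (mem_fixQS.mp w.2.1))
      rw [has] at h7
      exact one_ne_zero h7
  obtain ⟨v, hvS, hvinj, hτ, hva, hsurj⟩ := exists_places hζ hζF hF hk ha
    ⟨s, hsF, by rw [has]; exact one_ne_zero⟩
  -- no everywhere locally `p`-th powers
  obtain ⟨hC0, hCle⟩ := hC (by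
    rintro u ⟨y, hy⟩
    obtain ⟨w, hw, huw⟩ := key_lemma hζ hζF hp2 hF hpS hcl v hvS hvinj hτ hsurj u.2.1
      (fun q => ⟨(y q).1, (y q).2, congrArg Subtype.val (congrFun hy q)⟩) (by
      intro q _ σ _
      rw [u.2.2]
      exact dvd_zero _)
    refine ⟨⟨w, hw, ?_⟩, Subtype.ext huw⟩
    have h5 : divH S (p • w) = p • divH S w := map_nsmul _ _ _
    rw [divH_apply, divH_apply, ← huw, u.2.2] at h5
    apply Subtype.ext
    funext q σ
    have h3 : p • (divQ w).1 q σ = 0 := congrArg (fun z : DivG S => z.1 q σ) h5.symm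
    exact (smul_eq_zero.mp h3).resolve_left hp.out.ne_zero)
  rw [hk] at hCle
  set C := fix (Cm S) F.fixingSubgroup with hCdef
  set N : AddSubgroup ↥C := (nrmGrp p s F'.fixingSubgroup : AddSubgroup (Cm S)).addSubgroupOf C
    with hN
  have hPN : (mulN ↥C p).range ≤ N := by
    rintro _ ⟨c, rfl⟩
    rw [hN, AddSubgroup.mem_addSubgroupOf]
    refine ⟨c.1, fix_mono hc.le c.2, ?_⟩
    have h1 : ∀ i ∈ range p, s ^ i • c.1 = c.1 := fun i _ => c.2 _ (Subgroup.pow_mem _ hsF i)
    rw [sum_congr rfl h1, sum_const, card_range]; rfl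
  have hsplit : ∀ i, stab (localGaloisToGlobal (v i).ell) F.fixingSubgroup (v i).sig ≤
      stab (localGaloisToGlobal (v i).ell) F'.fixingSubgroup (v i).sig := by
    intro i t ht
    have h1 := frob_split hζ hζF (v i) (hvS i) (hτ i) hpS ha (hva i) ht
    rw [mem_stab, mem_fixing_KF hζ hζF haF (qv_ne_zero _)] at h1
    rw [mem_stab, hak]
    exact h1
  let pc : Fin k → N := fun i => ⟨⟨ptC hF (v i) (hvS i), ptC_fix hF _ _⟩,
    ptC_nrm hF hF' (v i) (hvS i) hc (hsplit i)⟩
  have hrel : (mulN ↥C p).range.relIndex N * N.index = (mulN ↥C p).range.index :=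
    AddSubgroup.relIndex_mul_index hPN
  have hrel0 : (mulN ↥C p).range.relIndex N ≠ 0 := fun h0 => hC0 (by rw [← hrel, h0, zero_mul])
  have hbig : p ^ k ≤ (mulN ↥C p).range.relIndex N := by
    haveI : Finite (N ⧸ (mulN ↥C p).range.addSubgroupOf N) := Nat.finite_of_card_ne_zero hrel0
    let f : (Fin k → ZMod p) → N ⧸ (mulN ↥C p).range.addSubgroupOf N := fun n =>
      QuotientAddGroup.mk (∑ i, ((n i).val : ℤ) • pc i)
    have hf : Function.Injective f := by
      intro n m hnm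
      have h1 := QuotientAddGroup.eq.mp hnm
      rw [AddSubgroup.mem_addSubgroupOf] at h1
      obtain ⟨c, hc1⟩ := h1
      have h2 : ∑ i, (((m i).val : ℤ) - (n i).val) • ptC hF (v i) (hvS i) = p • c.1 := by
        have h3 : p • c.1 = -(∑ i, ((n i).val : ℤ) • ptC hF (v i) (hvS i)) +
            ∑ i, ((m i).val : ℤ) • ptC hF (v i) (hvS i) := by
          have h4 := congrArg Subtype.val hc1
          have h5 : (((-(∑ i, ((n i).val : ℤ) • pc i) + ∑ i, ((m i).val : ℤ) • pc i : N) : ↥C) :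
            Cm S) = -(∑ i, ((n i).val : ℤ) • ptC hF (v i) (hvS i)) +
            ∑ i, ((m i).val : ℤ) • ptC hF (v i) (hvS i) := by
            push_cast
            rfl
          rw [← h5, ← h4]; rfl
        rw [h3, neg_add_eq_sub, ← sum_sub_distrib]
        exact sum_congr rfl fun i _ => sub_smul _ _ _
      funext j
      have h3 := ptC_indep hζ hζF hp2 hF hpS hcl v hvS hvinj hτ hsurj _ c.2 h2 j
      have h4 : (((m j).val : ℤ) : ZMod p) - (((n j).val : ℤ) : ZMod p) = 0 := by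
        rw [← Int.cast_sub]
        exact (ZMod.intCast_zmod_eq_zero_iff_dvd _ p).mpr h3
      haveI : NeZero p := ⟨hp.out.ne_zero⟩
      rw [Int.cast_natCast, Int.cast_natCast, ZMod.natCast_zmod_val, ZMod.natCast_zmod_val] at h4
      exact (sub_eq_zero.mp h4).symm
    have h1 := Nat.card_le_card_of_injective f hf
    rw [Nat.card_fun, Nat.card_zmod, Nat.card_eq_fintype_card, Fintype.card_fin] at h1
    exact h1
  have h1 : p ^ k * N.index ≤ p ^ k * p := by
    calc p ^ k * N.index ≤ (mulN ↥C p).range.relIndex N * N.index := Nat.mul_le_mul_right _ hbig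
      _ = (mulN ↥C p).range.index := hrel
      _ ≤ p ^ (k + 1) := hCle
      _ = p ^ k * p := pow_succ _ _
  exact Nat.le_of_mul_le_mul_left h1 (pow_pos hp.out.pos _)

include hζ hζF in
/-- the second inequality -/
theorem second_ineq (hp2 : 2 < p) (hF : F.IsUnramifiedOutside S)
    (hF' : F'.IsUnramifiedOutside S) (hFF' : F ≤ F')
    (hpS : (⟨p, hp.out⟩ : Nat.Primes) ∈ S)
    (hnorm : ∀ g ∈ F.fixingSubgroup, ∀ k ∈ F'.fixingSubgroup, g * k * g⁻¹ ∈ F'.fixingSubgroup)
    (hi : F'.fixingSubgroup.relIndex F.fixingSubgroup = p) {s : GQ} (hsU : s ∈ F.fixingSubgroup)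
    (hs : s ∉ F'.fixingSubgroup) :
    (nrmGrp p s F'.fixingSubgroup : AddSubgroup (Cm S)).relIndex (fix (Cm S) F.fixingSubgroup) ≤
      p := by
  have hc : CycP p F'.fixingSubgroup F.fixingSubgroup s :=
    CycP.of_relIndex (IntermediateField.fixingSubgroup_antitone hFF') hsU hs hnorm hi
  obtain ⟨T, hST, hcl⟩ := exists_kill_class hF
  have h1 := second_ineq_large hζ hζF hp2 (hF.mono hST) (hF'.mono hST) (hST hpS) hcl hc
  refine (relIndex_le_change ⟨_, hpS⟩ hST hF hF' hc ?_).trans h1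
  obtain ⟨-, t, ht0, ht, -⟩ := first_ineq (hF.mono hST) (hF'.mono hST) hFF' hp2 (hST hpS) hζ hζF
    hnorm hi hsU hs
  rw [ht]
  exact mul_ne_zero hp.out.ne_zero ht0

end

end Fermat.Agent.CFTSec
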