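import Fermat.Agent.CFTSec.Key

set_option autoImplicit false
set_option maxHeartbeats 400000

/-! Counting `S`-units and idele classes modulo `p`. -/

namespace Fermat.Agent.CFTSec

open Fermat.Agent.CFT Fermat.Agent.CFTLocal Finset IsDedekindDomain NumberField WithZero
open scoped Pointwise

noncomputable section

variable {S T : Finset Nat.Primes} {F F' : IntermediateField ℚ Qb}

/-- an idele with trivial `S`-components -/
def mkD (hF : F.IsUnramifiedOutside S) (D : DivG S) (hD : D ∈ fix (DivG S) F.fixingSubgroup) :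
    Jm S := ⟨((0 : ∀ q : S, JQ q.1), D), F, hF, fun n hn => Prod.ext (smul_zero n) (hD n hn)⟩

theorem mkD_fix (hF : F.IsUnramifiedOutside S) (D : DivG S)
    (hD : D ∈ fix (DivG S) F.fixingSubgroup) : mkD hF D hD ∈ fix (Jm S) F.fixingSubgroup :=
  fun n hn => Subtype.ext (Prod.ext (smul_zero n) (hD n hn))

/-- existence of a set of primes killing the class group -/
theorem exists_kill_class (hF : F.IsUnramifiedOutside S) : ∃ T : Finset Nat.Primes, S ⊆ T ∧
    ∀ D ∈ fix (DivG T) F.fixingSubgroup, ∃ x ∈ fix (QS T) F.fixingSubgroup, divQ x = D := by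
  classical
  haveI := hF.1
  have hidx := princ_index (R := 𝓞 F) (K := F)
  let Q := (HeightOneSpectrum (𝓞 F) →₀ ℤ) ⧸ princ (𝓞 F) F
  haveI : Finite Q := Nat.finite_of_card_ne_zero hidx
  haveI : Fintype Q := Fintype.ofFinite Q
  let T : Finset Nat.Primes := S ∪ Finset.univ.biUnion (fun c : Q =>
    (Quotient.out c).support.image (fun v => vq F v))
  have hST : S ⊆ T := Finset.subset_union_left
  refine ⟨T, hST, fun D hD => ?_⟩
  let j : ↥(fix (Jm T) F.fixingSubgroup) := ⟨mkD (hF.mono hST) D hD, mkD_fix _ D hD⟩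
  let c : Q := QuotientAddGroup.mk (nJ F T j)
  have hc : nJ F T j - Quotient.out c ∈ princ (𝓞 F) F := by
    rw [← QuotientAddGroup.eq_iff_sub_mem]
    exact (QuotientAddGroup.out_eq' c).symm
  obtain ⟨x, hx0, hx⟩ := hc
  refine ⟨mkQS (hF.mono hST) x hx0, mkQS_mem (hF.mono hST) x hx0, ?_⟩
  have hout : ∀ v : HeightOneSpectrum (𝓞 F), vq F v ∉ T → (Quotient.out c) v = 0 := by
    intro v hv
    by_contra h0
    apply hv
    refine Finset.mem_union_right _ (Finset.mem_biUnion.mpr ⟨c, Finset.mem_univ _, ?_⟩)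
    exact Finset.mem_image.mpr ⟨v, Finsupp.mem_support_iff.mpr h0, rfl⟩
  have hval : ∀ v : HeightOneSpectrum (𝓞 F), vq F v ∉ T →
      (divQ (mkQS (hF.mono hST) x hx0)).1 (vq F v) (vs F v) = D.1 (vq F v) (vs F v) := by
    intro v hv
    have h1 := nj_diag (hF.mono hST) (x := mkQS (hF.mono hST) x hx0) x.2 v
    have h2 : v.valuation F x = exp (-(nj F (diag T (mkQS (hF.mono hST) x hx0)) v)) := h1
    rw [hx v, exp_inj, neg_inj] at h2
    have h3 : (nJ F T j - Quotient.out c) v = D.1 (vq F v) (vs F v) := by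
      show nJ F T j v - (Quotient.out c) v = _
      rw [hout v hv, sub_zero, nJ_apply]
      unfold nj
      rw [dif_neg hv]; rfl
    rw [h3] at h2
    rw [h2]
    unfold nj
    rw [dif_neg hv]; rfl
  have key := place_ind F (fun q σ => q ∉ T →
      (divQ (mkQS (hF.mono hST) x hx0)).1 q σ = D.1 q σ) (by
    intro q τ σ n hn h1 hq
    have h2 : (divQ (mkQS (hF.mono hST) x hx0)).1 q (localGaloisToGlobal q τ * σ * n) =
        (divQ (mkQS (hF.mono hST) x hx0)).1 q (localGaloisToGlobal q τ * σ) := by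
      have h3 : n • divQ (mkQS (hF.mono hST) x hx0) = divQ (mkQS (hF.mono hST) x hx0) := by
        rw [← divQ_smul, mkQS_mem (hF.mono hST) x hx0 n hn]
      exact congrArg (fun z : DivG T => z.1 q (localGaloisToGlobal q τ * σ)) h3
    have h4 : D.1 q (localGaloisToGlobal q τ * σ * n) = D.1 q (localGaloisToGlobal q τ * σ) :=
      congrArg (fun z : DivG T => z.1 q (localGaloisToGlobal q τ * σ)) (hD n hn)
    rw [h2, h4, (divQ (mkQS (hF.mono hST) x hx0)).2.1 q τ σ, D.2.1 q τ σ]
    exact h1 hq) hval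
  apply Subtype.ext
  funext q σ
  by_cases hq : q ∈ T
  · rw [divQ_apply_mem _ hq, D.2.2.2 q hq]; rfl
  · exact key q σ hq

theorem embQ_mem_fix {x : QS S} (hx : x ∈ fix (QS S) F.fixingSubgroup) (q : Nat.Primes) :
    embQ q x.1 ∈ fix (JQ q) F.fixingSubgroup := by
  intro n hn
  have h1 : n • x.1 = x.1 := congrArg Subtype.val (hx n hn)
  rw [← embQ_smul, h1]

variable (S F) in
/-- units to local components -/
def iU : ↥(SU S F) →+ (∀ q : S, ↥(fix (JQ q.1) F.fixingSubgroup)) where
  toFun x q := ⟨embQ q.1 x.1.1, embQ_mem_fix x.2.1 q.1⟩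
  map_zero' := funext fun q => Subtype.ext (congrFun (congrArg Prod.fst (map_zero (diagT S))) q)
  map_add' x y := funext fun q => Subtype.ext (embQ_add q.1 x.1.1 y.1.1)

theorem iU_injective (hS : S.Nonempty) : Function.Injective (iU S F) := by
  intro x y h
  obtain ⟨q, hq⟩ := hS
  have h1 := congrArg Subtype.val (congrFun h ⟨q, hq⟩)
  exact Subtype.ext (Subtype.ext (embQ_injective q h1))

/-- idele from local components -/
def mkJ (hF : F.IsUnramifiedOutside S) (j : ∀ q : S, ↥(fix (JQ q.1) F.fixingSubgroup)) : Jm S :=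
  ⟨(fun q => (j q).1, 0), F, hF, fun n hn =>
    Prod.ext (funext fun q => (j q).2 n hn) (smul_zero n)⟩

theorem mkJ_fix (hF : F.IsUnramifiedOutside S) (j : ∀ q : S, ↥(fix (JQ q.1) F.fixingSubgroup)) :
    mkJ hF j ∈ fix (Jm S) F.fixingSubgroup := fun n hn =>
  Subtype.ext (Prod.ext (funext fun q => (j q).2 n hn) (smul_zero n))

/-- local components to idele classes -/
def piC (hF : F.IsUnramifiedOutside S) :
    (∀ q : S, ↥(fix (JQ q.1) F.fixingSubgroup)) →+ ↥(fix (Cm S) F.fixingSubgroup) :=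
  (fixToC F S).comp
    { toFun := fun j => ⟨mkJ hF j, mkJ_fix hF j⟩
      map_zero' := rfl
      map_add' := fun _ _ => Subtype.ext (Subtype.ext (Prod.ext rfl (add_zero _).symm)) }

theorem piC_val (hF : F.IsUnramifiedOutside S) (j : ∀ q : S, ↥(fix (JQ q.1) F.fixingSubgroup)) :
    (piC hF j).1 = toC S (mkJ hF j) := rfl

theorem fix_of_diag (hS : S.Nonempty) {a : QS S} {H : Subgroup GQ}
    (h : diag S a ∈ fix (Jm S) H) : a ∈ fix (QS S) H := by
  intro n hn
  apply diag_injective hS
  rw [diag_smul]; exact h n hn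

theorem range_iU (hS : S.Nonempty) (hF : F.IsUnramifiedOutside S) :
    (iU S F).range = (piC hF).ker := by
  ext j
  constructor
  · rintro ⟨x, rfl⟩
    rw [AddMonoidHom.mem_ker]
    apply Subtype.ext
    rw [piC_val]
    have : mkJ hF (iU S F x) = diag S x.1 := Subtype.ext (Prod.ext rfl x.2.2.symm)
    rw [this, toC_diag]; rfl
  · intro h
    have h1 : toC S (mkJ hF j) = 0 := congrArg Subtype.val (AddMonoidHom.mem_ker.mp h)
    obtain ⟨a, ha⟩ := toC_eq_zero.mp h1
    have haF : a ∈ fix (QS S) F.fixingSubgroup := fix_of_diag hS (by rw [ha]; exact mkJ_fix hF j)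
    have haD : divQ a = 0 := congrArg (fun z : Jm S => z.1.2) ha
    refine ⟨⟨a, haF, haD⟩, ?_⟩
    funext q
    exact Subtype.ext (congrArg (fun z : Jm S => z.1.1 q) ha)

theorem piC_surjective (hS : S.Nonempty) (hF : F.IsUnramifiedOutside S)
    (hcl : ∀ D ∈ fix (DivG S) F.fixingSubgroup, ∃ x ∈ fix (QS S) F.fixingSubgroup, divQ x = D) :
    Function.Surjective (piC hF) := by
  intro c
  obtain ⟨x, hx, hxc⟩ := exists_fix_lift hS hF c.2
  have hD : x.1.2 ∈ fix (DivG S) F.fixingSubgroup := fun n hn =>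
    congrArg (fun z : Jm S => z.1.2) (hx n hn)
  obtain ⟨β, hβ, hβD⟩ := hcl _ hD
  have h1 : x - diag S β ∈ fix (Jm S) F.fixingSubgroup := (fix _ _).sub_mem hx (diag_mem_fix hβ)
  refine ⟨fun q => ⟨(x - diag S β).1.1 q, fix_comp h1 q⟩, ?_⟩
  apply Subtype.ext
  rw [piC_val, ← hxc]
  have h2 : mkJ hF (fun q => ⟨(x - diag S β).1.1 q, fix_comp h1 q⟩) = x - diag S β := by
    apply Subtype.ext
    refine Prod.ext rfl ?_
    show (0 : DivG S) = x.1.2 - divQ β
    rw [hβD, sub_self]
  rw [h2, map_sub, toC_diag, sub_zero]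

variable {p : ℕ} [hp : Fact p.Prime]

/-- `p`-torsion of the local components -/
theorem card_ker_JQ (hF : FiniteDimensional ℚ F) (q : Nat.Primes) :
    Nat.card (mulN ↥(fix (JQ q) F.fixingSubgroup) p).ker ≤ p ^ npl q F ∧
    Finite (mulN ↥(fix (JQ q) F.fixingSubgroup) p).ker := by
  classical
  -- injects into functions on orbits with values in roots of unity
  let O := Quotient (MulAction.orbitRel (LG (q : ℕ)) (GQ ⧸ F.fixingSubgroup))
  let R := rootsOfUnity p (PadicAlgCl (q : ℕ))
  haveI : NeZero p := ⟨hp.out.ne_zero⟩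
  haveI : Finite O := inferInstance
  let rep : O → GQ := fun o => (Quotient.out (Quotient.out o : GQ ⧸ F.fixingSubgroup) : GQ)
  let f : (mulN ↥(fix (JQ q) F.fixingSubgroup) p).ker → (O → R) := fun x o =>
    ⟨(x.1.1.1 (rep o)).toMul, by
      rw [mem_rootsOfUnity]
      have h1 : p • x.1 = 0 := x.2
      have h2 := congrArg (fun z : ↥(fix (JQ q) F.fixingSubgroup) => z.1.1 (rep o)) h1
      exact congrArg Additive.toMul h2⟩
  have hf : Function.Injective f := by
    intro x y hxy
    apply Subtype.ext; apply Subtype.ext; apply Subtype.ext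
    funext g
    -- `g` is in the orbit of a representative
    let o : O := Quotient.mk _ (g : GQ ⧸ F.fixingSubgroup)
    have h1 : (MulAction.orbitRel (LG (q : ℕ)) (GQ ⧸ F.fixingSubgroup)) (Quotient.out o)
        (g : GQ ⧸ F.fixingSubgroup) := Quotient.exact (Quotient.out_eq o)
    rw [MulAction.orbitRel_apply, MulAction.mem_orbit_iff] at h1
    obtain ⟨t, ht⟩ := h1
    have h2 : ((rep o : GQ) : GQ ⧸ F.fixingSubgroup) = Quotient.out o := QuotientGroup.out_eq' _
    rw [← h2, coset_smul] at ht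
    obtain ⟨n, hn, hg⟩ : ∃ n ∈ F.fixingSubgroup, localGaloisToGlobal q t * g * n = rep o :=
      ⟨_, QuotientGroup.eq.mp ht, by group⟩
    have h3 : ∀ z : ↥(fix (JQ q) F.fixingSubgroup), z.1.1 (rep o) = t • z.1.1 g := by
      intro z
      rw [← hg]
      have h4 := coind_apply_mul (localGaloisToGlobal (q : ℕ)) z.2
        (localGaloisToGlobal q t * g) hn
      rw [h4]
      exact z.1.2 t g
    have h5 : x.1.1.1 (rep o) = y.1.1.1 (rep o) := by
      have := congrArg Subtype.val (congrFun hxy o)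
      exact congrArg Additive.ofMul this
    rw [h3, h3] at h5
    have := congrArg (fun z => t⁻¹ • z) h5
    simpa only [inv_smul_smul] using this
  have hcard : Nat.card (O → R) = p ^ npl q F := by
    rw [Nat.card_fun]
    have h1 : Nat.card R = p := HasEnoughRootsOfUnity.natCard_rootsOfUnity (PadicAlgCl (q : ℕ)) p
    rw [h1]
    rfl
  haveI : Finite (O → R) := Nat.finite_of_card_ne_zero (by
    rw [hcard]; exact pow_ne_zero _ hp.out.ne_zero)
  haveI := Finite.of_injective f hf
  exact ⟨hcard ▸ Nat.card_le_card_of_injective f hf, inferInstance⟩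

theorem card_ker_pi {ι : Type*} [Fintype ι] (A : ι → Type*) [∀ i, AddCommGroup (A i)] (n : ℕ) :
    Nat.card (mulN (∀ i, A i) n).ker = ∏ i, Nat.card (mulN (A i) n).ker := by
  rw [← Nat.card_pi]
  exact Nat.card_congr
    { toFun := fun x i => ⟨x.1 i, congrFun (AddMonoidHom.mem_ker.mp x.2) i⟩
      invFun := fun x => ⟨fun i => (x i).1, funext fun i => (x i).2⟩
      left_inv := fun x => rfl
      right_inv := fun x => rfl }

/-- abstract counting -/
theorem count_abstract {U J C : Type*} [AddCommGroup U] [AddCommGroup J] [AddCommGroup C]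
    (i : U →+ J) (π : J →+ C) (hi : Function.Injective i) (hπ : Function.Surjective π)
    (hex : i.range = π.ker) (hJ : FinInd (mulN J p)) (hC : FinInd (mulN C p)) :
    FinInd (mulN U p) ∧ ind (mulN J p) = ind (mulN U p) * ind (mulN C p) := by
  have h1 := finInd_left (f' := mulN U p) (f := mulN J p) (f'' := mulN C p) i π i π hi hπ hex
    hi hπ hex (fun x => (map_nsmul i p x).symm) (fun x => (map_nsmul π p x).symm) hJ hC
  exact ⟨h1, (ind_exact (f' := mulN U p) (f := mulN J p) (f'' := mulN C p) i π i π hi hπ hex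
    hi hπ hex (fun x => (map_nsmul i p x).symm) (fun x => (map_nsmul π p x).symm) h1 hC).2⟩

theorem index_abstract {U J C : Type*} [AddCommGroup U] [AddCommGroup J] [AddCommGroup C]
    (i : U →+ J) (π : J →+ C) (hi : Function.Injective i) (hπ : Function.Surjective π)
    (hex : i.range = π.ker) (hU : ∀ u, (∃ y, i u = p • y) → ∃ w, u = p • w) :
    (mulN J p).range.index = (mulN U p).range.index * (mulN C p).range.index := by
  have h1 : (mulN C p).range = (mulN J p).range.map π := by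
    ext y
    constructor
    · rintro ⟨c, rfl⟩
      obtain ⟨x, rfl⟩ := hπ c
      exact ⟨p • x, ⟨x, rfl⟩, map_nsmul π p x⟩
    · rintro ⟨_, ⟨x, rfl⟩, rfl⟩
      exact ⟨π x, (map_nsmul π p x).symm⟩
  have h2 : (mulN C p).range.index = ((mulN J p).range ⊔ i.range).index := by
    rw [h1, AddSubgroup.index_map, hex, AddMonoidHom.range_eq_top.mpr hπ, AddSubgroup.index_top,
      mul_one]
  have h3 : (mulN U p).range = (mulN J p).range.comap i := by
    ext u
    rw [AddSubgroup.mem_comap]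
    constructor
    · rintro ⟨w, rfl⟩
      exact ⟨i w, (map_nsmul i p w).symm⟩
    · rintro ⟨y, hy⟩
      obtain ⟨w, hw⟩ := hU u ⟨y, hy.symm⟩
      exact ⟨w, hw.symm⟩
  have h4 : (mulN U p).range.index = (mulN J p).range.relIndex i.range := by
    rw [h3, AddSubgroup.index_comap]
  rw [h2, h4, ← AddSubgroup.relIndex_sup_left, AddSubgroup.relIndex_mul_index le_sup_left]

/-- the class group modulo `p` is not larger than units modulo `p` -/
theorem index_C_le (hp2 : 2 < p) (hpS : (⟨p, hp.out⟩ : Nat.Primes) ∈ S)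
    (hF : F.IsUnramifiedOutside S) {ζ : Qb} (hζ : IsPrimitiveRoot ζ p) (hζF : ζ ∈ F)
    (hcl : ∀ D ∈ fix (DivG S) F.fixingSubgroup, ∃ x ∈ fix (QS S) F.fixingSubgroup, divQ x = D) :
    (mulN ↥(SU S F) p).range.index ≠ 0 ∧
    ((∀ u : ↥(SU S F), (∃ y, iU S F u = p • y) → ∃ w, u = p • w) →
    (mulN ↥(fix (Cm S) F.fixingSubgroup) p).range.index ≠ 0 ∧
    (mulN ↥(fix (Cm S) F.fixingSubgroup) p).range.index ≤ (mulN ↥(SU S F) p).range.index) := by
  haveI := hF.1
  have hS : S.Nonempty := ⟨_, hpS⟩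
  have hζ1 : IsPrimitiveRoot (⟨ζ, hζF⟩ : F) p := by
    rw [← IsPrimitiveRoot.map_iff_of_injective (f := F.val) F.val.injective]
    exact hζ
  obtain ⟨c1, c2⟩ := phi_C hp2 hpS hF hζ1
  obtain ⟨j1, j2⟩ := phi_J (F := F) (S := S) hpS
  obtain ⟨u1, u2⟩ := count_abstract (p := p) (iU S F) (piC hF) (iU_injective hS)
    (piC_surjective hS hF hcl) (range_iU hS hF) j1 c1
  refine ⟨u1.coker, fun hU => ⟨c1.coker, ?_⟩⟩
  have h1 := index_abstract (p := p) (iU S F) (piC hF) (iU_injective hS)
    (piC_surjective hS hF hcl) (range_iU hS hF) hU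
  -- torsion of `J`
  have hJk : Nat.card (mulN (∀ q : S, ↥(fix (JQ q.1) F.fixingSubgroup)) p).ker ≤
      p ^ (∑ q : S, npl q.1 F) := by
    rw [card_ker_pi, ← Finset.prod_pow_eq_pow_sum]
    exact Finset.prod_le_prod' fun q _ => (card_ker_JQ hF.1 q.1).1
  -- torsion of `U`
  have hUk : p ≤ Nat.card (mulN ↥(SU S F) p).ker := by
    haveI : NeZero p := ⟨hp.out.ne_zero⟩
    haveI : Finite (mulN ↥(SU S F) p).ker := Nat.finite_of_card_ne_zero u1.ker
    have hζi : ∀ i : ℕ, ζ ^ i ∈ F := fun i => pow_mem hζF i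
    have hζ0 : ζ ≠ 0 := hζ.ne_zero hp.out.ne_zero
    let f : Fin p → (mulN ↥(SU S F) p).ker := fun i =>
      ⟨⟨mkU hF (ζ ^ (i : ℕ)) (hζi i) (pow_ne_zero _ hζ0), mem_fixQS.mpr (hζi i), by
        apply Subtype.ext
        funext q σ
        by_cases hq : q ∈ S
        · exact divQ_apply_mem _ hq σ
        · rw [divQ_apply _ hq]
          show ordq q _ = 0
          apply ordq_eq
          show av q (σ (ζ ^ (i : ℕ))) = _
          rw [neg_zero, zpow_zero]
          have h2 : av q (σ (ζ ^ (i : ℕ))) ^ p = 1 := by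
            rw [← av_pow, ← map_pow, ← pow_mul, mul_comm, pow_mul, hζ.pow_eq_one, one_pow, map_one,
              av_one]
          exact (pow_eq_one_iff_of_nonneg (av_nonneg _ _) hp.out.ne_zero).mp h2⟩, by
        rw [AddMonoidHom.mem_ker]
        apply Subtype.ext
        apply qv_injective
        show qv (p • mkU hF (ζ ^ (i : ℕ)) (hζi i) (pow_ne_zero _ hζ0)) = _
        rw [qv_nsmul, qv_mkU, ← pow_mul, mul_comm, pow_mul, hζ.pow_eq_one, one_pow]
        rfl⟩
    have hf : Function.Injective f := by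
      intro i j hij
      have h2 : ζ ^ (i : ℕ) = ζ ^ (j : ℕ) :=
        congrArg (fun z : (mulN ↥(SU S F) p).ker => qv z.1.1) hij
      exact Fin.ext (hζ.pow_inj i.2 j.2 h2)
    have := Nat.card_le_card_of_injective f hf
    rwa [Nat.card_eq_fintype_card, Fintype.card_fin] at this
  -- final computation
  set a := (mulN (∀ q : S, ↥(fix (JQ q.1) F.fixingSubgroup)) p).range.index
  set ak := Nat.card (mulN (∀ q : S, ↥(fix (JQ q.1) F.fixingSubgroup)) p).ker with hak
  set u := (mulN ↥(SU S F) p).range.index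
  set uk := Nat.card (mulN ↥(SU S F) p).ker with huk
  set c := (mulN ↥(fix (Cm S) F.fixingSubgroup) p).range.index
  set n := Module.finrank ℚ F
  set m := ∑ q : S, npl q.1 F
  have hak0 : (ak : ℚ) ≠ 0 := by exact_mod_cast j1.ker
  have huk0 : (uk : ℚ) ≠ 0 := by exact_mod_cast u1.ker
  have hp0 : (p : ℚ) ≠ 0 := by exact_mod_cast hp.out.ne_zero
  have e1 : (a : ℚ) = (p : ℚ) ^ (m + n) * ak := by
    have : (a : ℚ) / ak = (p : ℚ) ^ (m + n) := j2
    rwa [div_eq_iff hak0] at this
  have e2 : (a : ℚ) * uk = (p : ℚ) ^ (n / 2 + 1) * u * ak := by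
    have h3 : (a : ℚ) / ak = (u : ℚ) / uk * (p : ℚ) ^ (n / 2 + 1) := by
      have := u2
      rw [c2] at this
      exact this
    field_simp at h3
    linear_combination h3
  have e3 : (a : ℚ) = u * c := by exact_mod_cast h1
  -- `u = p^(m+n) uk / p^(n/2+1)`
  have e4 : (u : ℚ) * (p : ℚ) ^ (n / 2 + 1) = (p : ℚ) ^ (m + n) * uk := by
    rw [e1] at e2
    have h3 : (p : ℚ) ^ (n / 2 + 1) * u * ak = (p : ℚ) ^ (m + n) * uk * ak := by
      rw [← e2]; ring
    have := mul_right_cancel₀ hak0 h3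
    rw [mul_comm]; exact this
  have hun : u * p ^ (n / 2 + 1) = p ^ (m + n) * uk := by exact_mod_cast e4
  have han : a = p ^ (m + n) * ak := by exact_mod_cast e1
  have hau : a = u * c := h1
  have hupos : 0 < u := Nat.pos_of_ne_zero u1.coker
  -- `c * uk ≤ p^(n/2+1) * ak`
  have h5 : c * uk = p ^ (n / 2 + 1) * ak := by
    have h6 : u * (c * uk) = u * (p ^ (n / 2 + 1) * ak) := by
      calc u * (c * uk) = a * uk := by rw [hau]; ring
        _ = p ^ (m + n) * uk * ak := by rw [han]; ring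
        _ = u * p ^ (n / 2 + 1) * ak := by rw [hun]
        _ = _ := by ring
    exact Nat.eq_of_mul_eq_mul_left hupos h6
  have hppos : 0 < p := hp.out.pos
  have h6 : c ≤ p ^ (n / 2 + m) := by
    have h7 : c * p ≤ p ^ (n / 2 + m) * p := by
      calc c * p ≤ c * uk := Nat.mul_le_mul_left _ hUk
        _ = p ^ (n / 2 + 1) * ak := h5
        _ ≤ p ^ (n / 2 + 1) * p ^ m := Nat.mul_le_mul_left _ hJk
        _ = p ^ (n / 2 + m) * p := by ring
    exact Nat.le_of_mul_le_mul_right h7 hppos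
  have h8 : p ^ (n / 2 + m) ≤ u := by
    have h9 : p ^ (n / 2 + m) * p ^ (n / 2 + 1) ≤ u * p ^ (n / 2 + 1) := by
      rw [hun]
      calc p ^ (n / 2 + m) * p ^ (n / 2 + 1) = p ^ (m + 2 * (n / 2)) * p := by
            rw [← pow_add, ← pow_succ]; congr 1; ring
        _ ≤ p ^ (m + n) * uk := by
            apply Nat.mul_le_mul _ hUk
            apply Nat.pow_le_pow_right hppos
            have := Nat.mul_div_le n 2
            omega
    exact Nat.le_of_mul_le_mul_right h9 (pow_pos hppos _)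
  exact h6.trans h8

end

end Fermat.Agent.CFTSec
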