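import Fermat.Agent.CFTSec.LocalKummer
import Fermat.Agent.FrobDens.Main

set_option autoImplicit false
set_option maxHeartbeats 400000

/-! The local Galois group surjects onto the decomposition group. -/

namespace Fermat.Agent.CFTSec

open Fermat.Agent.CFT Fermat.Agent.CFTLocal Finset Polynomial
open scoped Pointwise

variable (q : ℕ) [hq : Fact q.Prime]

/-- algebraic numbers are dense -/
theorem exists_qb_approx (y : PadicAlgCl q) {ε : ℝ} (hε : 0 < ε) :
    ∃ a : Qb, ‖y - padicEmbedding q a‖ < ε := by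
  set P := minpoly ℚ_[q] y with hP
  have hmon : P.Monic := minpoly.monic (Algebra.IsIntegral.isIntegral y)
  set n := P.natDegree with hn
  have hr : ∀ i : ℕ, ∃ r : ℚ, ‖P.coeff i - (r : ℚ_[q])‖ < ε ^ n / (‖y‖ ^ i + 1) := by
    intro i
    exact Padic.rat_dense q (P.coeff i) (by positivity)
  choose r hr using hr
  let g : ℚ[X] := X ^ n + ∑ i ∈ range n, C (r i) * X ^ i
  have hg : g.Monic := by
    apply monic_X_pow_add
    apply lt_of_le_of_lt (degree_sum_le _ _)
    refine (Finset.sup_lt_iff (WithBot.bot_lt_coe n)).mpr ?_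
    intro i hi
    refine (degree_C_mul_X_pow_le _ _).trans_lt ?_
    exact Nat.cast_lt.mpr (Finset.mem_range.mp hi)
  have hgdeg : g.natDegree = n := by
    have h1 : (∑ i ∈ range n, C (r i) * X ^ i : ℚ[X]).degree < (n : WithBot ℕ) := by
      apply lt_of_le_of_lt (degree_sum_le _ _)
      refine (Finset.sup_lt_iff (WithBot.bot_lt_coe n)).mpr ?_
      intro i hi
      refine (degree_C_mul_X_pow_le _ _).trans_lt ?_
      exact Nat.cast_lt.mpr (Finset.mem_range.mp hi)
    have h2 : (X ^ n + ∑ i ∈ range n, C (r i) * X ^ i : ℚ[X]).degree = n := by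
      rw [degree_add_eq_left_of_degree_lt (by rwa [degree_X_pow]), degree_X_pow]
    exact natDegree_eq_of_degree_eq_some h2
  -- value at y
  have hval : ‖aeval y g‖ < ε ^ n := by
    have h1 : aeval y P = 0 := minpoly.aeval _ _
    have h2 : aeval y P = y ^ n + ∑ i ∈ range n, algebraMap ℚ_[q] (PadicAlgCl q) (P.coeff i) * y ^ i := by
      rw [aeval_eq_sum_range, sum_range_succ, add_comm, ← hn]
      have h3 : P.coeff n = 1 := hmon
      rw [h3, one_smul]
      congr 1
      exact sum_congr rfl fun i _ => Algebra.smul_def _ _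
    have h3 : aeval y g = y ^ n + ∑ i ∈ range n, algebraMap ℚ_[q] (PadicAlgCl q) (r i : ℚ_[q]) * y ^ i := by
      simp [g]
    have h4 : aeval y g = -∑ i ∈ range n,
        algebraMap ℚ_[q] (PadicAlgCl q) (P.coeff i - (r i : ℚ_[q])) * y ^ i := by
      have h5 : aeval y g = aeval y g - aeval y P := by rw [h1, sub_zero]
      rw [h5, h2, h3, ← sum_neg_distrib, add_sub_add_left_eq_sub, ← sum_sub_distrib]
      refine sum_congr rfl fun i _ => ?_
      rw [map_sub]; ring
    rw [h4, norm_neg]
    have hlt : ∀ i, ‖algebraMap ℚ_[q] (PadicAlgCl q) (P.coeff i - (r i : ℚ_[q])) * y ^ i‖ < ε ^ n := by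
      intro i
      rw [norm_mul, norm_pow, PadicAlgCl.norm_extends]
      have h6 := hr i
      have h7 : 0 ≤ ‖y‖ ^ i := by positivity
      calc ‖P.coeff i - (r i : ℚ_[q])‖ * ‖y‖ ^ i ≤ ‖P.coeff i - (r i : ℚ_[q])‖ * (‖y‖ ^ i + 1) := by
            gcongr; linarith
        _ < ε ^ n / (‖y‖ ^ i + 1) * (‖y‖ ^ i + 1) := by
            have : 0 < ‖y‖ ^ i + 1 := by positivity
            gcongr
        _ = ε ^ n := by field_simp
    have : ∀ s : Finset ℕ, ‖∑ i ∈ s, algebraMap ℚ_[q] (PadicAlgCl q) (P.coeff i - (r i : ℚ_[q])) * y ^ i‖ < ε ^ n := by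
      intro s
      induction s using Finset.induction_on with
      | empty => simpa using pow_pos hε n
      | insert i s his ih =>
        rw [sum_insert his]
        exact (norm_add_le_max' _ _).trans_lt (max_lt (hlt i) ih)
    exact this _
  -- factorization over `Qb`
  set gb : Qb[X] := g.map (algebraMap ℚ Qb) with hgb
  have hgbm : gb.Monic := hg.map _
  have hsplit := (IsAlgClosed.splits gb).eq_prod_roots
  rw [hgbm.leadingCoeff, C_1, one_mul] at hsplit
  have hcard : Multiset.card gb.roots = n := by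
    have := (IsAlgClosed.splits gb).natDegree_eq_card_roots
    rw [← this, hgb, hg.natDegree_map, hgdeg]
  have hprod : aeval y g = (gb.roots.map (fun β => y - padicEmbedding q β)).prod := by
    have h1 : aeval y g = (gb.map (padicEmbedding q).toRingHom).eval y := by
      rw [hgb, Polynomial.map_map, aeval_def, eval_map]
      congr 1
      exact Subsingleton.elim _ _
    rw [h1]
    conv_lhs => rw [hsplit]
    rw [Polynomial.map_multiset_prod, eval_multiset_prod, Multiset.map_map, Multiset.map_map]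
    congr 1
    refine Multiset.map_congr rfl fun β _ => ?_
    simp
  by_contra hcon
  push Not at hcon
  have hge : ∀ s : Multiset Qb, ε ^ (Multiset.card s) ≤
      ‖(s.map (fun β => y - padicEmbedding q β)).prod‖ := by
    intro s
    induction s using Multiset.induction_on with
    | empty => simp
    | cons β s ih =>
      rw [Multiset.card_cons, Multiset.map_cons, Multiset.prod_cons, norm_mul, pow_succ']
      exact mul_le_mul (hcon β) ih (by positivity) (norm_nonneg _)
  have h1 := hge gb.roots
  rw [hcard, ← hprod] at h1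
  exact absurd hval (not_lt.mpr h1)

variable {q}

theorem av_eq_of_decomp {g : GQ} (hg : g ∈ (padicPlace q).decompositionSubgroup ℚ) (x : Qb) :
    av q (g x) = av q x := by
  rw [MulAction.mem_stabilizer_iff] at hg
  have h1 : ∀ z : Qb, av q (g z) < 1 ↔ av q z < 1 := by
    intro z
    rw [← valuation_lt_one_iff_av, ← valuation_lt_one_iff_av]
    conv_lhs => rw [← hg]
    rw [valuation_smul_lt, show g⁻¹ (g z) = z from AlgEquiv.symm_apply_apply g z]
  haveI : FiniteDimensional ℚ (IntermediateField.adjoin ℚ {x}) :=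
    IntermediateField.adjoin.finiteDimensional (Algebra.IsIntegral.isIntegral x)
  have h2 : primeOf q (IntermediateField.adjoin ℚ {x}) g =
      primeOf q (IntermediateField.adjoin ℚ {x}) 1 := by
    ext z
    rw [mem_primeOf, mem_primeOf, h1]
    rfl
  have h3 := av_eq_of_primeOf_eq q _ h2 ⟨x, IntermediateField.mem_adjoin_simple_self ℚ x⟩
  exact h3

/-- `LG q` surjects onto the decomposition group -/
theorem exists_lg_eq_decomp {g : GQ} (hg : g ∈ (padicPlace q).decompositionSubgroup ℚ) :
    ∃ τ : LG q, localGaloisToGlobal q τ = g := by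
  let ι := {F : IntermediateField ℚ Qb // FiniteDimensional ℚ F}
  let T : ι → Set (LG q) := fun F => {τ | ∀ x ∈ F.1, localGaloisToGlobal q τ x = g x}
  haveI : Nonempty ι := ⟨⟨⊥, inferInstance⟩⟩
  have hdir : Directed (fun a b => a ⊇ b) T := by
    intro F F'
    haveI := F.2
    haveI := F'.2
    refine ⟨⟨F.1 ⊔ F'.1, IntermediateField.finiteDimensional_sup F.1 F'.1⟩, ?_, ?_⟩
    · intro τ hτ x hx
      exact hτ x ((le_sup_left : F.1 ≤ F.1 ⊔ F'.1) hx)
    · intro τ hτ x hx
      exact hτ x ((le_sup_right : F'.1 ≤ F.1 ⊔ F'.1) hx)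
  have hne : ∀ F, (T F).Nonempty := by
    intro F
    haveI := F.2
    obtain ⟨τ, hτ⟩ := exists_lg_eq q F.1 1 g (fun x _ => (av_eq_of_decomp hg x).symm)
    exact ⟨τ, hτ⟩
  have hcl : ∀ F, IsClosed (T F) := by
    intro F
    have h1 : T F = ⋂ x ∈ F.1, {τ : LG q | τ (padicEmbedding q x) = padicEmbedding q (g x)} := by
      ext τ
      simp only [T, Set.mem_ofPred_eq, Set.mem_iInter]
      refine forall₂_congr fun x _ => ?_
      rw [← padicEmbedding_localGaloisToGlobal]
      exact ⟨fun h => by rw [h], fun h => (padicEmbedding q).toRingHom.injective h⟩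
    rw [h1]
    refine isClosed_biInter fun x _ => ?_
    by_cases hex : ∃ τ0 : LG q, τ0 (padicEmbedding q x) = padicEmbedding q (g x)
    · obtain ⟨τ0, h0⟩ := hex
      have h2 : {τ : LG q | τ (padicEmbedding q x) = padicEmbedding q (g x)} =
          (fun τ => τ0⁻¹ * τ) ⁻¹' (MulAction.stabilizer (LG q) (padicEmbedding q x) : Set (LG q)) := by
        ext τ
        rw [Set.mem_preimage, SetLike.mem_coe, MulAction.mem_stabilizer_iff, Set.mem_ofPred_eq, ← h0,
          mul_smul, inv_smul_eq_iff]
        rfl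
      rw [h2]
      refine IsClosed.preimage (continuous_const_mul _) ?_
      exact Subgroup.isClosed_of_isOpen _ (stabilizer_isOpen_of_isIntegral (K := ℚ_[q]) _)
    · have h2 : {τ : LG q | τ (padicEmbedding q x) = padicEmbedding q (g x)} = ∅ := by
        ext τ
        simp only [Set.mem_ofPred_eq, Set.mem_empty_iff_false, iff_false]
        exact fun h => hex ⟨τ, h⟩
      rw [h2]; exact isClosed_empty
  obtain ⟨τ, hτ⟩ := IsCompact.nonempty_iInter_of_directed_nonempty_isCompact_isClosed T hdir hne
    (fun F => (hcl F).isCompact) hcl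
  rw [Set.mem_iInter] at hτ
  refine ⟨τ, AlgEquiv.ext fun x => ?_⟩
  haveI : FiniteDimensional ℚ (IntermediateField.adjoin ℚ {x}) :=
    IntermediateField.adjoin.finiteDimensional (Algebra.IsIntegral.isIntegral x)
  exact hτ ⟨IntermediateField.adjoin ℚ {x}, inferInstance⟩ x
    (IntermediateField.mem_adjoin_simple_self ℚ x)

/-- local Frobenius elements -/
theorem exists_local_frob {g : GQ} (hg : (padicPlace q).IsFrobeniusAt g q) :
    ∃ φ : LG q, localGaloisToGlobal q φ = g ∧ ∀ z : PadicAlgCl q, ‖z‖ ≤ 1 → ‖φ z - z ^ q‖ < 1 := by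
  obtain ⟨φ, hφ⟩ := exists_lg_eq_decomp hg.1
  refine ⟨φ, hφ, fun z hz => ?_⟩
  obtain ⟨a, ha⟩ := exists_qb_approx q z one_pos
  have hg2 := (Fermat.Agent.FrobDens.isFrobeniusAt_iff.mp hg).2
  have hav : ‖padicEmbedding q a‖ ≤ 1 := by
    have : padicEmbedding q a = z - (z - padicEmbedding q a) := by ring
    rw [this]
    exact (norm_sub_le_max' _ _).trans (max_le hz ha.le)
  have h1 := hg2 a (by
    rw [mem_padicPlace_iff, ← NNReal.coe_le_coe, coe_nnnorm, NNReal.coe_one]; exact hav)
  rw [valuation_lt_one_iff_av] at h1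
  have h2 : ‖φ (padicEmbedding q a) - (padicEmbedding q a) ^ q‖ < 1 := by
    rw [← padicEmbedding_localGaloisToGlobal, hφ, ← map_pow, ← map_sub]
    exact h1
  have h3 : ‖φ (z - padicEmbedding q a)‖ < 1 := by rw [norm_gal]; exact ha
  have h4 : ‖(padicEmbedding q a) ^ q - z ^ q‖ < 1 := by
    have h5 : (padicEmbedding q a) ^ q - z ^ q = (padicEmbedding q a - z) *
        ∑ i ∈ range q, (padicEmbedding q a) ^ i * z ^ (q - 1 - i) := by
      rw [mul_comm]; exact (Commute.all _ _).geom_sum₂_mul q |>.symm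
    rw [h5, norm_mul, norm_sub_rev]
    refine mul_lt_one_of_nonneg_of_lt_one_left (norm_nonneg _) ha ?_
    have : ∀ s : Finset ℕ, ‖∑ i ∈ s, (padicEmbedding q a) ^ i * z ^ (q - 1 - i)‖ ≤ 1 := by
      intro s
      induction s using Finset.induction_on with
      | empty => simp
      | insert i s his ih =>
        rw [sum_insert his]
        refine (norm_add_le_max' _ _).trans (max_le ?_ ih)
        rw [norm_mul, norm_pow, norm_pow]
        exact mul_le_one₀ (pow_le_one₀ (norm_nonneg _) hav) (by positivity)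
          (pow_le_one₀ (norm_nonneg _) hz)
    exact this _
  have e : φ z - z ^ q = φ (z - padicEmbedding q a) +
      ((φ (padicEmbedding q a) - (padicEmbedding q a) ^ q) + ((padicEmbedding q a) ^ q - z ^ q)) := by
    rw [map_sub]; ring
  rw [e]
  exact (norm_add_le_max' _ _).trans_lt (max_lt h3
    ((norm_add_le_max' _ _).trans_lt (max_lt h2 h4)))

end Fermat.Agent.CFTSec
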