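import Fermat.Agent.CFTSec.Main

set_option autoImplicit false
set_option maxHeartbeats 400000

/-! Counting: split classes versus split characters. -/

namespace Fermat.Agent.CFTSec

open Fermat.Agent.CFT Fermat.Agent.CFTLocal Finset

section abstractpart

variable {U K J D C : Type*} [AddCommGroup U] [AddCommGroup K] [AddCommGroup J] [AddCommGroup D]
  [AddCommGroup C] {p : ℕ}
  (j : U →+ K) (i : K →+ J) (d : K →+ D) (π : J →+ C) (δ : D →+ C)

/-- data of the abstract counting -/
structure CountData (p : ℕ) : Prop where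
  jinj : Function.Injective j
  jrange : j.range = d.ker
  iinj : Function.Injective i
  surj : ∀ c, ∃ x y, c = π x + δ y
  ker : ∀ x y, π x + δ y = 0 ↔ ∃ z, i z = x ∧ d z = y
  tf : ∀ y : D, p • y = 0 → y = 0
  fin : d.range.index ≠ 0

theorem ind_finite {A : Type*} [AddCommGroup A] [Finite A] (f : A →+ A) : ind f = 1 := by
  have h1 := f.ker.card_mul_index
  have h2 := f.range.card_mul_index
  rw [AddSubgroup.index_ker] at h1
  have h3 : Nat.card f.range * f.range.index = Nat.card f.range * Nat.card f.ker := by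
    rw [h2, ← h1, mul_comm]
  have h4 : f.range.index = Nat.card f.ker := Nat.eq_of_mul_eq_mul_left Nat.card_pos h3
  rw [ind, h4, div_self]
  exact_mod_cast Nat.card_pos.ne'

namespace CountData

variable {j i d π δ} (h : CountData j i d π δ p)

include h

theorem comap_delta : π.range.comap δ = d.range := by
  ext y
  rw [AddSubgroup.mem_comap]
  constructor
  · rintro ⟨x, hx⟩
    obtain ⟨z, -, hz⟩ := (h.ker (-x) y).mp (by rw [map_neg, hx, neg_add_cancel])
    exact ⟨z, hz⟩
  · rintro ⟨z, rfl⟩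
    have h1 := (h.ker (i z) (d z)).mpr ⟨z, rfl, rfl⟩
    refine ⟨-(i z), ?_⟩
    rw [map_neg, neg_eq_iff_add_eq_zero, h1]

theorem index_range : π.range.index = d.range.index := by
  rw [← h.comap_delta, AddSubgroup.index_comap, ← AddSubgroup.relIndex_sup_left]
  have : π.range ⊔ δ.range = ⊤ := by
    rw [eq_top_iff]
    intro c _
    obtain ⟨x, y, rfl⟩ := h.surj c
    exact AddSubgroup.add_mem_sup ⟨x, rfl⟩ ⟨y, rfl⟩
  rw [this, AddSubgroup.relIndex_top_right]

theorem ind_eq (hJ : FinInd (mulN J p)) (hC : FinInd (mulN C p)) :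
    FinInd (mulN U p) ∧ ind (mulN J p) = ind (mulN U p) * ind (mulN C p) := by
  haveI : Finite (C ⧸ π.range) := Nat.finite_of_card_ne_zero (by
    show π.range.index ≠ 0
    rw [h.index_range]; exact h.fin)
  have hQ : FinInd (mulN (C ⧸ π.range) p) := finInd_of_finite _
  have hQ1 : ind (mulN (C ⧸ π.range) p) = 1 := ind_finite _
  have s1 : ∀ x, mulN C p (π.range.subtype x) = π.range.subtype (mulN π.range p x) := fun x =>
    (map_nsmul π.range.subtype p x).symm
  have s2 : ∀ x, mulN (C ⧸ π.range) p (QuotientAddGroup.mk' π.range x) =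
      QuotientAddGroup.mk' π.range (mulN C p x) := fun x =>
    (map_nsmul (QuotientAddGroup.mk' π.range) p x).symm
  have e1 : π.range.subtype.range = (QuotientAddGroup.mk' π.range).ker := by
    rw [QuotientAddGroup.ker_mk', AddSubgroup.range_subtype]
  have hR := finInd_left (f' := mulN π.range p) (f := mulN C p) (f'' := mulN (C ⧸ π.range) p)
    π.range.subtype (QuotientAddGroup.mk' π.range) π.range.subtype (QuotientAddGroup.mk' π.range)
    Subtype.val_injective (QuotientAddGroup.mk'_surjective _) e1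
    Subtype.val_injective (QuotientAddGroup.mk'_surjective _) e1 s1 s2 hC hQ
  have hR1 := (ind_exact (f' := mulN π.range p) (f := mulN C p) (f'' := mulN (C ⧸ π.range) p)
    π.range.subtype (QuotientAddGroup.mk' π.range) π.range.subtype (QuotientAddGroup.mk' π.range)
    Subtype.val_injective (QuotientAddGroup.mk'_surjective _) e1
    Subtype.val_injective (QuotientAddGroup.mk'_surjective _) e1 s1 s2 hR hQ).2
  rw [hQ1, mul_one] at hR1
  have e2 : (i.comp j).range = π.rangeRestrict.ker := by
    ext x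
    rw [AddMonoidHom.mem_ker]
    constructor
    · rintro ⟨u, rfl⟩
      have h1 : d (j u) = 0 := by
        have : j u ∈ d.ker := h.jrange ▸ ⟨u, rfl⟩
        exact this
      have h2 := (h.ker (i (j u)) 0).mpr ⟨j u, rfl, h1⟩
      rw [map_zero, add_zero] at h2
      exact Subtype.ext h2
    · intro hx
      have h1 : π x = 0 := congrArg Subtype.val hx
      obtain ⟨z, hz1, hz2⟩ := (h.ker x 0).mp (by rw [h1, map_zero, add_zero])
      have h2 : z ∈ j.range := by rw [h.jrange]; exact hz2
      obtain ⟨u, rfl⟩ := h2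
      exact ⟨u, hz1⟩
  have t1 : ∀ x, mulN J p ((i.comp j) x) = (i.comp j) (mulN U p x) := fun x =>
    (map_nsmul (i.comp j) p x).symm
  have t2 : ∀ x, mulN π.range p (π.rangeRestrict x) = π.rangeRestrict (mulN J p x) := fun x =>
    (map_nsmul π.rangeRestrict p x).symm
  have hij : Function.Injective (i.comp j) := h.iinj.comp h.jinj
  have hsr : Function.Surjective π.rangeRestrict := AddMonoidHom.rangeRestrict_surjective π
  have hU := finInd_left (f' := mulN U p) (f := mulN J p) (f'' := mulN π.range p)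
    (i.comp j) π.rangeRestrict (i.comp j) π.rangeRestrict hij hsr e2 hij hsr e2 t1 t2 hJ hR
  refine ⟨hU, ?_⟩
  rw [hR1]
  exact (ind_exact (f' := mulN U p) (f := mulN J p) (f'' := mulN π.range p)
    (i.comp j) π.rangeRestrict (i.comp j) π.rangeRestrict hij hsr e2 hij hsr e2 t1 t2 hU hR).2

variable (K D J) in
/-- the Selmer group -/
def V : AddSubgroup K := (mulN D p).range.comap d

omit h in
theorem mem_V {x : K} : x ∈ (mulN D p).range.comap d ↔ ∃ y, d x = p • y := by
  rw [AddSubgroup.mem_comap]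
  constructor
  · rintro ⟨y, hy⟩; exact ⟨y, hy.symm⟩
  · rintro ⟨y, hy⟩; exact ⟨y, hy.symm⟩

theorem comap_pC : (mulN C p).range.comap π =
    (mulN J p).range ⊔ ((mulN D p).range.comap d).map i := by
  ext x
  rw [AddSubgroup.mem_comap]
  constructor
  · rintro ⟨c, hc⟩
    obtain ⟨x', y', rfl⟩ := h.surj c
    have hc' : p • (π x' + δ y') = π x := hc
    obtain ⟨z, hz1, hz2⟩ := (h.ker (x - p • x') (-(p • y'))).mp (by
      rw [map_sub, map_neg, map_nsmul, map_nsmul, ← hc', smul_add]; abel)
    have : x = p • x' + i z := by rw [hz1]; abel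
    rw [this]
    refine AddSubgroup.add_mem_sup ⟨x', rfl⟩ ⟨z, mem_V.mpr ⟨-y', ?_⟩, rfl⟩
    rw [hz2, smul_neg]
  · intro hx
    obtain ⟨_, ⟨x', rfl⟩, _, ⟨z, hz, rfl⟩, rfl⟩ := AddSubgroup.mem_sup.mp hx
    obtain ⟨y, hy⟩ := mem_V.mp hz
    have h1 := (h.ker (i z) (d z)).mpr ⟨z, rfl, rfl⟩
    refine ⟨π x' - δ y, ?_⟩
    show p • (π x' - δ y) = π (p • x' + i z)
    rw [map_add, map_nsmul, smul_sub, ← map_nsmul δ, ← hy]
    rw [eq_neg_of_add_eq_zero_left h1, ← sub_eq_add_neg]

omit h in
theorem pK_le_V : (mulN K p).range ≤ (mulN D p).range.comap d := by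
  rintro _ ⟨z, rfl⟩
  exact mem_V.mpr ⟨d z, map_nsmul d p z⟩

/-- first count -/
theorem countA : (mulN C p).range.index *
      (mulN K p).range.relIndex ((mulN D p).range.comap d) =
    ((mulN C p).range ⊔ π.range).index * (mulN J p).range.index *
      (mulN K p).range.relIndex ((mulN D p).range.comap d ⊓ (mulN J p).range.comap i) := by
  set pC := (mulN C p).range
  set pJ := (mulN J p).range
  set pK := (mulN K p).range
  set V := (mulN D p).range.comap d
  have e1 : pC.relIndex (pC ⊔ π.range) * (pC ⊔ π.range).index = pC.index :=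
    AddSubgroup.relIndex_mul_index le_sup_left
  have e2 : pC.relIndex (pC ⊔ π.range) = (pJ ⊔ V.map i).index := by
    rw [AddSubgroup.relIndex_sup_left, ← AddSubgroup.index_comap]
    exact congrArg AddSubgroup.index h.comap_pC
  have e3 : pJ.relIndex (pJ ⊔ V.map i) * (pJ ⊔ V.map i).index = pJ.index :=
    AddSubgroup.relIndex_mul_index le_sup_left
  have e4 : pJ.relIndex (pJ ⊔ V.map i) = (V ⊓ pJ.comap i).relIndex V := by
    rw [AddSubgroup.relIndex_sup_left, ← AddSubgroup.relIndex_comap,
      AddSubgroup.inf_relIndex_left]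
  have e5 : pK.relIndex (V ⊓ pJ.comap i) * (V ⊓ pJ.comap i).relIndex V = pK.relIndex V := by
    refine AddSubgroup.relIndex_mul_relIndex _ _ _ (le_inf pK_le_V ?_) inf_le_left
    rintro _ ⟨z, rfl⟩
    exact ⟨i z, (map_nsmul i p z).symm⟩
  rw [← e1, e2, ← e3, e4, ← e5]
  ring

theorem comap_delta_P : ((mulN C p).range ⊔ π.range).comap δ = (mulN D p).range ⊔ d.range := by
  ext y
  rw [AddSubgroup.mem_comap]
  constructor
  · intro hy
    obtain ⟨_, ⟨c, rfl⟩, _, ⟨x, rfl⟩, hxy⟩ := AddSubgroup.mem_sup.mp hy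
    obtain ⟨x', y', rfl⟩ := h.surj c
    have hc' : p • (π x' + δ y') + π x = δ y := hxy
    obtain ⟨z, hz1, hz2⟩ := (h.ker (-(p • x' + x)) (y - p • y')).mp (by
      rw [map_sub, map_neg, map_add, map_nsmul, map_nsmul, ← hc', smul_add]; abel)
    have : y = p • y' + d z := by rw [hz2]; abel
    rw [this]
    exact AddSubgroup.add_mem_sup ⟨y', rfl⟩ ⟨z, rfl⟩
  · intro hy
    obtain ⟨_, ⟨y', rfl⟩, _, ⟨z, rfl⟩, rfl⟩ := AddSubgroup.mem_sup.mp hy
    rw [map_add]
    refine AddSubgroup.add_mem_sup ⟨δ y', (map_nsmul δ p y').symm⟩ ?_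
    have h1 := (h.ker (i z) (d z)).mpr ⟨z, rfl, rfl⟩
    exact ⟨-(i z), by rw [map_neg, neg_eq_iff_add_eq_zero, h1]⟩

theorem index_P : ((mulN C p).range ⊔ π.range).index = ((mulN D p).range ⊔ d.range).index := by
  rw [← h.comap_delta_P, AddSubgroup.index_comap, ← AddSubgroup.relIndex_sup_left]
  have : (mulN C p).range ⊔ π.range ⊔ δ.range = ⊤ := by
    rw [eq_top_iff]
    intro c _
    obtain ⟨x, y, rfl⟩ := h.surj c
    exact AddSubgroup.add_mem_sup ((le_sup_right : π.range ≤ _) ⟨x, rfl⟩) ⟨y, rfl⟩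
  rw [this, AddSubgroup.relIndex_top_right]

/-- second count -/
theorem countB : (mulN K p).range.relIndex ((mulN D p).range.comap d) =
    (mulN U p).range.index * ((mulN C p).range ⊔ π.range).index := by
  rw [h.index_P]
  set pD := (mulN D p).range with hpD
  set pK := (mulN K p).range with hpK
  set V := pD.comap d with hV
  set R := d.range with hR
  have hkerV : d.ker ≤ V := fun x hx => by
    rw [hV, AddSubgroup.mem_comap, AddMonoidHom.mem_ker.mp hx]
    exact AddSubgroup.zero_mem _
  have e1 : pK.relIndex (pK ⊔ d.ker) * (pK ⊔ d.ker).relIndex V = pK.relIndex V :=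
    AddSubgroup.relIndex_mul_relIndex _ _ _ le_sup_left (sup_le pK_le_V hkerV)
  have e2 : pK.relIndex (pK ⊔ d.ker) = (mulN U p).range.index := by
    rw [AddSubgroup.relIndex_sup_left, ← h.jrange, ← AddSubgroup.index_comap]
    congr 1
    ext u
    rw [AddSubgroup.mem_comap]
    constructor
    · rintro ⟨z, hz⟩
      have hz' : p • z = j u := hz
      have hdz : d z = 0 := by
        apply h.tf
        rw [← map_nsmul, hz']
        have : j u ∈ d.ker := h.jrange ▸ ⟨u, rfl⟩
        exact this
      obtain ⟨w, rfl⟩ : z ∈ j.range := by rw [h.jrange]; exact hdz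
      refine ⟨w, h.jinj ?_⟩
      rw [← hz']
      exact map_nsmul j p w
    · rintro ⟨w, rfl⟩
      exact ⟨j w, (map_nsmul j p w).symm⟩
  -- the second factor
  have e3 : (pK ⊔ d.ker).relIndex V = (R.map (mulN D p)).relIndex (pD ⊓ R) := by
    have h1 : pK ⊔ d.ker = (R.map (mulN D p)).comap d := by
      ext x
      rw [AddSubgroup.mem_comap]
      constructor
      · intro hx
        obtain ⟨_, ⟨z, rfl⟩, w, hw, rfl⟩ := AddSubgroup.mem_sup.mp hx
        refine ⟨d z, ⟨z, rfl⟩, ?_⟩
        rw [map_add, AddMonoidHom.mem_ker.mp hw, add_zero]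
        exact (map_nsmul d p z).symm
      · rintro ⟨_, ⟨z, rfl⟩, hz⟩
        have hz' : p • d z = d x := hz
        have : x = p • z + (x - p • z) := by abel
        rw [this]
        refine AddSubgroup.add_mem_sup ⟨z, rfl⟩ ?_
        rw [AddMonoidHom.mem_ker, map_sub, map_nsmul, hz', sub_self]
    rw [h1, AddSubgroup.relIndex_comap]
    congr 1
    rw [hV, AddSubgroup.map_comap_eq, inf_comm]
  have hinj : Function.Injective (mulN D p) := by
    rw [injective_iff_map_eq_zero]
    exact h.tf
  have hle : R.map (mulN D p) ≤ pD ⊓ R := by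
    rintro _ ⟨_, ⟨z, rfl⟩, rfl⟩
    exact ⟨⟨d z, rfl⟩, p • z, map_nsmul d p z⟩
  have f1 : (R.map (mulN D p)).relIndex pD = R.index := by
    have : pD = (⊤ : AddSubgroup D).map (mulN D p) := AddMonoidHom.range_eq_map _
    rw [this, AddSubgroup.relIndex_map_map_of_injective _ _ hinj, AddSubgroup.relIndex_top_right]
  have f2 : (R.map (mulN D p)).relIndex (pD ⊓ R) * (pD ⊓ R).relIndex pD =
      (R.map (mulN D p)).relIndex pD := AddSubgroup.relIndex_mul_relIndex _ _ _ hle inf_le_left
  have f3 : (pD ⊓ R).relIndex pD = R.relIndex (R ⊔ pD) := by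
    rw [AddSubgroup.inf_relIndex_left, AddSubgroup.relIndex_sup_left]
  have f4 : R.relIndex (R ⊔ pD) * (R ⊔ pD).index = R.index :=
    AddSubgroup.relIndex_mul_index le_sup_left
  have f5 : R.relIndex (R ⊔ pD) ≠ 0 := fun h0 => h.fin (by rw [← f4, h0, zero_mul])
  have f6 : (R.map (mulN D p)).relIndex (pD ⊓ R) = (pD ⊔ R).index := by
    rw [f1, f3] at f2
    rw [← f4, mul_comm] at f2
    rw [sup_comm pD R]
    exact Nat.eq_of_mul_eq_mul_left (Nat.pos_of_ne_zero f5) f2
  rw [← e1, e2, e3, f6]

/-- the counting lemma -/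
theorem main (hU : (mulN U p).range.index ≠ 0)
    (hJ : (mulN J p).range.index ≤ (mulN U p).range.index ^ 2)
    (hH : (mulN K p).range.relIndex ((mulN D p).range.comap d) ≤ (mulN C p).range.index) :
    ((mulN C p).range ⊔ π.range).index ≠ 0 ∧ ((mulN C p).range ⊔ π.range).index ≤
      (mulN K p).range.relIndex ((mulN D p).range.comap d ⊓ (mulN J p).range.comap i) := by
  have hP0 : ((mulN C p).range ⊔ π.range).index ≠ 0 := by
    rw [h.index_P]
    intro h0
    apply h.fin
    have := AddSubgroup.relIndex_mul_index (le_sup_right : d.range ≤ (mulN D p).range ⊔ d.range)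
    rw [← this, h0, mul_zero]
  refine ⟨hP0, ?_⟩
  have hA := h.countA
  have hB := h.countB
  set c := (mulN C p).range.index
  set v := (mulN K p).range.relIndex ((mulN D p).range.comap d)
  set P := ((mulN C p).range ⊔ π.range).index
  set b := (mulN K p).range.relIndex ((mulN D p).range.comap d ⊓ (mulN J p).range.comap i)
  set u := (mulN U p).range.index
  set a := (mulN J p).range.index
  have h1 : (u ^ 2 * P) * P ≤ (u ^ 2 * P) * b := by
    calc (u ^ 2 * P) * P = v * v := by rw [hB]; ring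
      _ ≤ c * v := Nat.mul_le_mul_right _ hH
      _ = P * a * b := hA
      _ ≤ P * u ^ 2 * b := Nat.mul_le_mul_right _ (Nat.mul_le_mul_left _ hJ)
      _ = _ := by ring
  exact Nat.le_of_mul_le_mul_left h1 (Nat.mul_pos (pow_pos (Nat.pos_of_ne_zero hU) 2)
    (Nat.pos_of_ne_zero hP0))

end CountData

end abstractpart

end Fermat.Agent.CFTSec
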