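import Fermat.Agent.CFTSec.Dual

set_option autoImplicit false
set_option maxHeartbeats 400000

/-! Counting: split classes versus split characters. -/

namespace Fermat.Agent.CFTSec

open Fermat.Agent.CFT Fermat.Agent.CFTLocal Finset IsDedekindDomain NumberField WithZero
open scoped Pointwise

noncomputable section

variable {S T : Finset Nat.Primes} {F F' : IntermediateField ℚ Qb}

/-- divisors to ideles -/
def mkDh (hF : F.IsUnramifiedOutside S) :
    ↥(fix (DivG S) F.fixingSubgroup) →+ ↥(fix (Jm S) F.fixingSubgroup) where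
  toFun D := ⟨mkD hF D.1 D.2, mkD_fix hF D.1 D.2⟩
  map_zero' := rfl
  map_add' _ _ := Subtype.ext (Subtype.ext (Prod.ext (add_zero _).symm rfl))

variable (S F) in
/-- the divisor map -/
def dK : ↥(fix (QS S) F.fixingSubgroup) →+ ↥(fix (DivG S) F.fixingSubgroup) where
  toFun x := ⟨divQ x.1, fun n hn => by rw [← divQ_smul, x.2 n hn]⟩
  map_zero' := Subtype.ext (map_zero (divH S))
  map_add' x y := Subtype.ext (map_add (divH S) x.1 y.1)

variable (S F) in
/-- the local components -/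
def iK : ↥(fix (QS S) F.fixingSubgroup) →+ (∀ q : S, ↥(fix (JQ q.1) F.fixingSubgroup)) where
  toFun x q := ⟨embQ q.1 x.1.1, embQ_mem_fix x.2 q.1⟩
  map_zero' := funext fun q => Subtype.ext (congrFun (congrArg Prod.fst (map_zero (diagT S))) q)
  map_add' x y := funext fun q => Subtype.ext (embQ_add q.1 x.1.1 y.1.1)

/-- divisors to idele classes -/
def dC (hF : F.IsUnramifiedOutside S) :
    ↥(fix (DivG S) F.fixingSubgroup) →+ ↥(fix (Cm S) F.fixingSubgroup) :=
  (fixToC F S).comp (mkDh hF)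

variable (S F) in
/-- units -/
def jU : ↥(SU S F) →+ ↥(fix (QS S) F.fixingSubgroup) where
  toFun x := ⟨x.1, x.2.1⟩
  map_zero' := rfl
  map_add' _ _ := rfl

/-- finiteness of the `S`-class group -/
theorem index_dK (hF : F.IsUnramifiedOutside S) : (dK S F).range.index ≠ 0 := by
  classical
  haveI := hF.1
  have hidx := princ_index (R := 𝓞 F) (K := F)
  let φ : ↥(fix (DivG S) F.fixingSubgroup) →+ (HeightOneSpectrum (𝓞 F) →₀ ℤ) :=
    (nJ F S).comp (mkDh hF)
  have h1 : ((princ (𝓞 F) F).comap φ).index ≠ 0 := by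
    rw [AddSubgroup.index_comap]
    intro h0
    apply hidx
    have := AddSubgroup.relIndex_dvd_index_of_normal (princ (𝓞 F) F) φ.range
    rw [h0] at this
    exact Nat.eq_zero_of_zero_dvd this
  have h2 : (princ (𝓞 F) F).comap φ ≤ (dK S F).range := by
    rintro ⟨D, hD⟩ hx
    obtain ⟨x, hx0, hx⟩ := hx
    refine ⟨⟨mkQS hF x hx0, mkQS_mem hF x hx0⟩, ?_⟩
    have hval : ∀ v : HeightOneSpectrum (𝓞 F), vq F v ∉ S →
        (divQ (mkQS hF x hx0)).1 (vq F v) (vs F v) = D.1 (vq F v) (vs F v) := by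
      intro v hv
      have h1 := nj_diag hF (x := mkQS hF x hx0) x.2 v
      have h2 : v.valuation F x = exp (-(nj F (diag S (mkQS hF x hx0)) v)) := h1
      rw [hx v, exp_inj, neg_inj] at h2
      have h3 : (φ ⟨D, hD⟩) v = D.1 (vq F v) (vs F v) := by
        show nJ F S (mkDh hF ⟨D, hD⟩) v = _
        rw [nJ_apply]
        unfold nj
        rw [dif_neg hv]; rfl
      rw [h3] at h2
      rw [h2]
      unfold nj
      rw [dif_neg hv]; rfl
    have key := place_ind F (fun q σ => q ∉ S →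
        (divQ (mkQS hF x hx0)).1 q σ = D.1 q σ) (by
      intro q τ σ n hn h1 hq
      have h2 : (divQ (mkQS hF x hx0)).1 q (localGaloisToGlobal q τ * σ * n) =
          (divQ (mkQS hF x hx0)).1 q (localGaloisToGlobal q τ * σ) := by
        have h3 : n • divQ (mkQS hF x hx0) = divQ (mkQS hF x hx0) := by
          rw [← divQ_smul, mkQS_mem hF x hx0 n hn]
        exact congrArg (fun z : DivG S => z.1 q (localGaloisToGlobal q τ * σ)) h3
      have h4 : D.1 q (localGaloisToGlobal q τ * σ * n) = D.1 q (localGaloisToGlobal q τ * σ) :=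
        congrArg (fun z : DivG S => z.1 q (localGaloisToGlobal q τ * σ)) (hD n hn)
      rw [h2, h4, (divQ (mkQS hF x hx0)).2.1 q τ σ, D.2.1 q τ σ]
      exact h1 hq) hval
    apply Subtype.ext
    apply Subtype.ext
    funext q σ
    by_cases hq : q ∈ S
    · show (divQ (mkQS hF x hx0)).1 q σ = D.1 q σ
      rw [divQ_apply_mem _ hq, D.2.2.2 q hq]; rfl
    · exact key q σ hq
  intro h0
  apply h1
  have := AddSubgroup.relIndex_mul_index h2
  rw [← this, h0, mul_zero]

variable {p : ℕ} [hp : Fact p.Prime]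

/-- the counting data -/
theorem cdata (hS : S.Nonempty) (hF : F.IsUnramifiedOutside S) :
    CountData (jU S F) (iK S F) (dK S F) (piC hF) (dC hF) p where
  jinj := by
    intro x y h
    exact Subtype.ext (congrArg (fun z : ↥(fix (QS S) F.fixingSubgroup) => z.1) h)
  jrange := by
    ext x
    constructor
    · rintro ⟨u, rfl⟩
      exact Subtype.ext u.2.2
    · intro hx
      exact ⟨⟨x.1, x.2, congrArg Subtype.val (AddMonoidHom.mem_ker.mp hx)⟩, rfl⟩
  iinj := by
    intro x y h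
    obtain ⟨q, hq⟩ := hS
    have h1 := congrArg Subtype.val (congrFun h ⟨q, hq⟩)
    exact Subtype.ext (Subtype.ext (embQ_injective q h1))
  surj := by
    intro c
    obtain ⟨x, hx, hxc⟩ := exists_fix_lift hS hF c.2
    have hD : x.1.2 ∈ fix (DivG S) F.fixingSubgroup := fun n hn =>
      congrArg (fun z : Jm S => z.1.2) (hx n hn)
    refine ⟨fun q => ⟨x.1.1 q, fix_comp hx q⟩, ⟨x.1.2, hD⟩, ?_⟩
    apply Subtype.ext
    rw [← hxc]
    have : x = mkJ hF (fun q => ⟨x.1.1 q, fix_comp hx q⟩) + mkD hF x.1.2 hD := by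
      apply Subtype.ext
      exact Prod.ext (add_zero _).symm (zero_add _).symm
    conv_lhs => rw [this]
    exact map_add _ _ _
  ker := by
    intro x y
    constructor
    · intro h
      have h1 : toC S (mkJ hF x + mkD hF y.1 y.2) = 0 := by
        rw [map_add]
        exact congrArg Subtype.val h
      obtain ⟨a, ha⟩ := toC_eq_zero.mp h1
      have haF : a ∈ fix (QS S) F.fixingSubgroup := fix_of_diag hS (by
        rw [ha]; exact (fix _ _).add_mem (mkJ_fix hF x) (mkD_fix hF y.1 y.2))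
      refine ⟨⟨a, haF⟩, ?_, ?_⟩
      · funext q
        apply Subtype.ext
        have h2 : (diag S a).1.1 q = (mkJ hF x + mkD hF y.1 y.2).1.1 q := by rw [ha]
        exact h2.trans (add_zero _)
      · apply Subtype.ext
        have h2 : (diag S a).1.2 = (mkJ hF x + mkD hF y.1 y.2).1.2 := by rw [ha]
        exact h2.trans (zero_add _)
    · rintro ⟨z, rfl, rfl⟩
      apply Subtype.ext
      have h1 : mkJ hF (iK S F z) + mkD hF (dK S F z).1 (dK S F z).2 = diag S z.1 := by
        apply Subtype.ext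
        exact Prod.ext (add_zero _) (zero_add _)
      have h2 : toC S (mkJ hF (iK S F z) + mkD hF (dK S F z).1 (dK S F z).2) = 0 := by
        rw [h1, toC_diag]
      rw [map_add] at h2
      exact h2
  tf := by
    intro y hy
    apply Subtype.ext
    apply Subtype.ext
    funext q σ
    have h3 : p • y.1.1 q σ = 0 :=
      congrArg (fun z : ↥(fix (DivG S) F.fixingSubgroup) => z.1.1 q σ) hy
    exact (smul_eq_zero.mp h3).resolve_left hp.out.ne_zero
  fin := index_dK hF

/-- torsion in the units -/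
theorem card_tors_U (hF : F.IsUnramifiedOutside S) {ζ : Qb} (hζ : IsPrimitiveRoot ζ p)
    (hζF : ζ ∈ F) (hfin : Nat.card (mulN ↥(SU S F) p).ker ≠ 0) :
    p ≤ Nat.card (mulN ↥(SU S F) p).ker := by
  haveI : NeZero p := ⟨hp.out.ne_zero⟩
  haveI : Finite (mulN ↥(SU S F) p).ker := Nat.finite_of_card_ne_zero hfin
  have hζi : ∀ i : ℕ, ζ ^ i ∈ F := fun i => pow_mem hζF i
  have hζ0 : ζ ≠ 0 := hζ.ne_zero hp.out.ne_zero
  let f : Fin p → (mulN ↥(SU S F) p).ker := fun i =>
    ⟨⟨mkU hF (ζ ^ (i : ℕ)) (hζi i) (pow_ne_zero _ hζ0), mem_fixQS.mpr (hζi i), by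
      apply Subtype.ext
      funext q σ
      by_cases hq : q ∈ S
      · exact divQ_apply_mem _ hq σ
      · rw [divQ_apply _ hq]
        show ordq q _ = 0
        apply ordq_eq
        show av q (σ (ζ ^ (i : ℕ))) = _
        rw [neg_zero, zpow_zero]
        have h2 : av q (σ (ζ ^ (i : ℕ))) ^ p = 1 := by
          rw [← av_pow, ← map_pow, ← pow_mul, mul_comm, pow_mul, hζ.pow_eq_one, one_pow, map_one,
            av_one]
        exact (pow_eq_one_iff_of_nonneg (av_nonneg _ _) hp.out.ne_zero).mp h2⟩, by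
      rw [AddMonoidHom.mem_ker]
      apply Subtype.ext
      apply qv_injective
      show qv (p • mkU hF (ζ ^ (i : ℕ)) (hζi i) (pow_ne_zero _ hζ0)) = _
      rw [qv_nsmul, qv_mkU, ← pow_mul, mul_comm, pow_mul, hζ.pow_eq_one, one_pow]
      rfl⟩
  have hf : Function.Injective f := by
    intro i j hij
    have h2 : ζ ^ (i : ℕ) = ζ ^ (j : ℕ) :=
      congrArg (fun z : (mulN ↥(SU S F) p).ker => qv z.1.1) hij
    exact Fin.ext (hζ.pow_inj i.2 j.2 h2)
  have := Nat.card_le_card_of_injective f hf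
  rwa [Nat.card_eq_fintype_card, Fintype.card_fin] at this

/-- numerical comparison of units and local components -/
theorem index_J_le (hp2 : 2 < p) (hpS : (⟨p, hp.out⟩ : Nat.Primes) ∈ S)
    (hF : F.IsUnramifiedOutside S) {ζ : Qb} (hζ : IsPrimitiveRoot ζ p) (hζF : ζ ∈ F) :
    (mulN ↥(SU S F) p).range.index ≠ 0 ∧
    (mulN (∀ q : S, ↥(fix (JQ q.1) F.fixingSubgroup)) p).range.index ≤
      (mulN ↥(SU S F) p).range.index ^ 2 := by
  haveI := hF.1
  have hS : S.Nonempty := ⟨_, hpS⟩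
  have hζ1 : IsPrimitiveRoot (⟨ζ, hζF⟩ : F) p := by
    rw [← IsPrimitiveRoot.map_iff_of_injective (f := F.val) F.val.injective]
    exact hζ
  obtain ⟨c1, c2⟩ := phi_C hp2 hpS hF hζ1
  obtain ⟨j1, j2⟩ := phi_J (F := F) (S := S) hpS
  obtain ⟨u1, u2⟩ := (cdata (p := p) hS hF).ind_eq j1 c1
  refine ⟨u1.coker, ?_⟩
  have hJk : Nat.card (mulN (∀ q : S, ↥(fix (JQ q.1) F.fixingSubgroup)) p).ker ≤
      p ^ (∑ q : S, npl q.1 F) := by
    rw [card_ker_pi, ← Finset.prod_pow_eq_pow_sum]
    exact Finset.prod_le_prod' fun q _ => (card_ker_JQ hF.1 q.1).1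
  have hUk : p ≤ Nat.card (mulN ↥(SU S F) p).ker := card_tors_U hF hζ hζF u1.ker
  set a := (mulN (∀ q : S, ↥(fix (JQ q.1) F.fixingSubgroup)) p).range.index
  set ak := Nat.card (mulN (∀ q : S, ↥(fix (JQ q.1) F.fixingSubgroup)) p).ker with hak
  set u := (mulN ↥(SU S F) p).range.index
  set uk := Nat.card (mulN ↥(SU S F) p).ker with huk
  set n := Module.finrank ℚ F
  set m := ∑ q : S, npl q.1 F
  have hak0 : (ak : ℚ) ≠ 0 := by exact_mod_cast j1.ker
  have huk0 : (uk : ℚ) ≠ 0 := by exact_mod_cast u1.ker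
  have hp0 : (p : ℚ) ≠ 0 := by exact_mod_cast hp.out.ne_zero
  have e1 : (a : ℚ) = (p : ℚ) ^ (m + n) * ak := by
    have : (a : ℚ) / ak = (p : ℚ) ^ (m + n) := j2
    rwa [div_eq_iff hak0] at this
  have e2 : (a : ℚ) * uk = (p : ℚ) ^ (n / 2 + 1) * u * ak := by
    have h3 : (a : ℚ) / ak = (u : ℚ) / uk * (p : ℚ) ^ (n / 2 + 1) := by
      have := u2
      rw [c2] at this
      exact this
    field_simp at h3
    linear_combination h3
  have e4 : (u : ℚ) * (p : ℚ) ^ (n / 2 + 1) = (p : ℚ) ^ (m + n) * uk := by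
    rw [e1] at e2
    have h3 : (p : ℚ) ^ (n / 2 + 1) * u * ak = (p : ℚ) ^ (m + n) * uk * ak := by
      rw [← e2]; ring
    have := mul_right_cancel₀ hak0 h3
    rw [mul_comm]; exact this
  have hun : u * p ^ (n / 2 + 1) = p ^ (m + n) * uk := by exact_mod_cast e4
  have han : a = p ^ (m + n) * ak := by exact_mod_cast e1
  have hppos : 0 < p := hp.out.pos
  have h8 : p ^ (m + (n - n / 2)) ≤ u := by
    have h9 : p ^ (m + (n - n / 2)) * p ^ (n / 2 + 1) ≤ u * p ^ (n / 2 + 1) := by
      rw [hun]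
      calc p ^ (m + (n - n / 2)) * p ^ (n / 2 + 1) = p ^ (m + n) * p := by
            rw [← pow_add, ← pow_succ]; congr 1; omega
        _ ≤ p ^ (m + n) * uk := Nat.mul_le_mul_left _ hUk
    exact Nat.le_of_mul_le_mul_right h9 (pow_pos hppos _)
  calc a = p ^ (m + n) * ak := han
    _ ≤ p ^ (m + n) * p ^ m := Nat.mul_le_mul_left _ hJk
    _ = p ^ (2 * m + n) := by rw [← pow_add]; congr 1; ring
    _ ≤ p ^ ((m + (n - n / 2)) * 2) := Nat.pow_le_pow_right hppos (by omega)
    _ = (p ^ (m + (n - n / 2))) ^ 2 := pow_mul _ _ _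
    _ ≤ u ^ 2 := Nat.pow_le_pow_left h8 2

end

end Fermat.Agent.CFTSec
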