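import Fermat.Agent.CFTSec.Counting

set_option autoImplicit false
set_option maxHeartbeats 400000

/-! Kummer generators which are `S`-units, choice of Frobenius primes, norm divisors. -/

namespace Fermat.Agent.CFTSec

open Fermat.Agent.CFT Fermat.Agent.CFTLocal Finset
open scoped Pointwise

noncomputable section

variable {S T : Finset Nat.Primes} {F F' : IntermediateField ℚ Qb} {p : ℕ} [hp : Fact p.Prime]

theorem CycP.exists_char {G : Type*} [Group G] {H' H : Subgroup G} {s : G} (h : CycP p H' H s) :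
    ∃ f : G → ZMod p, (∀ g ∈ H, ∀ g' ∈ H, f (g * g') = f g + f g') ∧
      (∀ g, g ∈ H' ↔ g ∈ H ∧ f g = 0) ∧ f s = 1 := by
  classical
  have huniq : ∀ i j : ℕ, ∀ k ∈ H', ∀ k' ∈ H', s ^ i * k = s ^ j * k' → (i : ZMod p) = j := by
    have key : ∀ i j : ℕ, i ≤ j → ∀ k ∈ H', ∀ k' ∈ H', s ^ i * k = s ^ j * k' →
        (i : ZMod p) = j := by
      intro i j hij k hk k' hk' e
      obtain ⟨d, rfl⟩ := Nat.exists_eq_add_of_le hij
      have h2 : s ^ d ∈ H' := by
        have h3 : s ^ d = k * k'⁻¹ := by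
          rw [pow_add, mul_assoc] at e
          have := mul_left_cancel e
          rw [this]; group
        rw [h3]; exact H'.mul_mem hk (H'.inv_mem hk')
      have h4 := (h.ord d).mp h2
      rw [Nat.cast_add, (ZMod.natCast_eq_zero_iff d p).mpr h4, add_zero]
    intro i j k hk k' hk' e
    rcases le_total i j with hij | hij
    · exact key i j hij k hk k' hk' e
    · exact (key j i hij k' hk' k hk e.symm).symm
  let f : G → ZMod p := fun g => if hg : g ∈ H then ((h.gen g hg).choose : ZMod p) else 0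
  have hf : ∀ (i : ℕ) (k : G), k ∈ H' → f (s ^ i * k) = i := by
    intro i k hk
    have hg : s ^ i * k ∈ H := H.mul_mem (H.pow_mem h.mem i) (h.le hk)
    simp only [f, dif_pos hg]
    obtain ⟨-, k', hk', e⟩ := (h.gen _ hg).choose_spec
    exact (huniq _ _ k hk k' hk' e).symm
  refine ⟨f, ?_, ?_, ?_⟩
  · intro g hg g' hg'
    obtain ⟨i, -, k, hk, rfl⟩ := h.gen g hg
    obtain ⟨j, -, k', hk', rfl⟩ := h.gen g' hg'
    have e : s ^ i * k * (s ^ j * k') = s ^ (i + j) * ((s ^ j)⁻¹ * k * s ^ j * k') := by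
      rw [pow_add]; group
    rw [e, hf _ _ (H'.mul_mem (h.conj_mem' (H.pow_mem h.mem j) hk) hk'), hf _ _ hk, hf _ _ hk']
    push_cast; ring
  · intro g
    constructor
    · intro hg
      refine ⟨h.le hg, ?_⟩
      have := hf 0 g hg
      simpa using this
    · rintro ⟨hg, hg0⟩
      obtain ⟨i, -, k, hk, rfl⟩ := h.gen g hg
      rw [hf _ _ hk, ZMod.natCast_eq_zero_iff] at hg0
      exact H'.mul_mem ((h.ord i).mpr hg0) hk
  · have := hf 1 1 H'.one_mem
    simpa using this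

/-- an `S`-unit Kummer generator -/
theorem exists_unit_gen (hF : F.IsUnramifiedOutside S) (hF' : F'.IsUnramifiedOutside S)
    {ζ : Qb} (hζ : IsPrimitiveRoot ζ p) (hζF : ζ ∈ F)
    (hcl : ∀ D ∈ fix (DivG S) F.fixingSubgroup, ∃ x ∈ fix (QS S) F.fixingSubgroup, divQ x = D)
    {s : GQ} (hc : CycP p F'.fixingSubgroup F.fixingSubgroup s) :
    ∃ a ∈ SU S F, (∀ g, g ∈ F'.fixingSubgroup ↔ g ∈ F.fixingSubgroup ∧ kp p ζ g (qv a) = 0) ∧
      kp p ζ s (qv a) = 1 := by
  haveI := hF.1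
  haveI := hF'.1
  haveI : NeZero p := ⟨hp.out.ne_zero⟩
  obtain ⟨f, hf, hfk, hfs⟩ := hc.exists_char
  haveI := finiteIndex_fixingSubgroup F'
  have hζ0 : ζ ≠ 0 := hζ.ne_zero hp.out.ne_zero
  let z : Qbˣ := Units.mk0 ζ hζ0
  let M : Subgroup F.fixingSubgroup := F'.fixingSubgroup.subgroupOf F.fixingSubgroup
  haveI : M.FiniteIndex := inferInstance
  obtain ⟨β, hβ1, hβ2⟩ := hilbert90 (Ω := Qb) M (by
      intro g hg
      show (g : GQ) ∈ F'.fixingSubgroup
      rw [IntermediateField.mem_fixingSubgroup_iff]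
      intro x hx
      exact hg x (fun n hn => gal_fix hn hx))
    (fun g => z ^ (f (g : GQ)).val) (by
      intro g h
      show ((z ^ (f ((g * h : F.fixingSubgroup) : GQ)).val : Qbˣ) : Qb) =
        ((z ^ (f (g : GQ)).val : Qbˣ) : Qb) * (g : GQ) ((z ^ (f (h : GQ)).val : Qbˣ) : Qb)
      rw [Units.val_pow_eq_pow_val, Units.val_pow_eq_pow_val, Units.val_pow_eq_pow_val, map_pow]
      show ζ ^ _ = ζ ^ _ * ((g : GQ) ζ) ^ _
      rw [gal_fix g.2 hζF, ← zeta_val_add hζ, ← hf _ g.2 _ h.2]; rfl) (by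
      intro n hn
      have : f (n : GQ) = 0 := ((hfk _).mp hn).2
      simp [this])
  have hβF' : (β : Qb) ∈ F' := mem_of_fixed fun g hg => hβ1 ⟨g, hc.le hg⟩ hg
  let b : QS S := mkU hF' (β : Qb) hβF' (Units.ne_zero β)
  have hgb : ∀ g ∈ F.fixingSubgroup, g (qv b) = ζ ^ (f g).val * qv b := by
    intro g hg
    have h1 := hβ2 ⟨g, hg⟩
    rw [Units.val_pow_eq_pow_val] at h1
    exact h1.symm
  have hDfix : divQ b ∈ fix (DivG S) F.fixingSubgroup := by
    intro g hg
    rw [← divQ_smul]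
    apply Subtype.ext
    funext q σ
    by_cases hq : q ∈ S
    · rw [divQ_apply_mem _ hq, divQ_apply_mem _ hq]
    · rw [divQ_apply _ hq, divQ_apply _ hq]
      apply ordq_eq
      have h1 := av_eq_of_QS b hq σ
      rw [← h1]
      show av q (σ (g (qv b))) = av q (σ (qv b))
      rw [hgb g hg, map_mul, av_mul, map_pow, av_pow]
      have h2 : av q (σ ζ) = 1 := by
        have h3 : av q (σ ζ) ^ p = 1 := by
          rw [← av_pow, ← map_pow, hζ.pow_eq_one, map_one, av_one]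
        exact (pow_eq_one_iff_of_nonneg (av_nonneg _ _) hp.out.ne_zero).mp h3
      rw [h2, one_pow, one_mul]
  obtain ⟨γ, hγ, hγD⟩ := hcl _ hDfix
  set b' : QS S := b - γ with hb'
  have hb'D : divQ b' = 0 := by
    have : divH S b' = divH S b - divH S γ := map_sub _ _ _
    rw [divH_apply, divH_apply, divH_apply, hγD, sub_self] at this
    exact this
  have hqb' : qv b' = qv b * (qv γ)⁻¹ := by
    rw [hb', sub_eq_add_neg, qv_add, qv_neg]
  have hgb' : ∀ g ∈ F.fixingSubgroup, g (qv b') = ζ ^ (f g).val * qv b' := by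
    intro g hg
    rw [hqb', map_mul, map_inv₀, hgb g hg, gal_fix hg (mem_fixQS.mp hγ)]; ring
  have haF : qv (p • b') ∈ F := by
    refine mem_of_fixed fun g hg => ?_
    rw [qv_nsmul, map_pow, hgb' g hg, mul_pow, ← pow_mul, mul_comm _ p, pow_mul, hζ.pow_eq_one,
      one_pow, one_mul]
  have hkp : ∀ g ∈ F.fixingSubgroup, kp p ζ g (qv (p • b')) = f g := by
    intro g hg
    exact kp_unique hζ hζF hg haF (qv_ne_zero _) (b := qv b') (qv_nsmul p b').symm (hgb' g hg)
  refine ⟨p • b', ⟨mem_fixQS.mpr haF, ?_⟩, fun g => ?_, ?_⟩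
  · have : divH S (p • b') = p • divH S b' := map_nsmul _ _ _
    rw [divH_apply, divH_apply, hb'D, smul_zero] at this
    exact this
  · rw [hfk]
    constructor
    · rintro ⟨h1, h2⟩; exact ⟨h1, (hkp g h1).trans h2⟩
    · rintro ⟨h1, h2⟩; exact ⟨h1, (hkp g h1).symm.trans h2⟩
  · rw [hkp s hc.mem, hfs]

/-- choosing Frobenius places with distinct residue characteristics -/
theorem exists_distinct {k : ℕ} (P : Fin k → FrobPl → Prop)
    (h : ∀ (i : Fin k) (T : Finset Nat.Primes), ∃ v : FrobPl, v.ell ∉ T ∧ P i v)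
    (T : Finset Nat.Primes) : ∃ v : Fin k → FrobPl, (∀ i, P i (v i)) ∧ (∀ i, (v i).ell ∉ T) ∧
      Function.Injective (fun i => (v i).ell) := by
  classical
  induction k generalizing T with
  | zero => exact ⟨Fin.elim0, fun i => i.elim0, fun i => i.elim0, fun i => i.elim0⟩
  | succ k ih =>
    obtain ⟨v0, h0, hP0⟩ := h 0 T
    obtain ⟨v, hv1, hv2, hv3⟩ := ih (fun i => P i.succ) (fun i T => h i.succ T) (insert v0.ell T)
    refine ⟨Fin.cons v0 v, fun i => ?_, fun i => ?_, ?_⟩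
    · refine Fin.cases ?_ (fun i => ?_) i
      · exact hP0
      · exact hv1 i
    · refine Fin.cases ?_ (fun i => ?_) i
      · exact h0
      · exact fun h' => hv2 i (Finset.mem_insert_of_mem h')
    · intro i j hij
      revert hij
      refine Fin.cases ?_ (fun i => ?_) i
      · refine Fin.cases (fun _ => rfl) (fun j hij => ?_) j
        exfalso
        apply hv2 j
        have : v0.ell = (v j).ell := hij
        rw [← this]; exact Finset.mem_insert_self _ _
      · refine Fin.cases (fun hij => ?_) (fun j hij => ?_) j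
        · exfalso
          apply hv2 i
          have : (v i).ell = v0.ell := hij
          rw [this]; exact Finset.mem_insert_self _ _
        · exact congrArg Fin.succ (hv3 hij)

variable {ζ : Qb} (hζ : IsPrimitiveRoot ζ p) (hζF : ζ ∈ F)

include hζ hζF in
/-- values of the Kummer pairing only depend on the action on a field containing the root -/
theorem kp_eq_of_eq {L : IntermediateField ℚ Qb} {g h : GQ} (hg : g ∈ F.fixingSubgroup)
    (hh : h ∈ F.fixingSubgroup) {a : Qb} (ha : a ∈ F) (ha0 : a ≠ 0) (hrt : rt p a ∈ L)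
    (hgh : ∀ x ∈ L, g x = h x) : kp p ζ g a = kp p ζ h a := by
  apply kp_unique hζ hζF hg ha ha0 (rt_pow p a)
  rw [hgh _ hrt, kp_spec hζ hh ha ha0]

include hζ hζF in
theorem kp_pow {g : GQ} (hg : g ∈ F.fixingSubgroup) {a : Qb} (ha : a ∈ F) (ha0 : a ≠ 0) (n : ℕ) :
    kp p ζ (g ^ n) a = n * kp p ζ g a := by
  have := char_pow (f := fun g => kp p ζ g a) (fun g hg h hh => kp_gmul hζ hζF hg hh ha ha0) hg n
  simpa [nsmul_eq_mul] using this

include hζ hζF in
/-- the choice of auxiliary primes -/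
theorem exists_places (hF : F.IsUnramifiedOutside S) {k : ℕ}
    (hcard : (mulN ↥(SU S F) p).range.index = p ^ (k + 1)) {a : QS S} (ha : a ∈ SU S F)
    (ha1 : ∃ s ∈ F.fixingSubgroup, kp p ζ s (qv a) ≠ 0) :
    ∃ v : Fin k → FrobPl, (∀ i, (v i).ell ∉ S) ∧ Function.Injective (fun i => (v i).ell) ∧
      (∀ i, (v i).tau ∈ F.fixingSubgroup) ∧ (∀ i, kp p ζ (v i).tau (qv a) = 0) ∧
      ∀ c : Fin k → ZMod p, ∃ u ∈ SU S F, ∀ i, kp p ζ (v i).tau (qv u) = c i := by
  classical
  haveI := hF.1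
  have hUF : ∀ u : ↥(SU S F), qv u.1 ∈ F := fun u => mem_fixQS.mp u.2.1
  have hqv : ∀ u w : ↥(SU S F), qv (u + w).1 = qv u.1 * qv w.1 := fun u w => rfl
  let kap : F.fixingSubgroup → (↥(SU S F) →+ ZMod p) := fun g =>
    { toFun := fun u => kp p ζ g (qv u.1)
      map_zero' := by
        have h1 := kp_mul hζ hζF g.2 (hUF 0) (qv_ne_zero _) (hUF 0) (qv_ne_zero _)
        have h2 : qv (0 : ↥(SU S F)).1 * qv (0 : ↥(SU S F)).1 = qv (0 : ↥(SU S F)).1 := by
          show (1 : Qb) * 1 = 1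
          rw [one_mul]
        rw [h2] at h1
        exact left_eq_add.mp h1
      map_add' := fun u w =>
        kp_mul hζ hζF g.2 (hUF u) (qv_ne_zero _) (hUF w) (qv_ne_zero _) }
  have hkap : ∀ g u, kap g u = kp p ζ g (qv u.1) := fun _ _ => rfl
  have hkapmul : ∀ g h, kap (g * h) = kap g + kap h := by
    intro g h
    ext u
    exact kp_gmul hζ hζF g.2 h.2 (hUF u) (qv_ne_zero _)
  have hsep : ∀ u, (∀ g, kap g u = 0) → ∃ w, u = p • w := by
    intro u hu
    have hr : rt p (qv u.1) ∈ F := mem_of_fixed fun g hg =>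
      (kp_eq_zero_iff hζ hζF hg (hUF u) (qv_ne_zero _) (rt_pow p _)).mp (hu ⟨g, hg⟩)
    have hr0 := rt_ne_zero p (qv_ne_zero u.1)
    have h1 : u.1 = p • mkU hF (rt p (qv u.1)) hr hr0 := by
      apply qv_injective
      rw [qv_nsmul, qv_mkU, rt_pow]
    refine ⟨⟨mkU hF (rt p (qv u.1)) hr hr0, mem_fixQS.mpr hr, ?_⟩, Subtype.ext h1⟩
    have h2 : p • divQ (mkU hF (rt p (qv u.1)) hr hr0) = 0 := by
      have h3 : divH S (p • mkU hF (rt p (qv u.1)) hr hr0) =
        p • divH S (mkU hF (rt p (qv u.1)) hr hr0) := map_nsmul _ _ _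
      rw [divH_apply, divH_apply, ← h1, u.2.2] at h3
      exact h3.symm
    apply Subtype.ext
    funext q σ
    have h3 : p • (divQ (mkU hF (rt p (qv u.1)) hr hr0)).1 q σ = 0 :=
      congrArg (fun z : DivG S => z.1 q σ) h2
    exact (smul_eq_zero.mp h3).resolve_left hp.out.ne_zero
  obtain ⟨s, hs, hs1⟩ := ha1
  obtain ⟨g, hg1, hg2⟩ := choose_dual kap hkapmul hsep hcard (a := ⟨a, ha⟩) (by
    rintro ⟨w, hw⟩
    apply hs1
    have h1 : kap ⟨s, hs⟩ ⟨a, ha⟩ = 0 := by
      rw [hw, map_nsmul]; simp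
    exact h1)
  -- the field `L`
  haveI hfin : Finite (↥(SU S F) ⧸ (mulN ↥(SU S F) p).range) := Nat.finite_of_card_ne_zero (by
    show (mulN ↥(SU S F) p).range.index ≠ 0
    rw [hcard]; exact pow_ne_zero _ hp.out.ne_zero)
  let R : Set Qb := Set.range (fun c : ↥(SU S F) ⧸ (mulN ↥(SU S F) p).range =>
    rt p (qv (Quotient.out c).1))
  have hRfin : R.Finite := Set.finite_range _
  let L : IntermediateField ℚ Qb := F ⊔ IntermediateField.adjoin ℚ R
  haveI : FiniteDimensional ℚ (IntermediateField.adjoin ℚ R) := by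
    haveI : Finite R := hRfin
    exact IntermediateField.finiteDimensional_adjoin (fun x _ => Algebra.IsIntegral.isIntegral x)
  haveI : FiniteDimensional ℚ L := IntermediateField.finiteDimensional_sup F _
  have hFL : F ≤ L := le_sup_left
  have hrtL : ∀ u : ↥(SU S F), rt p (qv u.1) ∈ L := by
    intro u
    let c : ↥(SU S F) ⧸ (mulN ↥(SU S F) p).range := QuotientAddGroup.mk u
    obtain ⟨w, hw⟩ : ∃ w : ↥(SU S F), u = Quotient.out c + p • w := by
      have h1 : (QuotientAddGroup.mk (Quotient.out c) : ↥(SU S F) ⧸ (mulN ↥(SU S F) p).range) =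
        QuotientAddGroup.mk u := QuotientAddGroup.out_eq' c
      rw [QuotientAddGroup.eq] at h1
      obtain ⟨w, hw⟩ := h1
      refine ⟨w, ?_⟩
      have hw' : p • w = -Quotient.out c + u := hw
      rw [hw']; abel
    have h2 : rt p (qv (Quotient.out c).1) ∈ L :=
      (le_sup_right : _ ≤ L) (IntermediateField.subset_adjoin _ _ ⟨c, rfl⟩)
    have h3 : (rt p (qv (Quotient.out c).1) * qv w.1) ^ p = qv u.1 := by
      rw [mul_pow, rt_pow]
      conv_rhs => rw [hw]
      rw [hqv]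
      congr 1
    have h4 : (rt p (qv u.1) / (rt p (qv (Quotient.out c).1) * qv w.1)) ^ p = 1 := by
      rw [div_pow, h3, rt_pow, div_self (qv_ne_zero _)]
    haveI : NeZero p := ⟨hp.out.ne_zero⟩
    obtain ⟨i, -, hi⟩ := hζ.eq_pow_of_pow_eq_one h4
    have h5 : rt p (qv u.1) = ζ ^ i * (rt p (qv (Quotient.out c).1) * qv w.1) := by
      rw [hi, div_mul_cancel₀ _ (mul_ne_zero (rt_ne_zero p (qv_ne_zero _)) (qv_ne_zero _))]
    rw [h5]
    exact L.mul_mem (pow_mem (hFL hζF) i) (L.mul_mem h2 (hFL (hUF w)))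
  -- the places
  obtain ⟨v, hv1, hv2, hv3⟩ := exists_distinct (k := k)
    (fun i v => ∃ n m : ℕ, (∀ x ∈ L, (v.tau ^ n) x = (g i : GQ) x) ∧
      (∀ x ∈ L, ((g i : GQ) ^ m) x = v.tau x))
    (fun i T => exists_frobPl L T (g i)) S
  have hτ : ∀ i, (v i).tau ∈ F.fixingSubgroup := by
    intro i
    obtain ⟨n, m, h1, h2⟩ := hv1 i
    rw [IntermediateField.mem_fixingSubgroup_iff]
    intro x hx
    rw [← h2 x (hFL hx)]
    exact gal_fix (F.fixingSubgroup.pow_mem (g i).2 m) hx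
  have hrel : ∀ i, ∃ n m : ZMod p, n * m = 1 ∧
      ∀ u : ↥(SU S F), kp p ζ (v i).tau (qv u.1) = m * kap (g i) u := by
    intro i
    obtain ⟨n, m, h1, h2⟩ := hv1 i
    have e1 : ∀ u : ↥(SU S F), kp p ζ (v i).tau (qv u.1) = m * kap (g i) u := by
      intro u
      rw [hkap, ← kp_pow hζ hζF (g i).2 (hUF u) (qv_ne_zero _)]
      exact (kp_eq_of_eq hζ hζF (F.fixingSubgroup.pow_mem (g i).2 m) (hτ i) (hUF u) (qv_ne_zero _)
        (hrtL u) h2).symm
    have e2 : ∀ u : ↥(SU S F), kap (g i) u = n * kp p ζ (v i).tau (qv u.1) := by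
      intro u
      rw [hkap, ← kp_pow hζ hζF (hτ i) (hUF u) (qv_ne_zero _)]
      exact (kp_eq_of_eq hζ hζF (F.fixingSubgroup.pow_mem (hτ i) n) (g i).2 (hUF u) (qv_ne_zero _)
        (hrtL u) h1).symm
    refine ⟨n, m, ?_, e1⟩
    obtain ⟨u, hu⟩ := hg2 (fun _ => 1)
    have h3 := e2 u
    rw [e1 u, hu i, mul_one] at h3
    exact h3.symm
  refine ⟨v, hv2, hv3, hτ, fun i => ?_, fun c => ?_⟩
  · obtain ⟨n, m, -, h1⟩ := hrel i
    have := h1 ⟨a, ha⟩
    rw [hg1 i, mul_zero] at this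
    exact this
  · choose n m hnm h1 using hrel
    obtain ⟨u, hu⟩ := hg2 (fun i => n i * c i)
    refine ⟨u.1, u.2, fun i => ?_⟩
    rw [h1 i u, hu i, ← mul_assoc, mul_comm (m i), hnm, one_mul]

end

end Fermat.Agent.CFTSec
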