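import Fermat.Agent.CFTSec.ChangeS

set_option autoImplicit false
set_option maxHeartbeats 400000

/-! The key lemma. -/

namespace Fermat.Agent.CFTSec

open Fermat.Agent.CFT Fermat.Agent.CFTLocal Finset
open scoped Pointwise

noncomputable section

variable {S T : Finset Nat.Primes} {F F' : IntermediateField ℚ Qb}

theorem inclQ_mem (h : S ⊆ T) {x : QS S} (hx : x ∈ fix (QS S) F.fixingSubgroup) :
    inclQ h x ∈ fix (QS T) F.fixingSubgroup := by
  rw [mem_fixQS] at hx ⊢
  exact hx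

theorem projJ_sum (p : ℕ) (s : GQ) (f : Jm T) (q : T) :
    (∑ i ∈ range p, s ^ i • f).1.1 q = ∑ i ∈ range p, s ^ i • f.1.1 q := by
  let π : Jm T →+ JQ q.1 :=
    { toFun := fun f => f.1.1 q
      map_zero' := rfl
      map_add' := fun _ _ => rfl }
  exact map_sum π _ _

theorem projD_sum (p : ℕ) (s : GQ) (f : Jm T) :
    (∑ i ∈ range p, s ^ i • f).1.2 = ∑ i ∈ range p, s ^ i • f.1.2 := by
  let π : Jm T →+ DivG T :=
    { toFun := fun f => f.1.2
      map_zero' := rfl
      map_add' := fun _ _ => rfl }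
  exact map_sum π _ _

/-- ideles which are norms place by place -/
theorem mem_nrm_of_comp (hF' : F'.IsUnramifiedOutside T) {p : ℕ} {s : GQ} {x : Jm T}
    (h1 : x.1.2 = 0)
    (h2 : ∀ q : T, x.1.1 q ∈ (nrmGrp p s F'.fixingSubgroup : AddSubgroup (JQ q.1))) :
    x ∈ (nrmGrp p s F'.fixingSubgroup : AddSubgroup (Jm T)) := by
  choose f hf hfx using h2
  have hx : ((f, 0) : IdT T) ∈ fix (IdT T) F'.fixingSubgroup := fun n hn =>
    Prod.ext (funext fun q => hf q n hn) (smul_zero n)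
  refine ⟨⟨(f, 0), F', hF', hx⟩, fun n hn => Subtype.ext (hx n hn), ?_⟩
  apply Subtype.ext
  refine Prod.ext (funext fun q => ?_) ?_
  · exact (hfx q).trans (projJ_sum p s ⟨(f, 0), F', hF', hx⟩ q).symm
  · refine h1.trans (Eq.trans ?_ (projD_sum p s ⟨(f, 0), F', hF', hx⟩).symm)
    symm
    exact Finset.sum_eq_zero fun i _ => smul_zero _

theorem toC_mem_nrm {p : ℕ} {s : GQ} {x : Jm T}
    (h : x ∈ (nrmGrp p s F'.fixingSubgroup : AddSubgroup (Jm T))) :
    toC T x ∈ (nrmGrp p s F'.fixingSubgroup : AddSubgroup (Cm T)) := by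
  obtain ⟨y, hy, rfl⟩ := h
  refine ⟨toC T y, fun n hn => by rw [← toC_smul, hy n hn], ?_⟩
  rw [map_sum]
  exact sum_congr rfl fun i _ => toC_smul _ _

variable {p : ℕ} [hp : Fact p.Prime] {ζ : Qb} (hζ : IsPrimitiveRoot ζ p) (hζF : ζ ∈ F)

theorem stab_conj {q : Nat.Primes} {H : Subgroup GQ} {σ : GQ} {t : LG q} {h : GQ} (hh : h ∈ H)
    {d : LG q} : d ∈ stab (localGaloisToGlobal q) H (localGaloisToGlobal q t * σ * h) ↔
      t⁻¹ * d * t ∈ stab (localGaloisToGlobal q) H σ := by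
  rw [mem_stab, mem_stab]
  have e : (localGaloisToGlobal q t * σ * h)⁻¹ * localGaloisToGlobal q d *
      (localGaloisToGlobal q t * σ * h) =
      h⁻¹ * (σ⁻¹ * localGaloisToGlobal q (t⁻¹ * d * t) * σ) * h := by
    rw [map_mul, map_mul, map_inv]; group
  rw [e]
  constructor
  · intro h1
    have := H.mul_mem (H.mul_mem hh h1) (H.inv_mem hh)
    convert this using 1
    group
  · intro h1
    exact H.mul_mem (H.mul_mem (H.inv_mem hh) h1) hh

include hζ hζF in
/-- `p`-th powers are norms -/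
theorem norm_pow_case {q : Nat.Primes} {b : Qb} (hb : b ∈ F) (hb0 : b ≠ 0)
    {s : GQ} (hs : s ∈ F.fixingSubgroup) (hs1 : kp p ζ s b = 1) {σ : GQ} {x : LM q} {y : LM q}
    (hy : y ∈ fix (LM q) (stab (localGaloisToGlobal q) F.fixingSubgroup σ)) (hx : x = p • y) :
    stab (localGaloisToGlobal q) F.fixingSubgroup σ ≤
      stab (localGaloisToGlobal q) (KF p F b).fixingSubgroup σ ∨
    ∃ t : LG q, s⁻¹ * (σ⁻¹ * localGaloisToGlobal q t * σ) ∈ (KF p F b).fixingSubgroup ∧
      ∃ y ∈ fix (LM q) (stab (localGaloisToGlobal q) (KF p F b).fixingSubgroup σ),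
        x = ∑ i ∈ range p, t ^ i • y := by
  rw [or_iff_not_imp_left]
  intro hns
  rw [SetLike.not_le_iff_exists] at hns
  obtain ⟨t0, ht0, ht0'⟩ := hns
  have hchar : ∀ g ∈ F.fixingSubgroup, ∀ h ∈ F.fixingSubgroup,
      kp p ζ (g * h) b = kp p ζ g b + kp p ζ h b := fun g hg h hh =>
    kp_gmul hζ hζF hg hh hb hb0
  have hcyc : CycP p (KF p F b).fixingSubgroup F.fixingSubgroup s :=
    CycP.of_char hchar (fun g => mem_fixing_KF hζ hζF hb hb0) hs hs1
  obtain ⟨j, hj⟩ := hcyc.exists_pow ht0 ht0'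
  have htg : (σ⁻¹ * localGaloisToGlobal q t0 * σ) ^ j =
      σ⁻¹ * localGaloisToGlobal q (t0 ^ j) * σ := by
    rw [map_pow]
    have := conj_pow (a := σ⁻¹) (b := localGaloisToGlobal q t0) (i := j)
    rw [inv_inv] at this
    exact this
  rw [htg] at hj
  refine ⟨t0 ^ j, hj, y, fix_mono (stab_mono _ hcyc.le σ) hy, ?_⟩
  have h1 : ∀ i ∈ range p, (t0 ^ j) ^ i • y = y := fun i _ =>
    hy _ (Subgroup.pow_mem _ (Subgroup.pow_mem _ ht0 j) i)
  rw [sum_congr rfl h1, sum_const, card_range, hx]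

include hζ hζF in
theorem key_lemma (hp2 : 2 < p) (hF : F.IsUnramifiedOutside S)
    (hpS : (⟨p, hp.out⟩ : Nat.Primes) ∈ S)
    (hcl : ∀ D ∈ fix (DivG S) F.fixingSubgroup, ∃ x ∈ fix (QS S) F.fixingSubgroup, divQ x = D)
    {k : ℕ} (v : Fin k → FrobPl) (hvS : ∀ i, (v i).ell ∉ S)
    (hvinj : Function.Injective (fun i => (v i).ell)) (hτ : ∀ i, (v i).tau ∈ F.fixingSubgroup)
    (hsurj : ∀ c : Fin k → ZMod p, ∃ u ∈ SU S F, ∀ i, kp p ζ (v i).tau (qv u) = c i)
    {b : QS S} (hb : b ∈ fix (QS S) F.fixingSubgroup)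
    (hloc : ∀ q : S, ∃ y ∈ fix (JQ q.1) F.fixingSubgroup, embQ q.1 b.1 = p • y)
    (hdiv : ∀ q ∉ S, ∀ σ, (∀ i, ¬ (q = (v i).ell ∧ ∃ (t : LG q) (h : GQ), h ∈ F.fixingSubgroup ∧
      σ = localGaloisToGlobal q t * (v i).sig * h)) → (p : ℤ) ∣ (divQ b).1 q σ) :
    ∃ x ∈ fix (QS S) F.fixingSubgroup, b = p • x := by
  classical
  haveI := hF.1
  have hS : S.Nonempty := ⟨_, hpS⟩
  have hbF : qv b ∈ F := mem_fixQS.mp hb
  have hb0 : qv b ≠ 0 := qv_ne_zero b
  by_contra hcon
  -- a nontrivial value of the character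
  obtain ⟨g0, hg0, hg1⟩ : ∃ g ∈ F.fixingSubgroup, kp p ζ g (qv b) ≠ 0 := by
    by_contra hall
    push Not at hall
    apply hcon
    have hr : rt p (qv b) ∈ F := mem_of_fixed fun g hg =>
      (kp_eq_zero_iff hζ hζF hg hbF hb0 (rt_pow p _)).mp (hall g hg)
    refine ⟨mkU hF (rt p (qv b)) hr (rt_ne_zero p hb0), mem_fixQS.mpr hr, ?_⟩
    apply qv_injective
    rw [qv_nsmul, qv_mkU, rt_pow]
  have hchar : ∀ g ∈ F.fixingSubgroup, ∀ h ∈ F.fixingSubgroup,
      kp p ζ (g * h) (qv b) = kp p ζ g (qv b) + kp p ζ h (qv b) := fun g hg h hh =>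
    kp_gmul hζ hζF hg hh hbF hb0
  obtain ⟨s, hs, hs1⟩ := exists_char_one (f := fun g => kp p ζ g (qv b)) hchar hg0 hg1
  have hker : ∀ g, g ∈ (KF p F (qv b)).fixingSubgroup ↔ g ∈ F.fixingSubgroup ∧
    kp p ζ g (qv b) = 0 := fun g => mem_fixing_KF hζ hζF hbF hb0
  have hcyc : CycP p (KF p F (qv b)).fixingSubgroup F.fixingSubgroup s :=
    CycP.of_char hchar hker hs hs1
  have hrel := relIndex_of_char hchar hker hs hs1
  have hsn : s ∉ (KF p F (qv b)).fixingSubgroup := by
    rw [hker]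
    rintro ⟨-, h⟩
    exact one_ne_zero (hs1.symm.trans h)
  -- the larger set
  let T : Finset Nat.Primes := S ∪ Finset.univ.image (fun i => (v i).ell)
  have hST : S ⊆ T := Finset.subset_union_left
  have hvT : ∀ i, (v i).ell ∈ T := fun i =>
    Finset.mem_union_right _ (Finset.mem_image.mpr ⟨i, Finset.mem_univ _, rfl⟩)
  have hTmem : ∀ q ∈ T, q ∈ S ∨ ∃ i, q = (v i).ell := by
    intro q hq
    rcases Finset.mem_union.mp hq with h | h
    · exact Or.inl h
    · obtain ⟨i, -, hi⟩ := Finset.mem_image.mp h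
      exact Or.inr ⟨i, hi.symm⟩
  have hT : T.Nonempty := hS.mono hST
  have hKF : (KF p F (qv b)).IsUnramifiedOutside T := by
    refine KF_unram hζ hζF hF hpS hST hbF (fun q hq σ => hdiv q (fun h => hq (hST h)) σ ?_)
    rintro i ⟨rfl, -⟩
    exact hq (hvT i)
  obtain ⟨-, t, ht0, ht, -⟩ := first_ineq (hF.mono hST) hKF (le_KF _) hp2 (hST hpS) hζ hζF
    hcyc.norm hrel hs hsn
  -- everything is a norm
  have hall : fix (Cm T) F.fixingSubgroup ≤
      (nrmGrp p s (KF p F (qv b)).fixingSubgroup : AddSubgroup (Cm T)) := by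
    intro c hc
    obtain ⟨x, hx, rfl⟩ := exists_fix_lift hT (hF.mono hST) hc
    -- Step 1
    have hDfix : resDiv S x ∈ fix (DivG S) F.fixingSubgroup := by
      intro n hn
      apply Subtype.ext
      funext q σ
      exact resD_fix hx q σ hn
    obtain ⟨β, hβ, hβD⟩ := hcl _ hDfix
    have hβT : inclQ hST β ∈ fix (QS T) F.fixingSubgroup := inclQ_mem hST hβ
    set x1 : Jm T := x - diag T (inclQ hST β) with hx1
    have hx1fix : x1 ∈ fix (Jm T) F.fixingSubgroup :=
      (fix _ _).sub_mem hx (diag_mem_fix hβT)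
    have hx1D : x1.1.2 = 0 := by
      apply Subtype.ext
      funext q σ
      show x.1.2.1 q σ - (divQ (inclQ hST β)).1 q σ = 0
      by_cases hq : q ∈ T
      · rw [divQ_apply_mem _ hq, x.1.2.2.2.2 q hq]; simp
      · rw [divQ_inclQ hST β hq, hβD]
        show x.1.2.1 q σ - resD S x q σ = 0
        rw [resD_out _ (fun h => hq (hST h)) hq, sub_self]
    have hx1u : ∀ (i : Fin k) (σ : GQ), (x1.1.1 ⟨(v i).ell, hvT i⟩).1 σ ∈ LU (v i).ell := by
      intro i σ
      have h1 := exists_nmL hF (hvS i) (fix_comp hx ⟨(v i).ell, hvT i⟩) σ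
      have h2 : nmL ((embQ (v i).ell β.1).1 σ) =
          (((v i).ell : ℕ) : ℝ) ^ (-((divQ β).1 (v i).ell σ)) := by
        rw [divQ_apply _ (hvS i)]
        exact av_eq_of_QS β (hvS i) σ
      rw [hβD] at h2
      have h3 : (resDiv S x).1 (v i).ell σ = ordZ (v i).ell ((x.1.1 ⟨(v i).ell, hvT i⟩).1 σ) :=
        resD_T x (hvS i) (hvT i) σ
      rw [h3, ← h1] at h2
      rw [mem_LU_iff]
      have h4 : (x1.1.1 ⟨(v i).ell, hvT i⟩).1 σ + (embQ (v i).ell β.1).1 σ =
          (x.1.1 ⟨(v i).ell, hvT i⟩).1 σ := by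
        show ((x.1.1 ⟨(v i).ell, hvT i⟩).1 σ - (embQ (v i).ell β.1).1 σ) + _ = _
        abel
      have h5 := congrArg nmL h4
      rw [nmL_add, h2] at h5
      exact mul_right_cancel₀ (nmL_pos _).ne' (h5.trans (one_mul _).symm)
    -- Step 2
    have hcoef := fun i => frob_approx hζ hζF (v i) (hvS i) (hτ i) hpS
      (coind_apply_mem_fix (localGaloisToGlobal (v i).ell)
        (fix_comp hx1fix ⟨(v i).ell, hvT i⟩) (v i).sig) (hx1u i (v i).sig)
    choose c hc' using hcoef
    obtain ⟨u, hu, huc⟩ := hsurj c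
    have hy := fun i => hc' i u hu (huc i)
    choose y hyfix hxy using hy
    have huT : inclQ hST u ∈ fix (QS T) F.fixingSubgroup := inclQ_mem hST hu.1
    set x2 : Jm T := x1 - diag T (inclQ hST u) with hx2
    have hx2fix : x2 ∈ fix (Jm T) F.fixingSubgroup :=
      (fix _ _).sub_mem hx1fix (diag_mem_fix huT)
    have hx2D : x2.1.2 = 0 := by
      apply Subtype.ext
      funext q σ
      show x1.1.2.1 q σ - (divQ (inclQ hST u)).1 q σ = 0
      rw [hx1D]
      by_cases hq : q ∈ T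
      · rw [divQ_apply_mem _ hq]; simp
      · rw [divQ_inclQ hST u hq, hu.2]; simp
    have hx2u : ∀ (i : Fin k) (σ : GQ), (x2.1.1 ⟨(v i).ell, hvT i⟩).1 σ ∈ LU (v i).ell := by
      intro i σ
      have h2 : (embQ (v i).ell u.1).1 σ ∈ LU (v i).ell := by
        rw [mem_LU_iff]
        exact av_eq_one_of_SU hu.2 (hvS i) σ
      exact (LU _).sub_mem (hx1u i σ) h2
    have hx2p : ∀ i : Fin k, (x2.1.1 ⟨(v i).ell, hvT i⟩).1 (v i).sig = p • y i := by
      intro i
      show (x1.1.1 ⟨(v i).ell, hvT i⟩).1 (v i).sig - (embQ (v i).ell u.1).1 (v i).sig = _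
      rw [hxy i]; abel
    -- Step 3
    have hx2n : x2 ∈ (nrmGrp p s (KF p F (qv b)).fixingSubgroup : AddSubgroup (Jm T)) := by
      refine mem_nrm_of_comp hKF hx2D (fun q => ?_)
      refine mem_nrmGrp_coind _ hp.out.pos hcyc (fix_comp hx2fix q) (fun σ => ?_)
      obtain ⟨q, hqT⟩ := q
      rcases hTmem q hqT with hqS | ⟨i, rfl⟩
      · -- split places
        left
        obtain ⟨z, hz, hzb⟩ := hloc ⟨q, hqS⟩
        refine split_of_pow hζ hζF hbF hb0 (y := el (z.1 σ)) (fun t ht => ?_) ?_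
        · exact congrArg el (coind_apply_mem_fix (localGaloisToGlobal q) hz σ t ht)
        · have h1 := congrArg (fun w : JQ q => el (w.1 σ)) hzb
          have h2 : el ((p • z : JQ q).1 σ) = el (z.1 σ) ^ p := by
            rw [← el_nsmul]; rfl
          exact h2.symm.trans h1.symm
      · by_cases hσ : ∃ (t : LG (v i).ell) (h : GQ), h ∈ F.fixingSubgroup ∧
          σ = localGaloisToGlobal (v i).ell t * (v i).sig * h
        · obtain ⟨t, h, hh, rfl⟩ := hσ
          refine norm_pow_case hζ hζF hbF hb0 hs hs1 (y := t • y i) ?_ ?_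
          · intro d hd
            rw [stab_conj hh] at hd
            have := hyfix i _ hd
            calc d • t • y i = t • (t⁻¹ * d * t) • y i := by
                  rw [smul_smul, smul_smul]; congr 1; group
              _ = t • y i := by rw [this]
          · have h1 := coind_apply_mul (localGaloisToGlobal (v i).ell)
              (fix_comp hx2fix ⟨(v i).ell, hvT i⟩) (localGaloisToGlobal (v i).ell t * (v i).sig) hh
            have h2 : (x2.1.1 ⟨(v i).ell, hvT i⟩).1 (localGaloisToGlobal (v i).ell t * (v i).sig) =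
              t • (x2.1.1 ⟨(v i).ell, hvT i⟩).1 (v i).sig :=
              (x2.1.1 ⟨(v i).ell, hvT i⟩).2 t (v i).sig
            rw [h1, h2, hx2p, smul_comm]
        · have hd := hdiv (v i).ell (hvS i) σ (by
            rintro j ⟨hj, hj2⟩
            have : i = j := hvinj hj
            subst this
            exact hσ hj2)
          obtain ⟨m, hm⟩ := av_of_dvd (hvS i) hd
          have hpq : p ≠ ((v i).ell : ℕ) := by
            intro h
            exact hvS i (by
              have : (v i).ell = ⟨p, hp.out⟩ := Subtype.ext h.symm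
              rw [this]; exact hpS)
          exact norm_unit hζ hζF hpq hbF hb0 hs hs1 hm
            (coind_apply_mem_fix (localGaloisToGlobal (v i).ell)
              (fix_comp hx2fix ⟨(v i).ell, hvT i⟩) σ) (hx2u i σ)
    have h6 := toC_mem_nrm hx2n
    have h7 : toC T x2 = toC T x := by
      rw [hx2, hx1, map_sub, map_sub, toC_diag, toC_diag, sub_zero, sub_zero]
    rwa [h7] at h6
  rw [AddSubgroup.relIndex_eq_one.mpr hall] at ht
  have := Nat.eq_one_of_mul_eq_one_right ht.symm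
  exact hp.out.one_lt.ne' this

end

end Fermat.Agent.CFTSec
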