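import Fermat.Agent.CFT.Shapiro

set_option autoImplicit false
set_option maxHeartbeats 400000

/-! Norms in coinduced modules, place by place. -/

namespace Fermat.Agent.CFTSec

open Fermat.Agent.CFT Finset

/-- `H/H'` is cyclic of order `p` generated by `s` -/
structure CycP (p : ℕ) {G : Type*} [Group G] (H' H : Subgroup G) (s : G) : Prop where
  le : H' ≤ H
  mem : s ∈ H
  norm : ∀ g ∈ H, ∀ k ∈ H', g * k * g⁻¹ ∈ H'
  gen : ∀ g ∈ H, ∃ i : ℕ, i < p ∧ ∃ k ∈ H', g = s ^ i * k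
  ord : ∀ i : ℕ, s ^ i ∈ H' ↔ p ∣ i

namespace CycP

variable {p : ℕ} {G : Type*} [Group G] {H' H : Subgroup G} {s : G}

theorem of_relIndex [hp : Fact p.Prime] (hle : H' ≤ H) (hs : s ∈ H) (hs' : s ∉ H')
    (hnorm : ∀ g ∈ H, ∀ k ∈ H', g * k * g⁻¹ ∈ H') (hi : H'.relIndex H = p) : CycP p H' H s := by
  have : (H'.subgroupOf H).Normal := ⟨fun n hn g => hnorm g g.2 n hn⟩
  obtain ⟨h1, h2, h3⟩ := pow_of_index (p := p) (H'.subgroupOf H) hi (s := ⟨s, hs⟩) (by
    rw [Subgroup.mem_subgroupOf]; exact hs')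
  have hsp : s ^ p ∈ H' := h1
  have hord : ∀ i : ℕ, s ^ i ∈ H' ↔ p ∣ i := by
    intro i
    refine ⟨fun h => h3 i h, ?_⟩
    rintro ⟨c, rfl⟩
    rw [pow_mul]; exact H'.pow_mem hsp c
  refine ⟨hle, hs, hnorm, fun g hg => ?_, hord⟩
  obtain ⟨i, k, hk, hgk⟩ := h2 ⟨g, hg⟩
  have hgk' : g = s ^ i * (k : G) := congrArg Subtype.val hgk
  refine ⟨i % p, Nat.mod_lt _ hp.out.pos, s ^ (p * (i / p)) * k, ?_, ?_⟩
  · exact H'.mul_mem ((hord _).mpr (dvd_mul_right _ _)) hk
  · rw [← mul_assoc, ← pow_add, Nat.mod_add_div]; exact hgk'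

theorem conj_mem' (h : CycP p H' H s) {g k : G} (hg : g ∈ H) (hk : k ∈ H') : g⁻¹ * k * g ∈ H' := by
  have := h.norm g⁻¹ (H.inv_mem hg) k hk
  rwa [inv_inv] at this

/-- `(s k)^i ∈ s^i H'` -/
theorem pow_mem_coset (h : CycP p H' H s) {t : G} (ht : s⁻¹ * t ∈ H') (i : ℕ) :
    (s ^ i)⁻¹ * t ^ i ∈ H' := by
  induction i with
  | zero => simp
  | succ i ih =>
    have htH : t ∈ H := by
      have := H.mul_mem h.mem (h.le ht)
      simpa using this
    have e : (s ^ (i + 1))⁻¹ * t ^ (i + 1) =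
        (s⁻¹ * t) * (t⁻¹ * ((s ^ i)⁻¹ * t ^ i) * t) := by
      rw [pow_succ, pow_succ]; group
    rw [e]
    exact H'.mul_mem ht (h.conj_mem' htH ih)

theorem exists_pow [hp : Fact p.Prime] (h : CycP p H' H s) {t : G} (htH : t ∈ H) (ht : t ∉ H') :
    ∃ j : ℕ, s⁻¹ * t ^ j ∈ H' := by
  obtain ⟨i, hi, k, hk, rfl⟩ := h.gen t htH
  have hpi : ¬ p ∣ i := by
    intro hd
    exact ht (H'.mul_mem ((h.ord i).mpr hd) hk)
  have hcop : Nat.Coprime i p := ((Nat.Prime.coprime_iff_not_dvd hp.out).mpr hpi).symm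
  obtain ⟨j, -, hj⟩ := Nat.exists_mul_mod_eq_one_of_coprime hcop hp.out.one_lt
  -- `(s^i k)^j ∈ s^{ij} H'`
  have key : ∀ m : ℕ, (s ^ (i * m))⁻¹ * (s ^ i * k) ^ m ∈ H' := by
    intro m
    induction m with
    | zero => simp
    | succ m ih =>
      have e : (s ^ (i * (m + 1)))⁻¹ * (s ^ i * k) ^ (m + 1) =
          ((s ^ i)⁻¹ * ((s ^ (i * m))⁻¹ * (s ^ i * k) ^ m) * s ^ i) * k := by
        rw [pow_succ, mul_add, mul_one, pow_add]; group
      rw [e]
      exact H'.mul_mem (h.conj_mem' (H.pow_mem h.mem i) ih) hk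
  refine ⟨j, ?_⟩
  have h1 := key j
  have h2 : s⁻¹ * s ^ (i * j) ∈ H' := by
    have h3 : i * j = 1 + p * (i * j / p) := by
      conv_lhs => rw [← Nat.mod_add_div (i * j) p, hj]
    rw [h3, pow_add, pow_one, inv_mul_cancel_left]
    exact (h.ord _).mpr (dvd_mul_right _ _)
  have e : s⁻¹ * (s ^ i * k) ^ j = (s⁻¹ * s ^ (i * j)) * ((s ^ (i * j))⁻¹ * (s ^ i * k) ^ j) := by
    group
  rw [e]
  exact H'.mul_mem h2 h1

end CycP

section stab

variable {D G : Type*} [Group D] [Group G] (ι : D →* G)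

/-- local stabilizer -/
def stab (H : Subgroup G) (σ : G) : Subgroup D where
  carrier := {d | σ⁻¹ * ι d * σ ∈ H}
  one_mem' := by
    show σ⁻¹ * ι 1 * σ ∈ H
    rw [map_one, mul_one, inv_mul_cancel]; exact H.one_mem
  mul_mem' := by
    intro a b ha hb
    have e : σ⁻¹ * ι (a * b) * σ = (σ⁻¹ * ι a * σ) * (σ⁻¹ * ι b * σ) := by
      rw [map_mul]; group
    show _ ∈ H
    rw [e]; exact H.mul_mem ha hb
  inv_mem' := by
    intro a ha
    have e : σ⁻¹ * ι a⁻¹ * σ = (σ⁻¹ * ι a * σ)⁻¹ := by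
      rw [map_inv]; group
    show _ ∈ H
    rw [e]; exact H.inv_mem ha

theorem mem_stab {H : Subgroup G} {σ : G} {d : D} : d ∈ stab ι H σ ↔ σ⁻¹ * ι d * σ ∈ H := Iff.rfl

theorem stab_mono {H H' : Subgroup G} (h : H' ≤ H) (σ : G) : stab ι H' σ ≤ stab ι H σ :=
  fun _ hd => h hd

variable {A : Type*} [AddCommGroup A] [DistribMulAction D A]

theorem coind_apply_mem_fix {H : Subgroup G} {x : CoInd ι A} (hx : x ∈ fix (CoInd ι A) H) (σ : G) :
    x.1 σ ∈ fix A (stab ι H σ) := by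
  intro d hd
  have h1 := x.2 d σ
  rw [← h1]
  have h2 : ι d * σ = σ * (σ⁻¹ * ι d * σ) := by group
  rw [h2]
  have h3 := hx _ hd
  exact congrArg (fun f : CoInd ι A => f.1 σ) h3

theorem coind_apply_mul {H : Subgroup G} {x : CoInd ι A} (hx : x ∈ fix (CoInd ι A) H) (σ : G)
    {h : G} (hh : h ∈ H) : x.1 (σ * h) = x.1 σ :=
  congrArg (fun f : CoInd ι A => f.1 σ) (hx _ hh)

/-- the local criterion for norms in coinduced modules -/
theorem mem_nrmGrp_coind {p : ℕ} (hp0 : 0 < p) {H' H : Subgroup G} {s : G} (hc : CycP p H' H s)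
    {x : CoInd ι A} (hx : x ∈ fix (CoInd ι A) H)
    (hloc : ∀ σ : G, stab ι H σ ≤ stab ι H' σ ∨
      ∃ t : D, s⁻¹ * (σ⁻¹ * ι t * σ) ∈ H' ∧ ∃ y ∈ fix A (stab ι H' σ),
        x.1 σ = ∑ i ∈ range p, t ^ i • y) :
    x ∈ (nrmGrp p s H' : AddSubgroup (CoInd ι A)) := by
  classical
  -- representatives of double cosets
  let dc : G → G → Prop := fun g g' => ∃ d : D, ∃ h ∈ H, g' = ι d * g * h
  have dc_refl : ∀ g, dc g g := fun g => ⟨1, 1, H.one_mem, by simp⟩
  have dc_symm : ∀ {g g'}, dc g g' → dc g' g := by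
    rintro g _ ⟨d, h, hh, rfl⟩
    exact ⟨d⁻¹, h⁻¹, H.inv_mem hh, by rw [map_inv]; group⟩
  have dc_trans : ∀ {g g' g''}, dc g g' → dc g' g'' → dc g g'' := by
    rintro g _ _ ⟨d, h, hh, rfl⟩ ⟨d', h', hh', rfl⟩
    exact ⟨d' * d, h * h', H.mul_mem hh hh', by rw [map_mul]; group⟩
  let st : Setoid G := ⟨dc, dc_refl, dc_symm, dc_trans⟩
  let r : G → G := fun g => (Quotient.mk st g).out
  have hr : ∀ g, dc (r g) g := fun g => Quotient.exact (s := st) (Quotient.out_eq (Quotient.mk st g))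
  have hr2 : ∀ {g g'}, dc g g' → r g = r g' := fun {g g'} h =>
    congrArg Quotient.out (Quotient.sound (s := st) h)
  -- the local elements
  have hy : ∀ σ : G, ∃ y ∈ fix A (stab ι H' σ), (stab ι H σ ≤ stab ι H' σ ∧ y = x.1 σ) ∨
      ∃ t : D, s⁻¹ * (σ⁻¹ * ι t * σ) ∈ H' ∧ x.1 σ = ∑ i ∈ range p, t ^ i • y := by
    intro σ
    rcases hloc σ with h | ⟨t, ht, y, hy, hxy⟩
    · exact ⟨x.1 σ, fix_mono (stab_mono ι hc.le σ) (coind_apply_mem_fix ι hx σ), Or.inl ⟨h, rfl⟩⟩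
    · exact ⟨y, hy, Or.inr ⟨t, ht, hxy⟩⟩
  choose y hyfix hy using hy
  -- the function
  let P : G → D → Prop := fun g d => ∃ h ∈ H', g = ι d * r g * h
  have hwd : ∀ g d d', P g d → P g d' → d • y (r g) = d' • y (r g) := by
    rintro g d d' ⟨h, hh, e⟩ ⟨h', hh', e'⟩
    have h1 : d'⁻¹ * d ∈ stab ι H' (r g) := by
      rw [mem_stab]
      have e2 : (r g)⁻¹ * ι (d'⁻¹ * d) * r g = h' * h⁻¹ := by
        have e3 : ι d' * r g * h' = ι d * r g * h := e'.symm.trans e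
        have e4 : r g * h' = (ι d')⁻¹ * (ι d * r g * h) := by rw [← e3]; group
        rw [map_mul, map_inv]
        have e5 : h' = (r g)⁻¹ * ((ι d')⁻¹ * (ι d * r g * h)) := by rw [← e4]; group
        rw [e5]; group
      rw [e2]; exact H'.mul_mem hh' (H'.inv_mem hh)
    have h2 := hyfix (r g) _ h1
    calc d • y (r g) = d' • (d'⁻¹ * d) • y (r g) := by rw [smul_smul]; congr 1; group
      _ = d' • y (r g) := by rw [h2]
  let f : G → A := fun g => if h : ∃ d, P g d then h.choose • y (r g) else 0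
  have hf1 : ∀ g d, P g d → f g = d • y (r g) := by
    intro g d hd
    have h : ∃ d, P g d := ⟨d, hd⟩
    simp only [f, dif_pos h]
    exact hwd g _ _ h.choose_spec hd
  have hf0 : ∀ g, (¬ ∃ d, P g d) → f g = 0 := fun g h => dif_neg h
  have hrι : ∀ d g, r (ι d * g) = r g := fun d g => (hr2 ⟨d, 1, H.one_mem, by group⟩).symm
  have hrH : ∀ g, ∀ h ∈ H, r (g * h) = r g := fun g h hh => (hr2 ⟨1, h, hh, by simp⟩).symm
  have hfι : ∀ d g, f (ι d * g) = d • f g := by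
    intro d g
    by_cases h : ∃ d', P g d'
    · obtain ⟨d', h1, hh1, e1⟩ := h
      have hP : P g d' := ⟨h1, hh1, e1⟩
      have hP2 : P (ι d * g) (d * d') := ⟨h1, hh1, by
        rw [hrι, map_mul]
        conv_lhs => rw [e1]
        group⟩
      rw [hf1 _ _ hP, hf1 _ _ hP2, hrι, mul_smul]
    · have h' : ¬ ∃ d', P (ι d * g) d' := by
        rintro ⟨d', h1, hh1, e1⟩
        apply h
        refine ⟨d⁻¹ * d', h1, hh1, ?_⟩
        rw [hrι] at e1
        rw [map_mul, map_inv]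
        have : g = (ι d)⁻¹ * (ι d * g) := by group
        conv_lhs => rw [this, e1]
        group
      rw [hf0 _ h, hf0 _ h', smul_zero]
  have hfH' : ∀ g, ∀ k ∈ H', f (g * k) = f g := by
    intro g k hk
    have hrk := hrH g k (hc.le hk)
    by_cases h : ∃ d', P g d'
    · obtain ⟨d', h1, hh1, e1⟩ := h
      have hP : P g d' := ⟨h1, hh1, e1⟩
      have hP2 : P (g * k) d' := ⟨h1 * k, H'.mul_mem hh1 hk, by
        rw [hrk]
        conv_lhs => rw [e1]
        group⟩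
      rw [hf1 _ _ hP, hf1 _ _ hP2, hrk]
    · have h' : ¬ ∃ d', P (g * k) d' := by
        rintro ⟨d', h1, hh1, e1⟩
        apply h
        refine ⟨d', h1 * k⁻¹, H'.mul_mem hh1 (H'.inv_mem hk), ?_⟩
        rw [hrk] at e1
        have : g = (g * k) * k⁻¹ := by group
        conv_lhs => rw [this, e1]
        group
      rw [hf0 _ h, hf0 _ h']
  let F : CoInd ι A := ⟨f, hfι⟩
  have hF : F ∈ fix (CoInd ι A) H' := by
    intro k hk
    apply Subtype.ext
    funext g
    exact hfH' g k hk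
  refine ⟨F, hF, ?_⟩
  -- the norm
  set N : CoInd ι A := ∑ i ∈ range p, s ^ i • F with hN
  have hNval : ∀ g, N.1 g = ∑ i ∈ range p, f (g * s ^ i) := by
    intro g
    rw [hN]
    rw [AddSubgroup.val_finsetSum, Finset.sum_apply]
    rfl
  -- the norm is invariant under `H`
  have hsp : ∀ g, f (g * s ^ p) = f g := fun g => hfH' g _ ((hc.ord p).mpr dvd_rfl)
  have hNs : ∀ g, N.1 (g * s) = N.1 g := by
    intro g
    rw [hNval, hNval]
    have h1 : ∀ i, f (g * s * s ^ i) = f (g * s ^ (i + 1)) := fun i => by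
      rw [pow_succ', mul_assoc]
    rw [sum_congr rfl fun i _ => h1 i]
    have h2 := sum_range_succ' (fun i => f (g * s ^ i)) p
    have h3 := sum_range_succ (fun i => f (g * s ^ i)) p
    rw [h3, hsp] at h2
    simp only [pow_zero, mul_one] at h2
    exact add_right_cancel h2.symm
  have hNk : ∀ g, ∀ k ∈ H', N.1 (g * k) = N.1 g := by
    intro g k hk
    rw [hNval, hNval]
    refine sum_congr rfl fun i _ => ?_
    rw [show g * k * s ^ i = g * s ^ i * ((s ^ i)⁻¹ * k * s ^ i) by group]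
    exact hfH' _ _ (hc.conj_mem' (H.pow_mem hc.mem i) hk)
  have hNH : ∀ g, ∀ h ∈ H, N.1 (g * h) = N.1 g := by
    intro g h hh
    obtain ⟨i, -, k, hk, rfl⟩ := hc.gen h hh
    rw [← mul_assoc, hNk _ _ hk]
    clear hk hh
    induction i with
    | zero => simp
    | succ i ih => rw [pow_succ, ← mul_assoc, hNs, ih]
  -- value at representatives
  have hNr : ∀ g, N.1 (r g) = x.1 (r g) := by
    intro g
    have hrr : r (r g) = r g := hr2 (hr g)
    rw [hNval]
    set σ := r g with hσ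
    have hrs : ∀ i : ℕ, r (σ * s ^ i) = σ := fun i => by
      rw [hrH _ _ (H.pow_mem hc.mem i), hrr]
    rcases hy σ with ⟨h1, h2⟩ | ⟨t, ht, hxy⟩
    · -- split case
      have hz : ∀ i ∈ range p, i ≠ 0 → f (σ * s ^ i) = 0 := by
        intro i hi hi0
        apply hf0
        rintro ⟨d, k, hk, e⟩
        rw [hrs] at e
        have h3 : d ∈ stab ι H σ := by
          rw [mem_stab]
          have e2 : σ⁻¹ * ι d * σ = s ^ i * k⁻¹ := by
            have : s ^ i = σ⁻¹ * (σ * s ^ i) := by group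
            rw [this, e]; group
          rw [e2]; exact H.mul_mem (H.pow_mem hc.mem i) (H.inv_mem (hc.le hk))
        have h4 := h1 h3
        rw [mem_stab] at h4
        have h5 : s ^ i ∈ H' := by
          have : s ^ i = (σ⁻¹ * ι d * σ) * k := by
            have e2 : s ^ i = σ⁻¹ * (σ * s ^ i) := by group
            rw [e2, e]; group
          rw [this]; exact H'.mul_mem h4 hk
        have h6 := (hc.ord i).mp h5
        exact hi0 (Nat.eq_zero_of_dvd_of_lt h6 (mem_range.mp hi))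
      rw [sum_eq_single_of_mem 0 (mem_range.mpr hp0) (fun i hi hi0 => hz i hi hi0)]
      have hP : P (σ * s ^ 0) 1 := ⟨1, H'.one_mem, by rw [hrs]; simp⟩
      rw [hf1 _ _ hP, hrs, one_smul, h2]
    · rw [hxy]
      refine sum_congr rfl fun i _ => ?_
      have h1 : (s ^ i)⁻¹ * (σ⁻¹ * ι t * σ) ^ i ∈ H' := hc.pow_mem_coset ht i
      have h2 : (σ⁻¹ * ι t * σ) ^ i = σ⁻¹ * ι (t ^ i) * σ := by
        rw [map_pow]
        have := conj_pow (a := σ⁻¹) (b := ι t) (i := i)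
        rw [inv_inv] at this
        exact this
      rw [h2] at h1
      have hP : P (σ * s ^ i) (t ^ i) := by
        refine ⟨((s ^ i)⁻¹ * (σ⁻¹ * ι (t ^ i) * σ))⁻¹, H'.inv_mem h1, ?_⟩
        rw [hrs]; group
      rw [hf1 _ _ hP, hrs]
  apply Subtype.ext
  funext g
  obtain ⟨d, h, hh, e⟩ := hr g
  have e1 : x.1 g = d • x.1 (r g) := by
    conv_lhs => rw [e]
    rw [coind_apply_mul ι hx _ hh]
    exact x.2 d (r g)
  have e2 : N.1 g = d • N.1 (r g) := by
    conv_lhs => rw [e]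
    rw [hNH _ _ hh]
    exact N.2 d (r g)
  show x.1 g = N.1 g
  rw [e1, e2, hNr]

end stab

end Fermat.Agent.CFTSec
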