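import Fermat.Agent.CFTLocal.Main
import Fermat.Agent.CFT.Unram
import Fermat.Agent.CFTSec.NormLemma

set_option autoImplicit false
set_option maxHeartbeats 400000

/-! Local Kummer theory. -/

namespace Fermat.Agent.CFTSec

open Fermat.Agent.CFT Fermat.Agent.CFTLocal Finset
open scoped Pointwise

section general

variable {K : Type*} [Field K] (A : ValuationSubring K)

theorem eq_one_of_valuation {p : ℕ} (hp : A.valuation (p : K) = 1) {ζ : K} (h : ζ ^ p = 1)
    (h1 : A.valuation (ζ - 1) < 1) : ζ = 1 := by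
  by_contra hne
  have h0 : ζ - 1 ≠ 0 := sub_ne_zero.mpr hne
  have h2 : ∑ i ∈ range p, ζ ^ i = 0 := by
    have h3 : (∑ i ∈ range p, ζ ^ i) * (ζ - 1) = 0 := by rw [geom_sum_mul, h, sub_self]
    exact (mul_eq_zero.mp h3).resolve_right h0
  have hζ : A.valuation ζ ≤ 1 := by
    have : ζ = (ζ - 1) + 1 := by ring
    rw [this]
    exact (A.valuation.map_add _ _).trans (max_le h1.le (by rw [map_one]))
  have h4 : A.valuation (∑ i ∈ range p, (ζ ^ i - 1)) < 1 := by
    apply Valuation.map_sum_lt _ one_ne_zero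
    intro i _
    have h5 : ζ ^ i - 1 = (∑ j ∈ range i, ζ ^ j) * (ζ - 1) := (geom_sum_mul ζ i).symm
    rw [h5, map_mul]
    refine mul_lt_one_of_nonneg_of_lt_one_right ?_ zero_le h1
    apply Valuation.map_sum_le
    intro j _
    rw [map_pow]; exact pow_le_one₀ zero_le hζ
  rw [Finset.sum_sub_distrib, h2, zero_sub, Finset.sum_const, Finset.card_range, nsmul_one,
    Valuation.map_neg, hp] at h4
  exact lt_irrefl _ h4

theorem exists_int_of_frob {q : ℕ} [hq : Fact q.Prime] (hA : A.LiesOverPrime q) {z : K}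
    (hz : z ∈ A) (h : A.valuation (z ^ q - z) < 1) : ∃ n : ℤ, A.valuation (z - n) < 1 := by
  have hmem : ((q : A) : K) ∈ A.nonunits := by
    have h0 : ((q : A) : K) = (q : K) := by simp
    rw [h0]; exact hA
  have hchar : CharP (IsLocalRing.ResidueField A) q := by
    rw [CharP.charP_iff_prime_eq_zero hq.out]
    have h1 : ((q : ℕ) : IsLocalRing.ResidueField A) = IsLocalRing.residue A (q : A) := by
      rw [map_natCast]
    rw [h1, IsLocalRing.residue_eq_zero_iff]
    have h2 : A.valuation ((q : A) : K) < 1 := by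
      rw [← Fermat.Agent.Frob.mem_nonunits_iff_valuation]; exact hmem
    exact (A.valuation_lt_one_iff (q : A)).mpr h2
  have h3 : (IsLocalRing.residue A ⟨z, hz⟩) ^ q = IsLocalRing.residue A ⟨z, hz⟩ := by
    rw [← map_pow, ← sub_eq_zero, ← map_sub, IsLocalRing.residue_eq_zero_iff]
    exact (A.valuation_lt_one_iff _).mpr h
  have h4 := (Subfield.mem_bot_iff_pow_eq_self (IsLocalRing.ResidueField A) q).mpr h3
  rw [mem_bot_iff_intCast q] at h4
  obtain ⟨n, hc⟩ := h4
  refine ⟨n, ?_⟩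
  have h5 : IsLocalRing.residue A (⟨z, hz⟩ - (n : A)) = 0 := by
    rw [map_sub, map_intCast, hc, sub_self]
  rw [IsLocalRing.residue_eq_zero_iff] at h5
  have h6 := (A.valuation_lt_one_iff _).mp h5
  simpa using h6

end general

section padic

variable {q : ℕ} [hq : Fact q.Prime]

theorem valuation_padic_lt (x : PadicAlgCl q) : (padicIntegers q).valuation x < 1 ↔ ‖x‖ < 1 := by
  rcases eq_or_ne x 0 with rfl | hx
  · simp
  have h1 : x⁻¹ ∈ padicIntegers q ↔ 1 ≤ ‖x‖ := by
    rw [mem_padicIntegers_iff, ← NNReal.coe_le_coe, coe_nnnorm, norm_inv, NNReal.coe_one,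
      inv_le_one₀ (norm_pos_iff.mpr hx)]
  have h3 : x⁻¹ ∈ padicIntegers q ↔ 1 ≤ (padicIntegers q).valuation x := by
    rw [← ValuationSubring.valuation_le_one_iff, map_inv₀, inv_le_one₀]
    exact zero_lt_iff.mpr ((Valuation.ne_zero_iff _).mpr hx)
  rw [← not_le, ← not_le, ← h1, ← h3]

theorem valuation_padic_nat {p : ℕ} [hp : Fact p.Prime] (hpq : p ≠ q) :
    (padicIntegers q).valuation (p : PadicAlgCl q) = 1 := by
  have h2 : ‖(p : PadicAlgCl q)‖ = 1 := by
    rw [norm_natCast_eq, Padic.norm_natCast_eq_one_iff]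
    exact ((Nat.coprime_primes hp.out hq.out).mpr hpq).symm
  apply le_antisymm
  · rw [ValuationSubring.valuation_le_one_iff, mem_padicIntegers_iff, ← NNReal.coe_le_coe,
      coe_nnnorm, h2, NNReal.coe_one]
  · rw [← not_lt, valuation_padic_lt, h2]; exact lt_irrefl _

theorem padic_eq_one {p : ℕ} [hp : Fact p.Prime] (hpq : p ≠ q) {ζ : PadicAlgCl q} (h : ζ ^ p = 1)
    (h1 : ‖ζ - 1‖ < 1) : ζ = 1 :=
  eq_one_of_valuation (padicIntegers q) (valuation_padic_nat hpq) h ((valuation_padic_lt _).mpr h1)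

/-- an element with fixed `p`-th power congruent to its image is fixed -/
theorem gal_eq_of_congr {p : ℕ} [hp : Fact p.Prime] (hpq : p ≠ q) {z : PadicAlgCl q} (hz : ‖z‖ = 1)
    {τ : LG q} (hτ : τ (z ^ p) = z ^ p) (h : ‖τ z - z‖ < 1) : τ z = z := by
  have hz0 : z ≠ 0 := by rintro rfl; simp at hz
  have h1 : (τ z / z) ^ p = 1 := by
    rw [div_pow, ← map_pow, hτ, div_self (pow_ne_zero _ hz0)]
  have h2 : ‖τ z / z - 1‖ < 1 := by
    have : τ z / z - 1 = (τ z - z) / z := by field_simp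
    rw [this, norm_div, hz, div_one]; exact h
  have h3 := padic_eq_one hpq h1 h2
  rwa [div_eq_one_iff_eq hz0] at h3

theorem padicIntegers_liesOver : (padicIntegers q).LiesOverPrime q := by
  show _ ∈ (padicIntegers q).nonunits
  rw [Fermat.Agent.Frob.mem_nonunits_iff_valuation, valuation_padic_lt, norm_natCast_eq,
    Padic.norm_p]
  exact inv_lt_one_of_one_lt₀ (by exact_mod_cast hq.out.one_lt)

/-- a unit fixed by a Frobenius is congruent to its images -/
theorem congr_of_frob {z : PadicAlgCl q} (hz : ‖z‖ = 1) {φ : LG q} (hφ : φ z = z)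
    (hfr : ‖φ z - z ^ q‖ < 1) (τ : LG q) : ‖τ z - z‖ < 1 := by
  obtain ⟨n, hn⟩ := exists_int_of_frob (padicIntegers q) padicIntegers_liesOver (z := z) (by
    rw [mem_padicIntegers_iff, ← NNReal.coe_le_coe, coe_nnnorm, hz, NNReal.coe_one]) (by
    rw [valuation_padic_lt, ← norm_neg, neg_sub]
    rwa [hφ] at hfr)
  rw [valuation_padic_lt] at hn
  have e : τ z - z = τ (z - n) - (z - n) := by
    rw [map_sub, map_intCast]; ring
  rw [e]
  refine (norm_sub_le_max' _ _).trans_lt (max_lt ?_ hn)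
  rwa [norm_gal]

theorem fixed_of_frob {p : ℕ} [hp : Fact p.Prime] (hpq : p ≠ q) {z : PadicAlgCl q} (hz : ‖z‖ = 1)
    {φ : LG q} (hφ : φ z = z) (hfr : ‖φ z - z ^ q‖ < 1) {τ : LG q} (hτ : τ (z ^ p) = z ^ p) :
    τ z = z :=
  gal_eq_of_congr hpq hz hτ (congr_of_frob hz hφ hfr τ)

end padic

section hunr

variable {q : ℕ} [hq : Fact q.Prime] {p : ℕ} [hp : Fact p.Prime]

/-- value groups do not change in a Kummer extension generated by a root of a unit -/
theorem hunr_kummer (hpq : p ≠ q) {N U : Subgroup (LG q)} {t : LG q} (hc : CycP p N U t)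
    {w ζ : PadicAlgCl q} (hw : ‖w‖ = 1) (hζ : IsPrimitiveRoot ζ p) (hζU : ∀ g ∈ U, g ζ = ζ)
    (hwN : ∀ g ∈ N, g w = w) (htw : t w = ζ * w) (a : LM q) (ha : a ∈ fix (LM q) N) :
    ∃ b ∈ fix (LM q) U, ∃ c ∈ LU q, a = b + c := by
  classical
  have hζ0 : ζ ≠ 0 := hζ.ne_zero hp.out.ne_zero
  have hζ1 : ‖ζ‖ = 1 := norm_zeta hζ
  have hw0 : w ≠ 0 := by rintro rfl; simp at hw
  have htp : ∀ x : PadicAlgCl q, (∀ g ∈ N, g x = x) → ∀ i, (t ^ (i + p)) x = (t ^ i) x := by
    intro x hx i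
    rw [pow_add, AlgEquiv.mul_apply, hx _ ((hc.ord p).mpr dvd_rfl)]
  have haN : ∀ g ∈ N, g (el a) = el a := fun g hg => congrArg el (ha g hg)
  have htN : ∀ (i : ℕ) (x : PadicAlgCl q), (∀ g ∈ N, g x = x) → ∀ g ∈ N, g ((t ^ i) x) = (t ^ i) x := by
    intro i x hx g hg
    have h1 : g * t ^ i = t ^ i * ((t ^ i)⁻¹ * g * t ^ i) := by group
    have h2 : (g * t ^ i) x = (t ^ i) x := by
      rw [h1, AlgEquiv.mul_apply, hx _ (hc.conj_mem' (U.pow_mem hc.mem i) hg)]
    exact h2
  -- eigencomponents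
  let r : ℕ → PadicAlgCl q := fun j => (p : PadicAlgCl q)⁻¹ * ∑ i ∈ range p, (ζ ^ (i * j))⁻¹ * (t ^ i) (el a)
  have hpn : ‖(p : PadicAlgCl q)‖ = 1 := by
    rw [norm_natCast_eq, Padic.norm_natCast_eq_one_iff]
    exact ((Nat.coprime_primes hp.out hq.out).mpr hpq).symm
  have hp0 : (p : PadicAlgCl q) ≠ 0 := Nat.cast_ne_zero.mpr hp.out.ne_zero
  have hrsum : ∑ j ∈ range p, r j = el a := by
    simp only [r]
    rw [← mul_sum, sum_comm]
    have h1 : ∀ i ∈ range p, ∑ j ∈ range p, (ζ ^ (i * j))⁻¹ * (t ^ i) (el a) =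
        if i = 0 then (p : PadicAlgCl q) * el a else 0 := by
      intro i hi
      rw [← sum_mul]
      split_ifs with h
      · rw [h]; simp
      · have h2 : ∑ j ∈ range p, (ζ ^ (i * j))⁻¹ = 0 := by
          have h3 : ∀ j, (ζ ^ (i * j))⁻¹ = ((ζ ^ i)⁻¹) ^ j := fun j => by rw [pow_mul, inv_pow]
          rw [sum_congr rfl fun j _ => h3 j]
          have h4 : (ζ ^ i)⁻¹ - 1 ≠ 0 := by
            rw [sub_ne_zero, ne_eq, inv_eq_one]
            intro h5
            have := hζ.dvd_of_pow_eq_one i h5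
            exact h (Nat.eq_zero_of_dvd_of_lt this (mem_range.mp hi))
          have h5 := geom_sum_mul ((ζ ^ i)⁻¹) p
          rw [inv_pow, ← pow_mul, mul_comm i p, pow_mul, hζ.pow_eq_one, one_pow, inv_one,
            sub_self] at h5
          exact (mul_eq_zero.mp h5).resolve_right h4
        rw [h2, zero_mul]
    rw [sum_congr rfl h1, sum_ite_eq' (range p) 0, if_pos (mem_range.mpr hp.out.pos)]
    field_simp
  have hrnorm : ∀ j, ‖r j‖ ≤ ‖el a‖ := by
    intro j
    simp only [r]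
    rw [norm_mul, norm_inv, hpn, inv_one, one_mul]
    have : ∀ s : Finset ℕ, ‖∑ i ∈ s, (ζ ^ (i * j))⁻¹ * (t ^ i) (el a)‖ ≤ ‖el a‖ := by
      intro s
      induction s using Finset.induction_on with
      | empty => simp
      | insert i s his ih =>
        rw [sum_insert his]
        refine (norm_add_le_max' _ _).trans (max_le ?_ ih)
        rw [norm_mul, norm_inv, norm_pow, hζ1, one_pow, inv_one, one_mul, norm_gal]
    exact this _
  obtain ⟨j, hj⟩ : ∃ j, ‖r j‖ = ‖el a‖ := by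
    by_contra hcon
    push Not at hcon
    have hlt : ∀ j, ‖r j‖ < ‖el a‖ := fun j => lt_of_le_of_ne (hrnorm j) (hcon j)
    have : ∀ s : Finset ℕ, ‖∑ j ∈ s, r j‖ < ‖el a‖ := by
      intro s
      induction s using Finset.induction_on with
      | empty => simpa using el_ne_zero a
      | insert i s his ih =>
        rw [sum_insert his]
        exact (norm_add_le_max' _ _).trans_lt (max_lt (hlt i) ih)
    have h := this (range p)
    rw [hrsum] at h
    exact lt_irrefl _ h
  -- eigenvector property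
  have hrN : ∀ g ∈ N, g (r j) = r j := by
    intro g hg
    simp only [r]
    rw [map_mul, map_inv₀, map_natCast, map_sum]
    congr 1
    refine sum_congr rfl fun i _ => ?_
    rw [map_mul, map_inv₀, map_pow, hζU g (hc.le hg), htN i _ haN g hg]
  have hrt : t (r j) = ζ ^ j * r j := by
    simp only [r]
    rw [map_mul, map_inv₀, map_natCast, map_sum]
    have h1 : ∀ i, t ((ζ ^ (i * j))⁻¹ * (t ^ i) (el a)) =
        ζ ^ j * ((ζ ^ ((i + 1) * j))⁻¹ * (t ^ (i + 1)) (el a)) := by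
      intro i
      rw [map_mul, map_inv₀, map_pow, hζU t hc.mem]
      have h2 : t ((t ^ i) (el a)) = (t ^ (i + 1)) (el a) := by
        rw [pow_succ', AlgEquiv.mul_apply]
      have h3 : (ζ ^ (i * j))⁻¹ = ζ ^ j * (ζ ^ ((i + 1) * j))⁻¹ := by
        rw [add_mul, one_mul, pow_add ζ (i * j) j, mul_inv]
        have := pow_ne_zero j hζ0
        field_simp
      rw [h2, h3, mul_assoc]
    rw [sum_congr rfl fun i _ => h1 i, ← mul_sum, ← mul_left_comm]
    congr 2
    have h2 := sum_range_succ' (fun i => (ζ ^ (i * j))⁻¹ * (t ^ i) (el a)) p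
    have h3 := sum_range_succ (fun i => (ζ ^ (i * j))⁻¹ * (t ^ i) (el a)) p
    rw [h3] at h2
    have h4 : (ζ ^ (p * j))⁻¹ * (t ^ p) (el a) = (ζ ^ (0 * j))⁻¹ * (t ^ 0) (el a) := by
      have h5 := htp _ haN 0
      rw [zero_add] at h5
      rw [h5, pow_mul, hζ.pow_eq_one, one_pow, zero_mul, pow_zero, pow_zero]
    rw [h4] at h2
    exact (add_right_cancel h2).symm
  have hr0 : r j ≠ 0 := by
    rw [← norm_ne_zero_iff, hj, norm_ne_zero_iff]; exact el_ne_zero a
  set c : PadicAlgCl q := r j / w ^ j with hcdef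
  have hc0 : c ≠ 0 := div_ne_zero hr0 (pow_ne_zero _ hw0)
  have hcN : ∀ g ∈ N, g c = c := by
    intro g hg
    rw [hcdef, map_div₀, map_pow, hrN g hg, hwN g hg]
  have hct : t c = c := by
    rw [hcdef, map_div₀, map_pow, hrt, htw, mul_pow]
    have := pow_ne_zero j hζ0
    have := pow_ne_zero j hw0
    field_simp
  have hcU : ∀ g ∈ U, g c = c := by
    intro g hg
    obtain ⟨i, -, k, hk, rfl⟩ := hc.gen g hg
    rw [AlgEquiv.mul_apply, hcN k hk]
    clear hk hg
    induction i with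
    | zero => rfl
    | succ i ih => rw [pow_succ, AlgEquiv.mul_apply, hct, ih]
  refine ⟨mkA c hc0, fun g hg => el_injective (by rw [el_smul]; exact hcU g hg),
    a - mkA c hc0, ?_, by abel⟩
  rw [mem_LU, ← NNReal.coe_inj, coe_nnnorm, NNReal.coe_one]
  change ‖el (a - mkA c hc0)‖ = 1
  rw [el_sub, el_mkA, norm_div, hcdef, norm_div, norm_pow, hw, one_pow, div_one, hj, div_self]
  rw [norm_ne_zero_iff]; exact el_ne_zero a

end hunr

end Fermat.Agent.CFTSec
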