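import Fermat.Agent.CFTSec.Kummer
import Fermat.Agent.CFT.First

set_option autoImplicit false
set_option maxHeartbeats 400000

/-! Kummer extensions and places. -/

namespace Fermat.Agent.CFTSec

open Fermat.Agent.CFT Fermat.Agent.CFTLocal Finset
open scoped Pointwise

section char

variable {p : ℕ} [hp : Fact p.Prime] {G : Type*} [Group G]

theorem char_pow {H : Subgroup G} {f : G → ZMod p} (hf : ∀ g ∈ H, ∀ h ∈ H, f (g * h) = f g + f h)
    {g : G} (hg : g ∈ H) (n : ℕ) : f (g ^ n) = n • f g := by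
  have h1 : f 1 = 0 := by
    have := hf 1 H.one_mem 1 H.one_mem
    rw [mul_one] at this
    exact left_eq_add.mp this
  induction n with
  | zero => rw [pow_zero, h1, zero_smul]
  | succ n ih => rw [pow_succ, hf _ (H.pow_mem hg n) _ hg, ih, succ_nsmul]

theorem char_inv {H : Subgroup G} {f : G → ZMod p} (hf : ∀ g ∈ H, ∀ h ∈ H, f (g * h) = f g + f h)
    {g : G} (hg : g ∈ H) : f g⁻¹ = - f g := by
  have h1 : f 1 = 0 := by
    have := hf 1 H.one_mem 1 H.one_mem
    rw [mul_one] at this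
    exact left_eq_add.mp this
  have h2 := hf g hg g⁻¹ (H.inv_mem hg)
  rw [mul_inv_cancel, h1] at h2
  exact (neg_eq_of_add_eq_zero_right h2.symm).symm

theorem CycP.of_char {H' H : Subgroup G} {f : G → ZMod p}
    (hf : ∀ g ∈ H, ∀ h ∈ H, f (g * h) = f g + f h) (hH' : ∀ g, g ∈ H' ↔ g ∈ H ∧ f g = 0)
    {s : G} (hs : s ∈ H) (hs1 : f s = 1) : CycP p H' H s := by
  haveI : NeZero p := ⟨hp.out.ne_zero⟩
  refine ⟨fun g hg => ((hH' g).mp hg).1, hs, ?_, ?_, ?_⟩
  · intro g hg k hk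
    obtain ⟨hk1, hk2⟩ := (hH' k).mp hk
    rw [hH']
    refine ⟨H.mul_mem (H.mul_mem hg hk1) (H.inv_mem hg), ?_⟩
    rw [hf _ (H.mul_mem hg hk1) _ (H.inv_mem hg), hf _ hg _ hk1, char_inv hf hg, hk2]; ring
  · intro g hg
    refine ⟨(f g).val, ZMod.val_lt _, (s ^ (f g).val)⁻¹ * g, ?_, by group⟩
    rw [hH']
    have h1 := H.pow_mem hs (f g).val
    refine ⟨H.mul_mem (H.inv_mem h1) hg, ?_⟩
    rw [hf _ (H.inv_mem h1) _ hg, char_inv hf h1, char_pow hf hs, hs1]
    simp
  · intro i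
    rw [hH', char_pow hf hs, hs1, nsmul_one]
    rw [ZMod.natCast_eq_zero_iff]
    exact ⟨fun h => h.2, fun h => ⟨H.pow_mem hs i, h⟩⟩

theorem relIndex_of_char {H' H : Subgroup G} {f : G → ZMod p}
    (hf : ∀ g ∈ H, ∀ h ∈ H, f (g * h) = f g + f h) (hH' : ∀ g, g ∈ H' ↔ g ∈ H ∧ f g = 0)
    {s : G} (hs : s ∈ H) (hs1 : f s = 1) : H'.relIndex H = p := by
  haveI : NeZero p := ⟨hp.out.ne_zero⟩
  let φ : H →* Multiplicative (ZMod p) := MonoidHom.mk' (fun g => Multiplicative.ofAdd (f g))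
    (fun g h => congrArg Multiplicative.ofAdd (hf g g.2 h h.2))
  have hker : φ.ker = H'.subgroupOf H := by
    ext g
    rw [MonoidHom.mem_ker, Subgroup.mem_subgroupOf, hH']
    constructor
    · intro h
      exact ⟨g.2, congrArg Multiplicative.toAdd h⟩
    · intro h
      exact congrArg Multiplicative.ofAdd h.2
  have hsurj : Function.Surjective φ := by
    intro c
    refine ⟨(⟨s, hs⟩ : H) ^ (Multiplicative.toAdd c).val, ?_⟩
    have h1 : φ (⟨s, hs⟩ : H) = Multiplicative.ofAdd 1 := congrArg Multiplicative.ofAdd hs1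
    rw [map_pow, h1]
    apply Multiplicative.toAdd.injective
    rw [toAdd_pow]
    simp
  rw [Subgroup.relIndex, ← hker, Subgroup.index_ker, MonoidHom.range_eq_top.mpr hsurj]
  rw [Nat.card_congr (Subgroup.topEquiv.toEquiv)]
  show Nat.card (ZMod p) = p
  exact Nat.card_zmod p

theorem exists_char_one {H : Subgroup G} {f : G → ZMod p}
    (hf : ∀ g ∈ H, ∀ h ∈ H, f (g * h) = f g + f h) {g : G} (hg : g ∈ H) (hfg : f g ≠ 0) :
    ∃ s ∈ H, f s = 1 := by
  haveI : NeZero p := ⟨hp.out.ne_zero⟩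
  refine ⟨g ^ ((f g)⁻¹).val, H.pow_mem hg _, ?_⟩
  rw [char_pow hf hg]
  simp [inv_mul_cancel₀ hfg]

end char

section field

variable {p : ℕ} [hp : Fact p.Prime] {ζ : Qb} (hζ : IsPrimitiveRoot ζ p)
  {F : IntermediateField ℚ Qb} (hζF : ζ ∈ F)

variable (p F) in
/-- the Kummer extension `F(b^{1/p})` -/
noncomputable def KF (b : Qb) : IntermediateField ℚ Qb := F ⊔ IntermediateField.adjoin ℚ {rt p b}

theorem le_KF (b : Qb) : F ≤ KF p F b := le_sup_left

theorem rt_mem_KF (b : Qb) : rt p b ∈ KF p F b :=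
  (le_sup_right : _ ≤ KF p F b) (IntermediateField.mem_adjoin_simple_self ℚ _)

include hζ hζF in
theorem mem_fixing_KF {b : Qb} (hb : b ∈ F) (hb0 : b ≠ 0) {g : GQ} :
    g ∈ (KF p F b).fixingSubgroup ↔ g ∈ F.fixingSubgroup ∧ kp p ζ g b = 0 := by
  constructor
  · intro h
    have h1 : g ∈ F.fixingSubgroup := IntermediateField.fixingSubgroup_antitone (le_KF b) h
    refine ⟨h1, ?_⟩
    rw [kp_eq_zero_iff hζ hζF h1 hb hb0 (rt_pow p b)]
    exact gal_fix h (rt_mem_KF b)
  · rintro ⟨h1, h2⟩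
    rw [kp_eq_zero_iff hζ hζF h1 hb hb0 (rt_pow p b)] at h2
    rw [KF, IntermediateField.fixingSubgroup_sup]
    refine ⟨h1, ?_⟩
    show g ∈ (IntermediateField.adjoin ℚ {rt p b}).fixingSubgroup
    rw [IntermediateField.mem_fixingSubgroup_iff]
    intro x hx
    have h3 : IntermediateField.adjoin ℚ {rt p b} ≤
        IntermediateField.fixedField (Subgroup.zpowers g) := by
      rw [IntermediateField.adjoin_simple_le_iff, IntermediateField.mem_fixedField_iff]
      rintro _ ⟨n, rfl⟩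
      have : g ∈ MulAction.stabilizer GQ (rt p b) := h2
      exact (MulAction.stabilizer GQ (rt p b)).zpow_mem this n
    have h4 := h3 hx
    rw [IntermediateField.mem_fixedField_iff] at h4
    exact h4 g (Subgroup.mem_zpowers g)

instance KF_fin (b : Qb) [FiniteDimensional ℚ F] : FiniteDimensional ℚ (KF p F b) := by
  haveI : FiniteDimensional ℚ (IntermediateField.adjoin ℚ {rt p b}) :=
    IntermediateField.adjoin.finiteDimensional (Algebra.IsIntegral.isIntegral _)
  exact IntermediateField.finiteDimensional_sup F _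

end field

section local_

variable (q : ℕ) [hq : Fact q.Prime]

theorem stab_apply {F : IntermediateField ℚ Qb} {σ : GQ} {t : LG q}
    (ht : t ∈ stab (localGaloisToGlobal q) F.fixingSubgroup σ) {x : Qb} (hx : x ∈ F) :
    t (padicEmbedding q (σ x)) = padicEmbedding q (σ x) := by
  rw [← padicEmbedding_localGaloisToGlobal]
  congr 1
  have h1 := gal_fix ht hx
  have h2 : localGaloisToGlobal q t (σ x) = σ ((σ⁻¹ * localGaloisToGlobal q t * σ) x) := by
    show _ = σ (σ⁻¹ (localGaloisToGlobal q t (σ x)))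
    exact (AlgEquiv.apply_symm_apply σ _).symm
  rw [h2, h1]

theorem gal_pe (t : LG q) (σ : GQ) (x : Qb) : t (padicEmbedding q (σ x)) =
    padicEmbedding q (σ ((σ⁻¹ * localGaloisToGlobal q t * σ) x)) := by
  rw [← padicEmbedding_localGaloisToGlobal]
  congr 1
  show _ = σ (σ⁻¹ (localGaloisToGlobal q t (σ x)))
  exact (AlgEquiv.apply_symm_apply σ _).symm

theorem isOpen_stab' (q : Nat.Primes) (F : IntermediateField ℚ Qb) [FiniteDimensional ℚ F]
    (σ : GQ) : IsOpen (stab (localGaloisToGlobal q) F.fixingSubgroup σ : Set (LG q)) := by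
  have h1 := isOpen_stabilizer q F (σ : GQ ⧸ F.fixingSubgroup)
  convert h1 using 1
  ext t
  rw [SetLike.mem_coe, SetLike.mem_coe, MulAction.mem_stabilizer_iff, coset_smul, eq_comm,
    QuotientGroup.eq, mem_stab]
  exact Iff.of_eq (by rw [mul_assoc])

theorem isOpen_stab (F : IntermediateField ℚ Qb) [FiniteDimensional ℚ F] (σ : GQ) :
    IsOpen (stab (localGaloisToGlobal q) F.fixingSubgroup σ : Set (LG q)) :=
  isOpen_stab' (⟨q, hq.out⟩ : Nat.Primes) F σ

variable {q} {p : ℕ} [hp : Fact p.Prime] {ζ : Qb} (hζ : IsPrimitiveRoot ζ p)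
  {F : IntermediateField ℚ Qb} (hζF : ζ ∈ F)

include hζ hζF in
/-- a place where `b` is a local `p`-th power splits in the Kummer extension -/
theorem split_of_pow {b : Qb} (hb : b ∈ F) (hb0 : b ≠ 0) {σ : GQ} {y : PadicAlgCl q}
    (hy : ∀ t ∈ stab (localGaloisToGlobal q) F.fixingSubgroup σ, t y = y)
    (hyb : y ^ p = padicEmbedding q (σ b)) :
    stab (localGaloisToGlobal q) F.fixingSubgroup σ ≤
      stab (localGaloisToGlobal q) (KF p F b).fixingSubgroup σ := by
  intro t ht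
  rw [mem_stab, mem_fixing_KF hζ hζF hb hb0]
  refine ⟨ht, ?_⟩
  rw [kp_eq_zero_iff hζ hζF ht hb hb0 (rt_pow p b)]
  apply σ.injective
  apply (padicEmbedding q).toRingHom.injective
  show padicEmbedding q _ = padicEmbedding q _
  rw [← gal_pe]
  have hr0 : padicEmbedding q (σ (rt p b)) ≠ 0 := by
    rw [ne_eq, map_eq_zero, map_eq_zero]
    exact rt_ne_zero p hb0
  have hprim : IsPrimitiveRoot (padicEmbedding q (σ ζ)) p :=
    (hζ.map_of_injective (f := (σ : Qb ≃ₐ[ℚ] Qb)) σ.injective).map_of_injective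
      (f := padicEmbedding q) (padicEmbedding q).toRingHom.injective
  have hrp : padicEmbedding q (σ (rt p b)) ^ p = padicEmbedding q (σ b) := by
    rw [← map_pow, ← map_pow, rt_pow]
  have h1 : (y / padicEmbedding q (σ (rt p b))) ^ p = 1 := by
    rw [div_pow, hyb, hrp, div_self]
    rw [← hrp]; exact pow_ne_zero _ hr0
  haveI : NeZero p := ⟨hp.out.ne_zero⟩
  obtain ⟨i, -, hi⟩ := hprim.eq_pow_of_pow_eq_one h1
  have h2 : padicEmbedding q (σ (rt p b)) = y * (padicEmbedding q (σ ζ) ^ i)⁻¹ := by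
    rw [hi]
    have hy0 : y ≠ 0 := by
      rintro rfl
      rw [zero_pow hp.out.ne_zero, ← hrp] at hyb
      exact pow_ne_zero _ hr0 hyb.symm
    field_simp
  rw [h2, map_mul, map_inv₀, map_pow, hy t ht, stab_apply q ht hζF]

include hζ hζF in
/-- units at a place where `b` is a unit times a `p`-th power are norms -/
theorem norm_unit (hpq : p ≠ q) [FiniteDimensional ℚ F] {b : Qb} (hb : b ∈ F) (hb0 : b ≠ 0)
    {s : GQ} (hs : s ∈ F.fixingSubgroup) (hs1 : kp p ζ s b = 1) {σ : GQ} {k : ℤ}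
    (hk : av q (σ b) = (q : ℝ) ^ (-(p * k) : ℤ)) {x : LM q}
    (hx : x ∈ fix (LM q) (stab (localGaloisToGlobal q) F.fixingSubgroup σ)) (hxu : x ∈ LU q) :
    stab (localGaloisToGlobal q) F.fixingSubgroup σ ≤
      stab (localGaloisToGlobal q) (KF p F b).fixingSubgroup σ ∨
    ∃ t : LG q, s⁻¹ * (σ⁻¹ * localGaloisToGlobal q t * σ) ∈ (KF p F b).fixingSubgroup ∧
      ∃ y ∈ fix (LM q) (stab (localGaloisToGlobal q) (KF p F b).fixingSubgroup σ),
        x = ∑ i ∈ range p, t ^ i • y := by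
  rw [or_iff_not_imp_left]
  intro hns
  rw [SetLike.not_le_iff_exists] at hns
  obtain ⟨t0, ht0, ht0'⟩ := hns
  have hchar : ∀ g ∈ F.fixingSubgroup, ∀ h ∈ F.fixingSubgroup,
      kp p ζ (g * h) b = kp p ζ g b + kp p ζ h b := fun g hg h hh =>
    kp_gmul hζ hζF hg hh hb hb0
  have hcyc : CycP p (KF p F b).fixingSubgroup F.fixingSubgroup s :=
    CycP.of_char hchar (fun g => mem_fixing_KF hζ hζF hb hb0) hs hs1
  obtain ⟨j, hj⟩ := hcyc.exists_pow ht0 ht0'
  set t := t0 ^ j with ht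
  have htg : (σ⁻¹ * localGaloisToGlobal q t0 * σ) ^ j = σ⁻¹ * localGaloisToGlobal q t * σ := by
    rw [ht, map_pow]
    have := conj_pow (a := σ⁻¹) (b := localGaloisToGlobal q t0) (i := j)
    rw [inv_inv] at this
    exact this
  rw [htg] at hj
  refine ⟨t, hj, ?_⟩
  have htU : t ∈ stab (localGaloisToGlobal q) F.fixingSubgroup σ := Subgroup.pow_mem _ ht0 j
  have hkt : kp p ζ (σ⁻¹ * localGaloisToGlobal q t * σ) b = 1 := by
    rw [mem_fixing_KF hζ hζF hb hb0] at hj
    have h1 := hj.2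
    rw [hchar _ (F.fixingSubgroup.inv_mem hs) _ htU, char_inv (f := fun g => kp p ζ g b) hchar hs, hs1,
      neg_add_eq_zero] at h1
    exact h1.symm
  -- local character
  let f : LG q → ZMod p := fun τ => kp p ζ (σ⁻¹ * localGaloisToGlobal q τ * σ) b
  have hf : ∀ g ∈ stab (localGaloisToGlobal q) F.fixingSubgroup σ,
      ∀ h ∈ stab (localGaloisToGlobal q) F.fixingSubgroup σ, f (g * h) = f g + f h := by
    intro g hg h hh
    have e : σ⁻¹ * localGaloisToGlobal q (g * h) * σ = (σ⁻¹ * localGaloisToGlobal q g * σ) *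
      (σ⁻¹ * localGaloisToGlobal q h * σ) := by rw [map_mul]; group
    simp only [f]
    rw [e]; exact hchar _ hg _ hh
  have hker : ∀ g, g ∈ stab (localGaloisToGlobal q) (KF p F b).fixingSubgroup σ ↔
      g ∈ stab (localGaloisToGlobal q) F.fixingSubgroup σ ∧ f g = 0 := fun g => by
    rw [mem_stab, mem_fixing_KF hζ hζF hb hb0]; rfl
  have hcycl := CycP.of_char hf hker htU hkt
  have hrel := relIndex_of_char hf hker htU hkt
  have htN : t ∉ stab (localGaloisToGlobal q) (KF p F b).fixingSubgroup σ := by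
    rw [hker]
    rintro ⟨-, h⟩
    have : (1 : ZMod p) = 0 := hkt.symm.trans h
    exact one_ne_zero this
  -- the unit `w`
  set r := rt p b with hr
  have hr0 : r ≠ 0 := rt_ne_zero p hb0
  have hq0 : (q : PadicAlgCl q) ≠ 0 := Nat.cast_ne_zero.mpr hq.out.ne_zero
  have hqn : ‖(q : PadicAlgCl q)‖ = (q : ℝ)⁻¹ := by
    rw [norm_natCast_eq, Padic.norm_p]
  have hqR : (0 : ℝ) < q := by exact_mod_cast hq.out.pos
  have hrn : ‖padicEmbedding q (σ r)‖ = (q : ℝ) ^ (-k) := by
    have h1 : ‖padicEmbedding q (σ r)‖ ^ p = ((q : ℝ) ^ (-k)) ^ p := by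
      rw [← norm_pow, ← map_pow, ← map_pow, hr, rt_pow]
      have : ‖padicEmbedding q (σ b)‖ = av q (σ b) := rfl
      rw [this, hk, ← zpow_natCast, ← zpow_mul]
      congr 1; ring
    exact (pow_left_inj₀ (norm_nonneg _) (by positivity) hp.out.ne_zero).mp h1
  set w : PadicAlgCl q := padicEmbedding q (σ r) * ((q : PadicAlgCl q) ^ k)⁻¹ with hw
  have hwn : ‖w‖ = 1 := by
    rw [hw, norm_mul, norm_inv, norm_zpow, hqn, hrn, inv_zpow, inv_inv, ← zpow_add₀ hqR.ne']
    simp
  have hgw : ∀ τ ∈ stab (localGaloisToGlobal q) F.fixingSubgroup σ,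
      τ w = padicEmbedding q (σ ζ) ^ (f τ).val * w := by
    intro τ hτ
    rw [hw, map_mul, map_inv₀, map_zpow₀, map_natCast, gal_pe, hr, kp_spec hζ hτ hb hb0, map_mul,
      map_mul, map_pow, map_pow, mul_assoc]
  have hprim : IsPrimitiveRoot (padicEmbedding q (σ ζ)) p :=
    (hζ.map_of_injective (f := (σ : Qb ≃ₐ[ℚ] Qb)) σ.injective).map_of_injective
      (f := padicEmbedding q) (padicEmbedding q).toRingHom.injective
  have hNop : IsOpen (stab (localGaloisToGlobal q) (KF p F b).fixingSubgroup σ : Set (LG q)) :=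
    isOpen_stab q _ σ
  have hunr := hunr_kummer (q := q) hpq hcycl hwn hprim (fun g hg => stab_apply q hg hζF)
    (fun g hg => by
      obtain ⟨h1, h2⟩ := (hker g).mp hg
      rw [hgw g h1, h2, ZMod.val_zero, pow_zero, one_mul]) (by
      rw [hgw t htU, show f t = 1 from hkt]
      haveI : Fact (1 < p) := ⟨hp.out.one_lt⟩
      rw [ZMod.val_one, pow_one])
  obtain ⟨y, hy, hxy⟩ := L2u hNop hcycl.le hcycl.norm hrel htU htN hunr x ⟨hx, hxu⟩
  exact ⟨y, hy.1, hxy⟩

end local_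

end Fermat.Agent.CFTSec
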