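import Fermat.Agent.CFTSec.Place

set_option autoImplicit false
set_option maxHeartbeats 400000

/-! Ramification in Kummer extensions, Frobenius data. -/

namespace Fermat.Agent.CFTSec

open Fermat.Agent.CFT Fermat.Agent.CFTLocal Finset
open scoped Pointwise

theorem inertia_valuation {A : ValuationSubring Qb} {σ : GQ} (hσ : σ ∈ A.inertiaSubgroupIn ℚ)
    {x : Qb} (hx : x ∈ A) : A.valuation (σ x - x) < 1 := by
  obtain ⟨⟨g, hg⟩, hgI, rfl⟩ := hσ
  have h : (⟨g, hg⟩ : A.decompositionSubgroup ℚ) ∈ A.inertiaSubgroup ℚ := hgI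
  have h1 := DFunLike.congr_fun (MonoidHom.mem_ker.mp h) (IsLocalRing.residue A ⟨x, hx⟩)
  have h3 : IsLocalRing.residue A ((⟨g, hg⟩ : A.decompositionSubgroup ℚ) • (⟨x, hx⟩ : A)) =
      IsLocalRing.residue A ⟨x, hx⟩ := h1
  rw [← sub_eq_zero, ← map_sub, IsLocalRing.residue_eq_zero_iff] at h3
  exact (A.valuation_lt_one_iff _).mp h3

variable {p : ℕ} [hp : Fact p.Prime] {ζ : Qb} (hζ : IsPrimitiveRoot ζ p)
  {F : IntermediateField ℚ Qb} (hζF : ζ ∈ F) {S : Finset Nat.Primes}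

theorem av_of_dvd {q : Nat.Primes} (hq : q ∉ S) {b : QS S} {σ : GQ}
    (hd : (p : ℤ) ∣ (divQ b).1 q σ) : ∃ k : ℤ, av q (σ (qv b)) = ((q : ℕ) : ℝ) ^ (-(p * k) : ℤ) := by
  obtain ⟨k, hk⟩ := hd
  refine ⟨k, ?_⟩
  rw [divQ_apply _ hq] at hk
  rw [← hk]
  exact av_eq_of_QS b hq σ

theorem exists_padicPlace_eq {q : Nat.Primes} {A : ValuationSubring Qb} (hA : A.LiesOverPrime q) :
    ∃ σ : GQ, A = σ⁻¹ • padicPlace (q : ℕ) := by
  obtain ⟨g, hg⟩ := Fermat.Agent.Frob.exists_eq_smul_Qbar (padicPlace (q : ℕ)) A q.2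
    (padicPlace_liesOver q) hA
  exact ⟨g⁻¹, by rw [inv_inv]; exact hg⟩

theorem valuation_inv_smul {q : ℕ} [Fact q.Prime] (σ : GQ) (x : Qb) :
    (σ⁻¹ • padicPlace q).valuation x < 1 ↔ av q (σ x) < 1 := by
  rw [valuation_smul_lt, inv_inv, valuation_lt_one_iff_av]

theorem mem_inv_smul {q : ℕ} [Fact q.Prime] (σ : GQ) (x : Qb) :
    x ∈ σ⁻¹ • padicPlace q ↔ av q (σ x) ≤ 1 := by
  rw [ValuationSubring.mem_pointwise_smul_iff_inv_smul_mem, inv_inv, mem_padicPlace_iff]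
  rfl

theorem av_prime_eq_one {q : ℕ} [hq : Fact q.Prime] (hpq : p ≠ q) : av q (p : Qb) = 1 := by
  rw [av_natCast, Padic.norm_natCast_eq_one_iff]
  exact ((Nat.coprime_primes hp.out hq.out).mpr hpq).symm

include hζ hζF in
theorem KF_unram (hF : F.IsUnramifiedOutside S) (hpS : (⟨p, hp.out⟩ : Nat.Primes) ∈ S)
    {T : Finset Nat.Primes} (hST : S ⊆ T) {b : QS S} (hb : qv b ∈ F)
    (hd : ∀ q ∉ T, ∀ σ, (p : ℤ) ∣ (divQ b).1 q σ) :
    (KF p F (qv b)).IsUnramifiedOutside T := by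
  haveI := hF.1
  refine ⟨inferInstance, fun q hq A hA g hg => ?_⟩
  have hqS : q ∉ S := fun h => hq (hST h)
  have hgF : g ∈ F.fixingSubgroup := hF.2 q hqS A hA hg
  rw [mem_fixing_KF hζ hζF hb (qv_ne_zero b)]
  refine ⟨hgF, ?_⟩
  obtain ⟨σ, rfl⟩ := exists_padicPlace_eq hA
  obtain ⟨k, hk⟩ := av_of_dvd hqS (hd q hq σ)
  have hpq : p ≠ (q : ℕ) := by
    intro h
    exact hqS (by
      have : q = ⟨p, hp.out⟩ := Subtype.ext h.symm
      rw [this]; exact hpS)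
  have hqR : (0 : ℝ) < (q : ℕ) := by exact_mod_cast q.2.pos
  set r := rt p (qv b) with hr
  have hr0 : r ≠ 0 := rt_ne_zero p (qv_ne_zero b)
  have hq0 : ((q : ℕ) : Qb) ≠ 0 := Nat.cast_ne_zero.mpr q.2.ne_zero
  have hrn : av q (σ r) = ((q : ℕ) : ℝ) ^ (-k) := by
    have h1 : av q (σ r) ^ p = (((q : ℕ) : ℝ) ^ (-k)) ^ p := by
      rw [← av_pow, ← map_pow, hr, rt_pow, hk, ← zpow_natCast, ← zpow_mul]
      congr 1; ring
    exact (pow_left_inj₀ (av_nonneg _ _) (by positivity) hp.out.ne_zero).mp h1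
  set z : Qb := r * (((q : ℕ) : Qb) ^ k)⁻¹ with hz
  have hzn : av q (σ z) = 1 := by
    rw [hz, map_mul, map_inv₀, map_zpow₀, map_natCast, av_mul, av_inv, av_zpow, av_q, hrn,
      inv_zpow, inv_inv, ← zpow_add₀ hqR.ne']
    simp
  have hz0 : z ≠ 0 := mul_ne_zero hr0 (inv_ne_zero (zpow_ne_zero _ hq0))
  have hzA : z ∈ σ⁻¹ • padicPlace (q : ℕ) := by rw [mem_inv_smul, hzn]
  have h1 := inertia_valuation hg hzA
  have hgz : g z = ζ ^ (kp p ζ g (qv b)).val * z := by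
    rw [hz, map_mul, map_inv₀, map_zpow₀, map_natCast, hr, kp_spec hζ hgF hb (qv_ne_zero b)]
    ring
  rw [valuation_inv_smul] at h1
  have h2 : (σ⁻¹ • padicPlace (q : ℕ)).valuation (ζ ^ (kp p ζ g (qv b)).val - 1) < 1 := by
    rw [valuation_inv_smul]
    have e : g z - z = (ζ ^ (kp p ζ g (qv b)).val - 1) * z := by rw [hgz]; ring
    rw [e, map_mul, av_mul, hzn, mul_one] at h1
    exact h1
  have h3 := eq_one_of_valuation (σ⁻¹ • padicPlace (q : ℕ)) (p := p) (by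
      apply le_antisymm
      · rw [ValuationSubring.valuation_le_one_iff, mem_inv_smul, map_natCast, av_prime_eq_one hpq]
      · rw [← not_lt, valuation_inv_smul, map_natCast, av_prime_eq_one hpq]; exact lt_irrefl _)
    (by rw [← pow_mul, mul_comm, pow_mul, hζ.pow_eq_one, one_pow]) h2
  have h4 : ζ ^ (kp p ζ g (qv b)).val = ζ ^ (0 : ZMod p).val := by
    haveI : NeZero p := ⟨hp.out.ne_zero⟩
    rw [h3, ZMod.val_zero, pow_zero]
  exact zeta_val_inj hζ h4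

/-- a place with Frobenius element -/
structure FrobPl where
  ell : Nat.Primes
  sig : GQ
  phi : LG (ell : ℕ)
  frob : ∀ z : PadicAlgCl (ell : ℕ), ‖z‖ ≤ 1 → ‖phi z - z ^ (ell : ℕ)‖ < 1

/-- the global Frobenius element -/
noncomputable def FrobPl.tau (v : FrobPl) : GQ := v.sig⁻¹ * localGaloisToGlobal v.ell v.phi * v.sig

/-- Frobenius density -/
theorem exists_frobPl (L : IntermediateField ℚ Qb) [FiniteDimensional ℚ L]
    (T : Finset Nat.Primes) (g : GQ) : ∃ v : FrobPl, v.ell ∉ T ∧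
      ∃ k m : ℕ, (∀ x ∈ L, (v.tau ^ k) x = g x) ∧ (∀ x ∈ L, (g ^ m) x = v.tau x) := by
  classical
  obtain ⟨ℓ, hℓ, hℓT, A, hA, τ, hτ, k, m, h1, h2⟩ := Fermat.Agent.FrobDens.exists_frobenius L
    ((T.image (fun q : Nat.Primes => (q : ℕ)) : Finset ℕ) : Set ℕ) (Finset.finite_toSet _) g
  obtain ⟨q, rfl⟩ : ∃ q : Nat.Primes, (q : ℕ) = ℓ := ⟨⟨ℓ, hℓ⟩, rfl⟩
  obtain ⟨σ, rfl⟩ := exists_padicPlace_eq hA
  have h3 := Fermat.Agent.FrobDens.isFrobeniusAt_conj hτ σ
  rw [smul_inv_smul] at h3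
  obtain ⟨φ, hφ, hfr⟩ := exists_local_frob h3
  refine ⟨⟨q, σ, φ, hfr⟩, ?_, k, m, ?_⟩
  · intro h
    exact hℓT (Finset.mem_coe.mpr (Finset.mem_image.mpr ⟨_, h, rfl⟩))
  · have : FrobPl.tau ⟨q, σ, φ, hfr⟩ = τ := by
      show σ⁻¹ * localGaloisToGlobal _ φ * σ = τ
      rw [hφ]; group
    rw [this]
    exact ⟨h1, h2⟩

section frob

variable (v : FrobPl) (hv : v.ell ∉ S) (hτ : v.tau ∈ F.fixingSubgroup)

theorem phi_mem_stab : v.phi ∈ stab (localGaloisToGlobal v.ell) F.fixingSubgroup v.sig ↔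
    v.tau ∈ F.fixingSubgroup := Iff.rfl

include hζ hζF hv hτ in
/-- units with trivial Frobenius symbol split -/
theorem frob_split (hpS : (⟨p, hp.out⟩ : Nat.Primes) ∈ S) {u : QS S} (hu : u ∈ SU S F)
    (h0 : kp p ζ v.tau (qv u) = 0) :
    stab (localGaloisToGlobal v.ell) F.fixingSubgroup v.sig ≤
      stab (localGaloisToGlobal v.ell) (KF p F (qv u)).fixingSubgroup v.sig := by
  have hpq : p ≠ (v.ell : ℕ) := by
    intro h
    exact hv (by
      have : v.ell = ⟨p, hp.out⟩ := Subtype.ext h.symm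
      rw [this]; exact hpS)
  have huF : qv u ∈ F := mem_fixQS.mp hu.1
  have hun := av_eq_one_of_SU hu.2 hv v.sig
  set w := padicEmbedding v.ell (v.sig (rt p (qv u))) with hw
  have hwp : w ^ p = padicEmbedding v.ell (v.sig (qv u)) := by
    rw [hw, ← map_pow, ← map_pow, rt_pow]
  have hwn : ‖w‖ = 1 := by
    have h1 : ‖w‖ ^ p = 1 := by rw [← norm_pow, hwp]; exact hun
    exact (pow_eq_one_iff_of_nonneg (norm_nonneg _) hp.out.ne_zero).mp h1
  refine split_of_pow hζ hζF huF (qv_ne_zero u) (y := w) (fun t ht => ?_) hwp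
  refine fixed_of_frob hpq hwn (φ := v.phi) ?_ (v.frob w hwn.le) ?_
  · rw [hw, gal_pe]
    have h1 : v.tau (rt p (qv u)) = rt p (qv u) :=
      (kp_eq_zero_iff hζ hζF hτ huF (qv_ne_zero u) (rt_pow p _)).mp h0
    have h2 : (v.sig⁻¹ * localGaloisToGlobal v.ell v.phi * v.sig) (rt p (qv u)) = rt p (qv u) := h1
    rw [h2]
  · rw [hwp, stab_apply _ ht huF]

include hζ hζF hv hτ in
/-- local units are `S`-units up to `p`-th powers -/
theorem frob_approx (hpS : (⟨p, hp.out⟩ : Nat.Primes) ∈ S) {x : LM v.ell}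
    (hx : x ∈ fix (LM v.ell) (stab (localGaloisToGlobal v.ell) F.fixingSubgroup v.sig))
    (hxu : x ∈ LU v.ell) : ∃ c : ZMod p, ∀ u ∈ SU S F, kp p ζ v.tau (qv u) = c →
      ∃ y ∈ fix (LM v.ell) (stab (localGaloisToGlobal v.ell) F.fixingSubgroup v.sig),
        x = (embQ v.ell u.1).1 v.sig + p • y := by
  haveI : NeZero p := ⟨hp.out.ne_zero⟩
  have hpq : p ≠ (v.ell : ℕ) := by
    intro h
    exact hv (by
      have : v.ell = ⟨p, hp.out⟩ := Subtype.ext h.symm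
      rw [this]; exact hpS)
  obtain ⟨y0, hy0⟩ := IsAlgClosed.exists_pow_nat_eq (el x) hp.out.pos
  have hxn : ‖el x‖ = 1 := by
    rw [mem_LU, ← NNReal.coe_inj, coe_nnnorm, NNReal.coe_one] at hxu; exact hxu
  have hyn : ‖y0‖ = 1 := by
    have h1 : ‖y0‖ ^ p = 1 := by rw [← norm_pow, hy0, hxn]
    exact (pow_eq_one_iff_of_nonneg (norm_nonneg _) hp.out.ne_zero).mp h1
  have hyne : y0 ≠ 0 := by rintro rfl; simp at hyn
  have hxfix : ∀ t ∈ stab (localGaloisToGlobal v.ell) F.fixingSubgroup v.sig, t (el x) = el x :=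
    fun t ht => congrArg el (hx t ht)
  have hprim : IsPrimitiveRoot (padicEmbedding v.ell (v.sig ζ)) p :=
    (hζ.map_of_injective (f := (v.sig : Qb ≃ₐ[ℚ] Qb)) v.sig.injective).map_of_injective
      (f := padicEmbedding v.ell) (padicEmbedding v.ell).toRingHom.injective
  have hsy : (v.phi y0 / y0) ^ p = 1 := by
    rw [div_pow, ← map_pow, hy0, hxfix _ hτ, div_self (el_ne_zero x)]
  obtain ⟨i, hi, hi2⟩ := hprim.eq_pow_of_pow_eq_one hsy
  refine ⟨(i : ZMod p), fun u hu hku => ?_⟩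
  have huF : qv u ∈ F := mem_fixQS.mp hu.1
  have hun := av_eq_one_of_SU hu.2 hv v.sig
  set w := padicEmbedding v.ell (v.sig (rt p (qv u))) with hw
  have hwp : w ^ p = padicEmbedding v.ell (v.sig (qv u)) := by
    rw [hw, ← map_pow, ← map_pow, rt_pow]
  have hwn : ‖w‖ = 1 := by
    have h1 : ‖w‖ ^ p = 1 := by rw [← norm_pow, hwp]; exact hun
    exact (pow_eq_one_iff_of_nonneg (norm_nonneg _) hp.out.ne_zero).mp h1
  have hw0 : w ≠ 0 := by rintro h; rw [h] at hwn; simp at hwn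
  set z := y0 / w with hz
  have hz0 : z ≠ 0 := div_ne_zero hyne hw0
  have hzn : ‖z‖ = 1 := by rw [hz, norm_div, hyn, hwn, div_one]
  have hzp : z ^ p = el x / padicEmbedding v.ell (v.sig (qv u)) := by
    rw [hz, div_pow, hy0, hwp]
  have hφz : v.phi z = z := by
    have h1 : v.phi w = padicEmbedding v.ell (v.sig ζ) ^ i * w := by
      rw [hw, gal_pe]
      have h2 : (v.sig⁻¹ * localGaloisToGlobal v.ell v.phi * v.sig) (rt p (qv u)) =
          ζ ^ (kp p ζ v.tau (qv u)).val * rt p (qv u) := kp_spec hζ hτ huF (qv_ne_zero u)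
      rw [h2, hku, zeta_val_natCast hζ, map_mul, map_mul, map_pow, map_pow]
    have h3 : v.phi y0 = padicEmbedding v.ell (v.sig ζ) ^ i * y0 := by
      rw [hi2]; field_simp
    rw [hz, map_div₀, h1, h3, mul_div_mul_left]
    exact pow_ne_zero _ (hprim.ne_zero hp.out.ne_zero)
  have hzfix : ∀ t ∈ stab (localGaloisToGlobal v.ell) F.fixingSubgroup v.sig, t z = z := by
    intro t ht
    refine fixed_of_frob hpq hzn hφz (v.frob z hzn.le) ?_
    rw [hzp, map_div₀, hxfix t ht, stab_apply _ ht huF]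
  refine ⟨mkA z hz0, fun t ht => el_injective (by rw [el_smul]; exact hzfix t ht), ?_⟩
  apply el_injective
  rw [el_add, el_nsmul, el_mkA, hzp]
  have h5 : el ((embQ v.ell u.1).1 v.sig) = padicEmbedding v.ell (v.sig (qv u)) := rfl
  rw [h5, mul_div_cancel₀]
  rw [← hwp]; exact pow_ne_zero _ hw0

end frob

end Fermat.Agent.CFTSec
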